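import Mathlib
import Fermat.Agent.MU.E.Desc.Kp.Eval

section MergeWrap_Lib_BadRed_PeuD_NodeLoc -- from Lib/BadRed/PeuD/NodeLoc.lean

set_option autoImplicit false
set_option linter.unusedSectionVars false
set_option linter.unusedVariables false

noncomputable section

open AlgebraicCurve Fermat.Agent.RR Fermat.Agent.Deuring Fermat.Agent.BadRed Fermat.Agent.EKp

namespace Fermat.Agent.PeuD

variable {K F k Fk₁ Fk₂ : Type*} [Field K] [Field F] [Algebra K F]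
  [Field k] [Field Fk₁] [Algebra k Fk₁] [Field Fk₂] [Algebra k Fk₂] {ι : Type*} [Fintype ι]

variable {N : NodalSeed K F k Fk₁ Fk₂ ι}

/-- `f` has no pole at the places of type N with node `i`. -/
def NoPoleAtNode (N : NodalSeed K F k Fk₁ Fk₂ ι) (i : ι) (f : F) : Prop :=
  ∀ P : Place K F, IsNodeOf N P i → 0 ≤ P.ord f

/-- `f` has neither zero nor pole at the places of type N with node `i`. -/
def NoDivAtNode (N : NodalSeed K F k Fk₁ Fk₂ ι) (i : ι) (f : F) : Prop :=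
  ∀ P : Place K F, IsNodeOf N P i → P.ord f = 0

theorem NoDivAtNode.noPole {i : ι} {f : F} (h : NoDivAtNode N i f) : NoPoleAtNode N i f :=
  fun P hP => (h P hP).ge

theorem NoDivAtNode.inv {i : ι} {f : F} (h : NoDivAtNode N i f) : NoDivAtNode N i f⁻¹ := by
  intro P hP
  rw [P.ord_inv, h P hP, neg_zero]

theorem NoDivAtNode.mul {i : ι} {f g : F} (hf : NoDivAtNode N i f) (hg : NoDivAtNode N i g) :
    NoDivAtNode N i (f * g) := by
  intro P hP
  rcases eq_or_ne f 0 with rfl | hf0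
  · rw [zero_mul]; exact Place.ord_zero P
  rcases eq_or_ne g 0 with rfl | hg0
  · rw [mul_zero]; exact Place.ord_zero P
  rw [P.ord_mul hf0 hg0, hf P hP, hg P hP, add_zero]

theorem noPoleAtNode_of_global {f : F} (h : ∀ P, N.rmap P = none → 0 ≤ P.ord f) (i : ι) :
    NoPoleAtNode N i f :=
  fun P hP => h P hP.1

/-- the cut-off function of a place of type N at another node. -/
theorem exists_node_cut [Infinite k] {P : Place K F} {i j : ι} (hj : IsNodeOf N P j)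
    (hij : j ≠ i) :
    ∃ z : F, N.toNodalCore.IsInt (N.m₁ • N.D₀ - Finsupp.single P 1) z ∧ NodeValAt N i z 1 := by
  classical
  obtain ⟨u, hu, -, -, hu₁, hu₂, -, -⟩ := exists_nodal_pair N.S₁.hFk N.S₂.hFk N.s₁ N.s₂
    N.s₁_inj N.s₂_inj (N.m₁ • N.R₁) (N.m₁ • N.R₂) (N.smul_R₁_node _) (N.smul_R₂_node _)
    ∅ ∅ (fun Q hQ => absurd hQ (Finset.notMem_empty Q))
    (fun Q hQ => absurd hQ (Finset.notMem_empty Q)) (N.hdeg₁ (le_refl _)) (N.hdeg₂ (le_refl _))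
    (fun l => if l = j then (0 : k) else 1)
  have huj : ValAt (N.s₁ j) u.1 0 := by simpa using hu₁ j
  have hui₁ : ValAt (N.s₁ i) u.1 1 := by
    have := hu₁ i
    rwa [if_neg (Ne.symm hij)] at this
  have hui₂ : ValAt (N.s₂ i) u.2 1 := by
    have := hu₂ i
    rwa [if_neg (Ne.symm hij)] at this
  have hmem : u ∈ nodalRR N.s₁ N.s₂ (N.m₁ • N.R₁ - Finsupp.single (N.s₁ j) 1)
      (N.m₁ • N.R₂) := by
    refine ⟨td_mem_sub_single hu.1 ?_, hu.2.1, hu.2.2⟩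
    rcases (valAt_zero_right_iff _ _).mp huj with h0 | h0
    · exact Or.inl h0
    · right
      rw [N.smul_R₁_node]
      omega
  rw [← hj.2 _ (le_refl _)] at hmem
  obtain ⟨z, hz, hzu⟩ := (N.toNodalCore.mem_V_iff _).mp hmem
  have h1 : N.S₁.red z = u.1 := congrArg Prod.fst hzu
  have h2 : N.S₂.red z = u.2 := congrArg Prod.snd hzu
  refine ⟨z, hz, ?_, ?_⟩
  · rw [h1]; exact hui₁
  · rw [h2]; exact hui₂

/-- for finitely many places `Q`, none of them of type N with node `i`, with multiplicities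
`n Q`, there is `H ∈ O₁ ∩ O₂` with the value `1` at the node `i`, vanishing to the order `n Q`
at `Q`, with poles bounded by a multiple of `D₀`. -/
theorem exists_node_unit_loc [Infinite k] (i : ι) (n : Place K F → ℕ) (s : Finset (Place K F))
    (hs : ∀ P ∈ s, ¬ IsNodeOf N P i) :
    ∃ (m : ℕ) (H : F), H ∈ N.S₁.Ov ∧ H ∈ N.S₂.Ov ∧ NodeValAt N i H 1 ∧
      ∀ Q : Place K F, -(m • N.D₀) Q ≤ Q.ord H ∧
        (Q ∈ s → (n Q : ℤ) - (m • N.D₀) Q ≤ Q.ord H) := by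
  classical
  induction s using Finset.induction_on with
  | empty =>
    refine ⟨0, 1, one_mem _, one_mem _, nodeValAt_one i, fun Q => ?_⟩
    have h1 : Q.ord (1 : F) = 0 := by
      have := Fermat.Agent.S24Res.ord_algebraMap Q (1 : K)
      rwa [map_one] at this
    rw [h1, zero_smul]
    refine ⟨by simp, fun h => absurd h (Finset.notMem_empty Q)⟩
  | insert P s hPs ih =>
    obtain ⟨m, H, hH₁, hH₂, hHv, hHord⟩ := ih (fun Q hQ => hs Q (Finset.mem_insert_of_mem hQ))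
    have hPi : ¬ IsNodeOf N P i := hs P (Finset.mem_insert_self _ _)
    have key : ∃ (m' : ℕ) (h : F),
        N.toNodalCore.IsInt (m' • N.D₀ - Finsupp.single P 1) h ∧ NodeValAt N i h 1 := by
      by_cases hP : N.rmap P = none
      · obtain ⟨j, hj⟩ := exists_isNodeOf hP
        have hji : j ≠ i := fun h => hPi (h ▸ hj)
        obtain ⟨z, hz, hzv⟩ := exists_node_cut hj hji
        exact ⟨N.m₁, z, hz, hzv⟩
      · obtain ⟨X, hX⟩ := Option.ne_none_iff_exists'.mp hP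
        obtain ⟨m', h, hh, hh₁, hh₂⟩ := N.nodalType.node_unit P X hX i
        exact ⟨m', h, hh, hh₁, hh₂⟩
    obtain ⟨m', h, hh, hhv⟩ := key
    have hh0 : h ≠ 0 := N.S₁.ne_zero_of_red_ne_zero (ev_ne_zero_of_valAt hhv.1 one_ne_zero)
    have hH0 : H ≠ 0 := N.S₁.ne_zero_of_red_ne_zero (ev_ne_zero_of_valAt hHv.1 one_ne_zero)
    refine ⟨n P * m' + m, h ^ n P * H, mul_mem (pow_mem hh.2.1 _) hH₁,
      mul_mem (pow_mem hh.2.2 _) hH₂, ?_, fun Q => ?_⟩
    · have := (hhv.pow hh.2.1 hh.2.2 (n P)).mul (pow_mem hh.2.1 _) (pow_mem hh.2.2 _) hH₁ hH₂ hHv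
      rwa [one_pow, one_mul] at this
    · have h1 := ((mem_riemannRochSpace_iff.mp hh.1) Q).resolve_left hh0
      rw [Finsupp.sub_apply, Finsupp.single_apply, Finsupp.smul_apply, nsmul_eq_mul] at h1
      obtain ⟨h2, h2'⟩ := hHord Q
      rw [Finsupp.smul_apply, nsmul_eq_mul] at h2 h2'
      rw [Q.ord_mul (pow_ne_zero _ hh0) hH0, Gluing.ord_pow_nat, Finsupp.smul_apply, nsmul_eq_mul]
      have hn0 : (0 : ℤ) ≤ (n P : ℤ) := Int.natCast_nonneg _
      have hd0 : (0 : ℤ) ≤ N.D₀ Q := N.D₀_nonneg Q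
      push_cast
      by_cases hQP : P = Q
      · subst hQP
        rw [if_pos rfl] at h1
        have h3 : (n P : ℤ) * (-((m' : ℤ) * N.D₀ P - 1)) ≤ (n P : ℤ) * P.ord h :=
          mul_le_mul_of_nonneg_left h1 hn0
        refine ⟨by nlinarith, fun _ => by nlinarith⟩
      · rw [if_neg hQP] at h1
        have h3 : (n P : ℤ) * (-((m' : ℤ) * N.D₀ Q - 0)) ≤ (n P : ℤ) * Q.ord h :=
          mul_le_mul_of_nonneg_left h1 hn0
        refine ⟨by nlinarith, fun hQ => ?_⟩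
        have hQs : Q ∈ s := (Finset.mem_insert.mp hQ).resolve_left (Ne.symm hQP)
        have h4 := h2' hQs
        nlinarith

/-- the cut-off function of `f` at the node `i`: `H ∈ O₁ ∩ O₂` with the value `1` at the node
`i` such that `f H` lies in `𝔏(m D₀)`. -/
theorem exists_cutoff [Infinite k] {i : ι} {f : F} (hf₁ : f ∈ N.S₁.Ov) (hf₂ : f ∈ N.S₂.Ov)
    (hf0 : f ≠ 0) (hpole : NoPoleAtNode N i f) :
    ∃ (m : ℕ) (H : F), N.toNodalCore.IsInt (m • N.D₀) H ∧ NodeValAt N i H 1 ∧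
      N.toNodalCore.IsInt (m • N.D₀) (f * H) := by
  classical
  set s : Finset (Place K F) :=
    (divOf N.S₁.hF f).support.filter (fun Q => Q.ord f < 0) with hs
  have hs_ord : ∀ Q ∈ s, ¬ IsNodeOf N Q i := by
    intro Q hQ h
    have h1 := hpole Q h
    have h2 := (Finset.mem_filter.mp hQ).2
    omega
  obtain ⟨m, H, hH₁, hH₂, hHv, hHord⟩ :=
    exists_node_unit_loc (N := N) i (fun Q => (-(Q.ord f)).toNat) s hs_ord
  have hH0 : H ≠ 0 := N.S₁.ne_zero_of_red_ne_zero (ev_ne_zero_of_valAt hHv.1 one_ne_zero)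
  refine ⟨m, H, ⟨mem_riemannRochSpace_iff.mpr fun Q => Or.inr (hHord Q).1, hH₁, hH₂⟩, hHv, ?_⟩
  refine ⟨mem_riemannRochSpace_iff.mpr fun Q => Or.inr ?_, mul_mem hf₁ hH₁, mul_mem hf₂ hH₂⟩
  rw [Q.ord_mul hf0 hH0]
  obtain ⟨h1, h1'⟩ := hHord Q
  by_cases hQ : Q.ord f < 0
  · have hne : (divOf N.S₁.hF f) Q ≠ 0 := by
      rw [divOf_apply]
      omega
    have hQs : Q ∈ s := Finset.mem_filter.mpr ⟨Finsupp.mem_support_iff.mpr hne, hQ⟩
    have h3 := h1' hQs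
    have h2 : (((-(Q.ord f)).toNat : ℕ) : ℤ) = -(Q.ord f) := Int.toNat_of_nonneg (by omega)
    simp only [h2] at h3
    omega
  · omega

/-- the functions of `𝔏(m D₀)` have no pole at the places of type N. -/
theorem noPole_of_isInt [Infinite k] {m : ℕ} {g : F} (hg : N.toNodalCore.IsInt (m • N.D₀) g)
    (P : Place K F) (hP : N.rmap P = none) : 0 ≤ P.ord g := by
  rcases eq_or_ne g 0 with rfl | hg0
  · rw [Place.ord_zero]
  have h1 := ((mem_riemannRochSpace_iff.mp hg.1) P).resolve_left hg0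
  rw [Finsupp.smul_apply, D₀_apply_of_rmap_eq_none hP, smul_zero] at h1
  omega

/-- division by a function with the value `1`. -/
theorem valAt_of_mul_valAt_one {k' F' : Type*} [Field k'] [Field F'] [Algebra k' F']
    {Q : Place k' F'} {a b : F'} {d : k'} (hab : ValAt Q (a * b) d) (hb : ValAt Q b 1) :
    ValAt Q a d := by
  have hb0 : b ≠ 0 := ev_ne_zero_of_valAt hb one_ne_zero
  have hbinv := ev_valAt_inv hb one_ne_zero
  have h := Gluing.valAt_mul hab hbinv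
  rwa [inv_one, mul_one, mul_assoc, mul_inv_cancel₀ hb0, mul_one] at h

/-- regularity after division by a function with the value `1`. -/
theorem ord_nonneg_of_mul_valAt_one {k' F' : Type*} [Field k'] [Field F'] [Algebra k' F']
    {Q : Place k' F'} {a b : F'} (hab : 0 ≤ Q.ord (a * b)) (hb : ValAt Q b 1) :
    0 ≤ Q.ord a := by
  rcases eq_or_ne a 0 with rfl | ha0
  · rw [Place.ord_zero]
  have hb0 : b ≠ 0 := ev_ne_zero_of_valAt hb one_ne_zero
  have hord : Q.ord b = 0 := Gluing.ord_eq_zero_of_valAt hb one_ne_zero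
  rw [Q.ord_mul ha0 hb0, hord, add_zero] at hab
  exact hab

/-- **NODE-loc**: the node condition localised at the node `i`.  A function of `O₁ ∩ O₂` without
poles at the places of type N with node `i` reduces to a pair of functions which are regular at
`s₁ i`, `s₂ i` and take the same value there. -/
theorem node_loc [Infinite k] {i : ι} {f : F} (hf₁ : f ∈ N.S₁.Ov) (hf₂ : f ∈ N.S₂.Ov)
    (hpole : NoPoleAtNode N i f) :
    0 ≤ (N.s₁ i).ord (N.S₁.red f) ∧ 0 ≤ (N.s₂ i).ord (N.S₂.red f) ∧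
      ∃ c : k, NodeValAt N i f c := by
  rcases eq_or_ne f 0 with rfl | hf0
  · refine ⟨?_, ?_, 0, ?_, ?_⟩
    · rw [N.S₁.red_zero, Place.ord_zero]
    · rw [N.S₂.red_zero, Place.ord_zero]
    · rw [N.S₁.red_zero]; exact valAt_zero _
    · rw [N.S₂.red_zero]; exact valAt_zero _
  obtain ⟨m, H, hHI, hHv, hfHI⟩ := exists_cutoff hf₁ hf₂ hf0 hpole
  obtain ⟨hr₁', hr₂', d, hd₁', hd₂'⟩ := N.nodalSetup.node (f * H) hfHI.2.1 hfHI.2.2
    (fun P hP => noPole_of_isInt hfHI P hP) i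
  have hr₁ : 0 ≤ (N.s₁ i).ord (N.S₁.red (f * H)) := hr₁'
  have hr₂ : 0 ≤ (N.s₂ i).ord (N.S₂.red (f * H)) := hr₂'
  have hd₁ : ValAt (N.s₁ i) (N.S₁.red (f * H)) d := hd₁'
  have hd₂ : ValAt (N.s₂ i) (N.S₂.red (f * H)) d := hd₂'
  rw [N.S₁.red_mul hf₁ hHI.2.1] at hr₁ hd₁
  rw [N.S₂.red_mul hf₂ hHI.2.2] at hr₂ hd₂
  exact ⟨ord_nonneg_of_mul_valAt_one hr₁ hHv.1, ord_nonneg_of_mul_valAt_one hr₂ hHv.2, d,
    valAt_of_mul_valAt_one hd₁ hHv.1, valAt_of_mul_valAt_one hd₂ hHv.2⟩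

/-- **EVAL-loc**: `f ∈ O₁ ∩ O₂` without poles at the places of type N with node `i`, `P` of
type N with node `i`, `f(P) = c`.  Then `c ∈ A` and the reductions of `f` take the value `res c`
at the node `i`. -/
theorem eval_loc [Infinite k] {f : F} (hf₁ : f ∈ N.S₁.Ov) (hf₂ : f ∈ N.S₂.Ov)
    {P : Place K F} {i : ι} (hpole : NoPoleAtNode N i f) (hi : IsNodeOf N P i) {c : K}
    (hc : ValAt P f c) :
    ∃ hcA : c ∈ N.S₁.A, NodeValAt N i f (N.S₁.res ⟨c, hcA⟩) := by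
  rcases eq_or_ne f 0 with rfl | hf0
  · have hc0 : c = 0 := hc.unique (valAt_zero P)
    subst hc0
    refine ⟨zero_mem _, ?_⟩
    have h0 : N.S₁.res ⟨0, zero_mem _⟩ = 0 := map_zero N.S₁.res
    rw [h0]
    exact ⟨by rw [N.S₁.red_zero]; exact valAt_zero _, by rw [N.S₂.red_zero]; exact valAt_zero _⟩
  obtain ⟨m, H, hHI, hHv, hfHI⟩ := exists_cutoff hf₁ hf₂ hf0 hpole
  have hH₁ := hHI.2.1
  have hH₂ := hHI.2.2
  have hHP : 0 ≤ P.ord H := noPole_of_isInt hHI P hi.1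
  obtain ⟨cH, hcH⟩ := Gluing.exists_valAt N.S₁.hF P hHP
  obtain ⟨hcHA, hcHv⟩ := eval_isInt hHI hi hcH
  have hres1 : N.S₁.res ⟨cH, hcHA⟩ = 1 := hcHv.unique hHv
  obtain ⟨hccA, hccv⟩ := eval_isInt hfHI hi (Gluing.valAt_mul hc hcH)
  have hcH0 : cH ≠ 0 := by
    intro h0
    have e : (⟨cH, hcHA⟩ : N.S₁.A) = 0 := Subtype.ext h0
    rw [e, map_zero] at hres1
    exact zero_ne_one hres1
  have hcHinv : cH⁻¹ ∈ N.S₁.A := by
    by_contra hn
    obtain ⟨h', hres'⟩ := N.S₁.res_inv_eq_zero hn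
    have e : (⟨cH⁻¹⁻¹, h'⟩ : N.S₁.A) = ⟨cH, hcHA⟩ := Subtype.ext (inv_inv cH)
    rw [e, hres1] at hres'
    exact one_ne_zero hres'
  have hcA : c ∈ N.S₁.A := by
    have e : c = (c * cH) * cH⁻¹ := by
      rw [mul_assoc, mul_inv_cancel₀ hcH0, mul_one]
    rw [e]
    exact mul_mem hccA hcHinv
  refine ⟨hcA, ?_⟩
  have hresmul : N.S₁.res ⟨c * cH, hccA⟩ = N.S₁.res ⟨c, hcA⟩ := by
    have e : (⟨c * cH, hccA⟩ : N.S₁.A) = ⟨c, hcA⟩ * ⟨cH, hcHA⟩ := rfl
    rw [e, map_mul, hres1, mul_one]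
  rw [hresmul] at hccv
  obtain ⟨-, -, d, hd⟩ := node_loc hf₁ hf₂ hpole
  have hdc := (hd.mul hf₁ hf₂ hH₁ hH₂ hHv).unique hccv
  rw [mul_one] at hdc
  rw [← hdc]
  exact hd

/-- **NODE-loc for units**: `f`, `f⁻¹ ∈ O₁ ∩ O₂` without zeros and poles at the places of type N
with node `i`: both reductions have the order `0` at the node `i`, with a common nonzero value. -/
theorem node_loc_unit [Infinite k] {i : ι} {f : F} (hf₁ : f ∈ N.S₁.Ov) (hf₂ : f ∈ N.S₂.Ov)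
    (hg₁ : f⁻¹ ∈ N.S₁.Ov) (hg₂ : f⁻¹ ∈ N.S₂.Ov) (hf0 : f ≠ 0) (hdiv : NoDivAtNode N i f) :
    (N.s₁ i).ord (N.S₁.red f) = 0 ∧ (N.s₂ i).ord (N.S₂.red f) = 0 ∧
      ∃ c : k, c ≠ 0 ∧ NodeValAt N i f c := by
  obtain ⟨h1, h2, c, hc⟩ := node_loc hf₁ hf₂ hdiv.noPole
  obtain ⟨h1', h2', c', hc'⟩ := node_loc hg₁ hg₂ hdiv.inv.noPole
  have hm := hc.mul hf₁ hf₂ hg₁ hg₂ hc'
  rw [mul_inv_cancel₀ hf0] at hm
  have hcc : c * c' = 1 := hm.unique (nodeValAt_one i)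
  have hc0 : c ≠ 0 := left_ne_zero_of_mul_eq_one hcc
  exact ⟨Gluing.ord_eq_zero_of_valAt hc.1 hc0, Gluing.ord_eq_zero_of_valAt hc.2 hc0, c, hc0, hc⟩

end Fermat.Agent.PeuD
end
end MergeWrap_Lib_BadRed_PeuD_NodeLoc
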