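import Mathlib
import Fermat.Agent.MU.Lib.BadRed.PeuD.NodeLoc

section MergeWrap_Lib_BadRed_PeuD_Key -- from Lib/BadRed/PeuD/Key.lean

set_option autoImplicit false
set_option linter.unusedSectionVars false
set_option linter.unusedVariables false

noncomputable section

open AlgebraicCurve Fermat.Agent.RR Fermat.Agent.Deuring Fermat.Agent.BadRed Fermat.Agent.EKp

namespace Fermat.Agent.PeuD

/-! ### pure algebra -/

/-- `(1 + y)^m = 1 + m y + y² r`. -/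
theorem key_one_add_pow {R : Type*} [CommRing R] (y : R) (m : ℕ) :
    ∃ r : R, (1 + y) ^ m = 1 + m * y + y ^ 2 * r := by
  induction m with
  | zero => exact ⟨0, by simp⟩
  | succ n ih =>
    obtain ⟨r, hr⟩ := ih
    refine ⟨r + n + y * r, ?_⟩
    rw [pow_succ, hr]
    push_cast
    ring

/-! ### first-order calculus on one `ValSetup` -/

section FirstOrd

variable {K F k Fk : Type*} [Field K] [Field F] [Algebra K F]
  [Field k] [Field Fk] [Algebra k Fk]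

/-- `f = 1 + π b` with `b ∈ Ov` and `red b = B`. -/
def FirstOrd (S : ValSetup K F k Fk) (π : K) (f : F) (B : Fk) : Prop :=
  (f - 1) / algebraMap K F π ∈ S.Ov ∧ S.red ((f - 1) / algebraMap K F π) = B

variable {S : ValSetup K F k Fk} {π : K}

theorem FirstOrd.eq_add (hπ0 : π ≠ 0) {f : F} {B : Fk} (h : FirstOrd S π f B) :
    f = 1 + algebraMap K F π * ((f - 1) / algebraMap K F π) := by
  have hc : algebraMap K F π ≠ 0 := (map_ne_zero (algebraMap K F)).mpr hπ0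
  field_simp
  ring

theorem FirstOrd.mem (hπA : π ∈ S.A) (hπ0 : π ≠ 0) {f : F} {B : Fk} (h : FirstOrd S π f B) :
    f ∈ S.Ov := by
  rw [h.eq_add hπ0]
  exact add_mem (one_mem _) (mul_mem (S.algebraMap_mem hπA) h.1)

theorem FirstOrd.red_eq_one (hπA : π ∈ S.A) (hπ0 : π ≠ 0) (hπr : S.res ⟨π, hπA⟩ = 0) {f : F}
    {B : Fk} (h : FirstOrd S π f B) : S.red f = 1 := by
  rw [h.eq_add hπ0, S.red_add (one_mem _) (mul_mem (S.algebraMap_mem hπA) h.1), S.red_one,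
    S.red_mul (S.algebraMap_mem hπA) h.1, S.red_algebraMap hπA, hπr, map_zero, zero_mul, add_zero]

theorem firstOrd_one (S : ValSetup K F k Fk) (π : K) : FirstOrd S π 1 0 := by
  refine ⟨?_, ?_⟩
  · rw [sub_self, zero_div]; exact zero_mem _
  · rw [sub_self, zero_div, S.red_zero]

theorem FirstOrd.mul (hπA : π ∈ S.A) (hπ0 : π ≠ 0) (hπr : S.res ⟨π, hπA⟩ = 0) {f g : F}
    {B C : Fk} (hf : FirstOrd S π f B) (hg : FirstOrd S π g C) : FirstOrd S π (f * g) (B + C) := by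
  have hc : algebraMap K F π ≠ 0 := (map_ne_zero (algebraMap K F)).mpr hπ0
  have e : (f * g - 1) / algebraMap K F π =
      (f - 1) / algebraMap K F π * g + (g - 1) / algebraMap K F π := by
    field_simp
    ring
  have hgm := hg.mem hπA hπ0
  refine ⟨?_, ?_⟩
  · rw [e]; exact add_mem (mul_mem hf.1 hgm) hg.1
  · rw [e, S.red_add (mul_mem hf.1 hgm) hg.1, S.red_mul hf.1 hgm, hf.2, hg.2,
      hg.red_eq_one hπA hπ0 hπr, mul_one]

theorem FirstOrd.pow (hπA : π ∈ S.A) (hπ0 : π ≠ 0) (hπr : S.res ⟨π, hπA⟩ = 0) {f : F}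
    {B : Fk} (hf : FirstOrd S π f B) (m : ℕ) : FirstOrd S π (f ^ m) ((m : Fk) * B) := by
  induction m with
  | zero =>
    rw [pow_zero, Nat.cast_zero, zero_mul]
    exact firstOrd_one S π
  | succ n ih =>
    rw [pow_succ]
    have := ih.mul hπA hπ0 hπr hf
    have e : (n : Fk) * B + B = ((n + 1 : ℕ) : Fk) * B := by push_cast; ring
    rwa [e] at this

/-- a constant `1 + π γ`, `γ ∈ A`. -/
theorem firstOrd_const (hπ0 : π ≠ 0) {c : K} (hγ : (c - 1) / π ∈ S.A) :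
    FirstOrd S π (algebraMap K F c) (algebraMap k Fk (S.res ⟨(c - 1) / π, hγ⟩)) := by
  have e : (algebraMap K F c - 1) / algebraMap K F π = algebraMap K F ((c - 1) / π) := by
    rw [map_div₀, map_sub, map_one]
  refine ⟨?_, ?_⟩
  · rw [e]; exact S.algebraMap_mem hγ
  · rw [e, S.red_algebraMap hγ]

/-- Lemma A shape: `t ≡ 1 + a π mod π² Ov`, `a ∈ A`. -/
theorem firstOrd_of_sq (hπA : π ∈ S.A) (hπ0 : π ≠ 0) (hπr : S.res ⟨π, hπA⟩ = 0) {t : F} {a : K}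
    (ha : a ∈ S.A) (ht : (t - (1 + algebraMap K F (a * π))) / algebraMap K F (π ^ 2) ∈ S.Ov) :
    FirstOrd S π t (algebraMap k Fk (S.res ⟨a, ha⟩)) := by
  have hc : algebraMap K F π ≠ 0 := (map_ne_zero (algebraMap K F)).mpr hπ0
  have e : (t - 1) / algebraMap K F π = algebraMap K F a +
      algebraMap K F π * ((t - (1 + algebraMap K F (a * π))) / algebraMap K F (π ^ 2)) := by
    rw [map_pow, map_mul]
    field_simp
    ring
  have h2 := mul_mem (S.algebraMap_mem hπA) ht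
  refine ⟨?_, ?_⟩
  · rw [e]; exact add_mem (S.algebraMap_mem ha) h2
  · rw [e, S.red_add (S.algebraMap_mem ha) h2, S.red_mul (S.algebraMap_mem hπA) ht,
      S.red_algebraMap hπA, hπr, map_zero, zero_mul, add_zero, S.red_algebraMap ha]

end FirstOrd

/-! ### the abstract (KEY) -/

section Key

variable {K F k Fk₁ Fk₂ : Type*} [Field K] [Field F] [Algebra K F]
  [Field k] [Field Fk₁] [Algebra k Fk₁] [Field Fk₂] [Algebra k Fk₂] {ι : Type*} [Fintype ι]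

/-- The global data of (KEY): the uniformiser `π`, the function `h` (`k` of the blueprint:
`div h = sD - D - c D_l`), its constants `κ₁, κ₂`, the first-order parts `B₁, B₂`.
* `fo₁, fo₂` : `h / κ_j = 1 + π b_j`, `red_j b_j = B_j`;
* `rsm₁, rsm₂` : (RSM) `B_j` has no pole at the smooth points of the `j`-th component;
* `vg` : (VG) a power of `κ₂ / κ₁` which is a unit with residue `1` is `≡ 1 mod π`. -/
structure KeyData (N : NodalSeed K F k Fk₁ Fk₂ ι) (π : K) (h : F) (κ₁ κ₂ : K)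
    (B₁ : Fk₁) (B₂ : Fk₂) : Prop where
  πA : π ∈ N.S₁.A
  π0 : π ≠ 0
  πres : N.S₁.res ⟨π, πA⟩ = 0
  κ₁0 : κ₁ ≠ 0
  κ₂0 : κ₂ ≠ 0
  fo₁ : FirstOrd N.S₁ π (h / algebraMap K F κ₁) B₁
  fo₂ : FirstOrd N.S₂ π (h / algebraMap K F κ₂) B₂
  rsm₁ : ∀ Q : Place k Fk₁, (∀ i, Q ≠ N.s₁ i) → 0 ≤ Q.ord B₁
  rsm₂ : ∀ Q : Place k Fk₂, (∀ i, Q ≠ N.s₂ i) → 0 ≤ Q.ord B₂
  vg : ∀ (m : ℕ) (hc : (κ₂ / κ₁) ^ m ∈ N.S₁.A), N.S₁.res ⟨(κ₂ / κ₁) ^ m, hc⟩ = 1 →
    ((κ₂ / κ₁) ^ m - 1) / π ∈ N.S₁.A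

/-- The data of (KEY) at the node `i`: the multiplier `m` (prime to the residue characteristic),
the twist `t` (`= η / s(η)`), the integers `n₁, n₂` (`= v_M` of the constants of `η` at `v₁, v₂`).
* `la₁, la₂` : (LA) `t ≡ 1 - n_j α₀ π mod π² O_j`;
* `free` : `h ^ m * t` has neither zero nor pole at the places of type N with node `i`. -/
structure KeyNode (N : NodalSeed K F k Fk₁ Fk₂ ι) (π α₀ : K) (h : F) (i : ι) (m : ℕ) (t : F)
    (n₁ n₂ : ℤ) : Prop where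
  m0 : (m : k) ≠ 0
  la₁ : (t - (1 + algebraMap K F (-(n₁ : K) * α₀ * π))) / algebraMap K F (π ^ 2) ∈ N.S₁.Ov
  la₂ : (t - (1 + algebraMap K F (-(n₂ : K) * α₀ * π))) / algebraMap K F (π ^ 2) ∈ N.S₂.Ov
  free : NoDivAtNode N i (h ^ m * t)

/-- the statement (KEY). -/
def KeyStatement (N : NodalSeed K F k Fk₁ Fk₂ ι) : Prop :=
  ∀ (π α₀ : K) (hα : α₀ ∈ N.S₁.A) (h : F) (κ₁ κ₂ : K) (B₁ : Fk₁) (B₂ : Fk₂),
    KeyData N π h κ₁ κ₂ B₁ B₂ →
    ∀ (m : ι → ℕ) (t : ι → F) (n₁ n₂ : ι → ℤ),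
      (∀ i, KeyNode N π α₀ h i (m i) (t i) (n₁ i) (n₂ i)) →
      ∃ δ : k, ∀ i, ((n₂ i : k) - (n₁ i : k)) * N.S₁.res ⟨α₀, hα⟩ = (m i : k) * δ

variable {N : NodalSeed K F k Fk₁ Fk₂ ι}

/-- constants have neither zero nor pole. -/
theorem key_noDiv_const (i : ι) (c : K) : NoDivAtNode N i (algebraMap K F c) :=
  fun P _ => Fermat.Agent.S24Res.ord_algebraMap P c

/-- the residue of `-(n) a`. -/
theorem key_res_neg_int_mul {Fk : Type*} [Field Fk] [Algebra k Fk] (S : ValSetup K F k Fk)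
    (n : ℤ) {a : K} (ha : a ∈ S.A) :
    ∃ hm : -(n : K) * a ∈ S.A, S.res ⟨-(n : K) * a, hm⟩ = -(n : k) * S.res ⟨a, ha⟩ := by
  have hn : (n : K) ∈ S.A := intCast_mem S.A n
  have hm : -(n : K) * a ∈ S.A := mul_mem (neg_mem hn) ha
  refine ⟨hm, ?_⟩
  have e : (⟨-(n : K) * a, hm⟩ : S.A) = -((n : ℤ) : S.A) * ⟨a, ha⟩ := Subtype.ext (by simp)
  rw [e, map_mul, map_neg, map_intCast]

/-- two normalisations of a function with reductions `1` and `1`, free at the node `i`: the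
quotient of the constants is a unit with residue `1`. -/
theorem key_const_unit [Infinite k] {i : ι} {f g : F} {c : K} (hc0 : c ≠ 0)
    (hfg : f = g * algebraMap K F c)
    (hf₁ : f ∈ N.S₁.Ov) (hfr : N.S₁.red f = 1) (hg₂ : g ∈ N.S₂.Ov) (hgr : N.S₂.red g = 1)
    (hfree : NoDivAtNode N i f) :
    ∃ hc : c ∈ N.S₁.A, N.S₁.res ⟨c, hc⟩ = 1 := by
  have hcF : algebraMap K F c ≠ 0 := (map_ne_zero (algebraMap K F)).mpr hc0
  rcases N.S₁.A.mem_or_inv_mem c with hc | hc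
  · refine ⟨hc, ?_⟩
    have hc₂ : c ∈ N.S₂.A := N.toNodalCore.mem_A₂ hc
    have hf₂ : f ∈ N.S₂.Ov := by
      rw [hfg]; exact mul_mem hg₂ (N.S₂.algebraMap_mem hc₂)
    obtain ⟨-, -, d, hd₁, hd₂⟩ := node_loc hf₁ hf₂ hfree.noPole
    have hd₁' : ValAt (N.s₁ i) (N.S₁.red f) d := hd₁
    have hd₂' : ValAt (N.s₂ i) (N.S₂.red f) d := hd₂
    rw [hfr] at hd₁'
    have hd : d = 1 := hd₁'.unique (Gluing.valAt_one _)
    rw [hfg, N.S₂.red_mul hg₂ (N.S₂.algebraMap_mem hc₂), hgr, one_mul,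
      N.S₂.red_algebraMap hc₂] at hd₂'
    have h2 : N.S₂.res ⟨c, hc₂⟩ = d := (Gluing.valAt_algebraMap _ _).unique hd₂'
    rw [N.res_eq c hc hc₂, h2, hd]
  · have hc₂ : c⁻¹ ∈ N.S₂.A := N.toNodalCore.mem_A₂ hc
    have hgf : g = f * algebraMap K F c⁻¹ := by
      rw [hfg, map_inv₀, mul_assoc, mul_inv_cancel₀ hcF, mul_one]
    have hg₁ : g ∈ N.S₁.Ov := by
      rw [hgf]; exact mul_mem hf₁ (N.S₁.algebraMap_mem hc)
    have hgfree : NoDivAtNode N i g := by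
      rw [hgf]; exact hfree.mul (key_noDiv_const i _)
    obtain ⟨-, -, d, hd₁, hd₂⟩ := node_loc hg₁ hg₂ hgfree.noPole
    have hd₁' : ValAt (N.s₁ i) (N.S₁.red g) d := hd₁
    have hd₂' : ValAt (N.s₂ i) (N.S₂.red g) d := hd₂
    rw [hgr] at hd₂'
    have hd : d = 1 := hd₂'.unique (Gluing.valAt_one _)
    rw [hgf, N.S₁.red_mul hf₁ (N.S₁.algebraMap_mem hc), hfr, one_mul,
      N.S₁.red_algebraMap hc] at hd₁'
    have h1 : N.S₁.res ⟨c⁻¹, hc⟩ = 1 := by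
      rw [(Gluing.valAt_algebraMap _ _).unique hd₁', hd]
    have hcA : c ∈ N.S₁.A := by
      by_contra hn
      obtain ⟨h', hres'⟩ := N.S₁.res_inv_eq_zero hn
      rw [hres'] at h1
      exact zero_ne_one h1
    refine ⟨hcA, ?_⟩
    have e : (⟨c, hcA⟩ : N.S₁.A) * ⟨c⁻¹, hc⟩ = 1 := Subtype.ext (mul_inv_cancel₀ hc0)
    have := congrArg N.S₁.res e
    rwa [map_mul, h1, mul_one, map_one] at this

/-- `(f - 1) / π` has no pole where `f` has neither zero nor pole. -/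
theorem key_noPole_quot {i : ι} {f : F} (hfree : NoDivAtNode N i f) (π : K) :
    NoPoleAtNode N i ((f - 1) / algebraMap K F π) := by
  intro P hP
  rcases eq_or_ne (f - 1) 0 with h0 | h0
  · rw [h0, zero_div, Place.ord_zero]
  rcases eq_or_ne π 0 with rfl | hπ0
  · rw [map_zero, div_zero, Place.ord_zero]
  have hc : algebraMap K F π ≠ 0 := (map_ne_zero (algebraMap K F)).mpr hπ0
  have h1 : (0 : ℤ) ≤ P.ord (f - 1) := by
    refine Fermat.Agent.S18Key.ord_nonneg_sub P (hfree P hP).ge ?_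
    have := Fermat.Agent.S24Res.ord_algebraMap P (1 : K)
    rw [map_one] at this
    exact this.ge
  rw [div_eq_mul_inv, P.ord_mul h0 (inv_ne_zero hc), P.ord_inv,
    Fermat.Agent.S24Res.ord_algebraMap, neg_zero, add_zero]
  exact h1

/-- **(KEY) at one node**: the first-order parts of `h ^ m * t` at the two valuations take the
same value at the node `i`. -/
theorem key_node [Infinite k] {π α₀ : K} (hα : α₀ ∈ N.S₁.A) {h : F} {κ₁ κ₂ : K} {B₁ : Fk₁}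
    {B₂ : Fk₂} (D : KeyData N π h κ₁ κ₂ B₁ B₂) {i : ι} {m : ℕ} {t : F} {n₁ n₂ : ℤ}
    (hn : KeyNode N π α₀ h i m t n₁ n₂) :
    ∃ (hc : (κ₂ / κ₁) ^ m ∈ N.S₁.A) (hγ : ((κ₂ / κ₁) ^ m - 1) / π ∈ N.S₁.A) (d : k),
      N.S₁.res ⟨(κ₂ / κ₁) ^ m, hc⟩ = 1 ∧
      ValAt (N.s₁ i) ((m : Fk₁) * B₁ + algebraMap k Fk₁ (-(n₁ : k) * N.S₁.res ⟨α₀, hα⟩)) d ∧
      ValAt (N.s₂ i) ((m : Fk₂) * B₂ + algebraMap k Fk₂ (-(n₂ : k) * N.S₁.res ⟨α₀, hα⟩
        + N.S₁.res ⟨((κ₂ / κ₁) ^ m - 1) / π, hγ⟩)) d := by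
  have hα₂ : α₀ ∈ N.S₂.A := N.toNodalCore.mem_A₂ hα
  have πA₂ : π ∈ N.S₂.A := N.toNodalCore.mem_A₂ D.πA
  have πres₂ : N.S₂.res ⟨π, πA₂⟩ = 0 := by rw [← N.res_eq π D.πA πA₂]; exact D.πres
  obtain ⟨ha₁, hra₁⟩ := key_res_neg_int_mul N.S₁ n₁ hα
  obtain ⟨ha₂, hra₂⟩ := key_res_neg_int_mul N.S₂ n₂ hα₂
  have T₁ := firstOrd_of_sq D.πA D.π0 D.πres ha₁ hn.la₁
  have T₂ := firstOrd_of_sq πA₂ D.π0 πres₂ ha₂ hn.la₂
  have Ff := ((D.fo₁.pow D.πA D.π0 D.πres m).mul D.πA D.π0 D.πres T₁)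
  have Fg := ((D.fo₂.pow πA₂ D.π0 πres₂ m).mul πA₂ D.π0 πres₂ T₂)
  have hκ₁F : algebraMap K F κ₁ ≠ 0 := (map_ne_zero (algebraMap K F)).mpr D.κ₁0
  have hκ₂F : algebraMap K F κ₂ ≠ 0 := (map_ne_zero (algebraMap K F)).mpr D.κ₂0
  have hc0 : (κ₂ / κ₁) ^ m ≠ 0 := pow_ne_zero _ (div_ne_zero D.κ₂0 D.κ₁0)
  have hfg : (h / algebraMap K F κ₁) ^ m * t =
      (h / algebraMap K F κ₂) ^ m * t * algebraMap K F ((κ₂ / κ₁) ^ m) := by
    rw [map_pow, map_div₀, div_pow, div_pow, div_pow]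
    field_simp
  have hfree : NoDivAtNode N i ((h / algebraMap K F κ₁) ^ m * t) := by
    have e : (h / algebraMap K F κ₁) ^ m * t = h ^ m * t * algebraMap K F ((κ₁ ^ m)⁻¹) := by
      rw [map_inv₀, map_pow, div_pow]
      field_simp
    rw [e]
    exact hn.free.mul (key_noDiv_const i _)
  obtain ⟨hc, hres⟩ := key_const_unit hc0 hfg (Ff.mem D.πA D.π0)
    (Ff.red_eq_one D.πA D.π0 D.πres) (Fg.mem πA₂ D.π0) (Fg.red_eq_one πA₂ D.π0 πres₂) hfree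
  have hγ := D.vg m hc hres
  have hγ₂ : ((κ₂ / κ₁) ^ m - 1) / π ∈ N.S₂.A := N.toNodalCore.mem_A₂ hγ
  have Fc := firstOrd_const (S := N.S₂) D.π0 hγ₂
  have Ff₂ := Fg.mul πA₂ D.π0 πres₂ Fc
  rw [← hfg] at Ff₂
  obtain ⟨-, -, d, hd₁, hd₂⟩ := node_loc Ff.1 Ff₂.1 (key_noPole_quot hfree π)
  have hd₁' : ValAt (N.s₁ i) (N.S₁.red (((h / algebraMap K F κ₁) ^ m * t - 1) /
      algebraMap K F π)) d := hd₁
  have hd₂' : ValAt (N.s₂ i) (N.S₂.red (((h / algebraMap K F κ₁) ^ m * t - 1) /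
      algebraMap K F π)) d := hd₂
  rw [Ff.2, hra₁] at hd₁'
  rw [Ff₂.2, hra₂, ← N.res_eq α₀ hα hα₂, ← N.res_eq _ hγ hγ₂, add_assoc, ← map_add] at hd₂'
  exact ⟨hc, hγ, d, hres, hd₁', hd₂'⟩

/-- solving `m B + a` for `B`. -/
theorem key_valAt_solve {k' F' : Type*} [Field k'] [Field F'] [Algebra k' F'] {Q : Place k' F'}
    {B : F'} {m : ℕ} (hm : (m : k') ≠ 0) {a d : k'}
    (h : ValAt Q ((m : F') * B + algebraMap k' F' a) d) : ValAt Q B ((d - a) / m) := by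
  have h1 := Gluing.valAt_mul (Gluing.valAt_algebraMap Q ((m : k')⁻¹))
    (h.add (Gluing.valAt_algebraMap Q (-a)))
  have hmF : algebraMap k' F' (m : k') ≠ 0 := (map_ne_zero (algebraMap k' F')).mpr hm
  have e : algebraMap k' F' ((m : k')⁻¹) * ((m : F') * B + algebraMap k' F' a +
      algebraMap k' F' (-a)) = B := by
    rw [map_neg, add_neg_cancel_right, ← map_natCast (algebraMap k' F') m, ← mul_assoc,
      ← map_mul, inv_mul_cancel₀ hm, map_one, one_mul]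
  have e' : (m : k')⁻¹ * (d + -a) = (d - a) / m := by
    rw [div_eq_mul_inv, mul_comm, sub_eq_add_neg]
  rwa [e, e'] at h1

/-- a function without poles is a constant. -/
theorem key_const_of_regular {k' F' : Type*} [Field k'] [Field F'] [Algebra k' F']
    (hF : IsRRField k' F') {B : F'} (h : ∀ Q : Place k' F', 0 ≤ Q.ord B) :
    ∃ β : k', B = algebraMap k' F' β := by
  have hmem : B ∈ riemannRochSpace (0 : Divisor k' F') := by
    rw [mem_riemannRochSpace_iff]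
    intro Q
    right
    rw [Finsupp.zero_apply, neg_zero]
    exact h Q
  obtain ⟨β, hβ⟩ := (mem_riemannRochSpace_zero_iff hF B).mp hmem
  exact ⟨β, hβ.symm⟩

/-- the first-order parts of the powers of a constant are proportional to the exponents. -/
theorem key_gamma_comm {Fk : Type*} [Field Fk] [Algebra k Fk] (S : ValSetup K F k Fk) {π : K}
    (hπA : π ∈ S.A) (hπ0 : π ≠ 0) (hπr : S.res ⟨π, hπA⟩ = 0) {c : K} {m m' : ℕ}
    (hγ : (c ^ m - 1) / π ∈ S.A) (hγ' : (c ^ m' - 1) / π ∈ S.A) :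
    (m' : k) * S.res ⟨(c ^ m - 1) / π, hγ⟩ = (m : k) * S.res ⟨(c ^ m' - 1) / π, hγ'⟩ := by
  set P : S.A := ⟨π, hπA⟩ with hP
  set G : S.A := ⟨(c ^ m - 1) / π, hγ⟩ with hG
  set G' : S.A := ⟨(c ^ m' - 1) / π, hγ'⟩ with hG'
  have hP0 : P ≠ 0 := fun h0 => hπ0 (congrArg Subtype.val h0)
  have e1 : ((1 + P * G : S.A) : K) = c ^ m := by
    show 1 + π * ((c ^ m - 1) / π) = c ^ m
    field_simp
    ring
  have e2 : ((1 + P * G' : S.A) : K) = c ^ m' := by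
    show 1 + π * ((c ^ m' - 1) / π) = c ^ m'
    field_simp
    ring
  have e3 : (1 + P * G) ^ m' = (1 + P * G') ^ m := by
    apply Subtype.ext
    show ((1 + P * G : S.A) : K) ^ m' = ((1 + P * G' : S.A) : K) ^ m
    rw [e1, e2, ← pow_mul, ← pow_mul, mul_comm]
  obtain ⟨r, hr⟩ := key_one_add_pow (P * G) m'
  obtain ⟨r', hr'⟩ := key_one_add_pow (P * G') m
  rw [hr, hr'] at e3
  have e4 : P * ((m' : S.A) * G + P * (G ^ 2 * r)) = P * ((m : S.A) * G' + P * (G' ^ 2 * r')) := by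
    linear_combination e3
  have e5 := mul_left_cancel₀ hP0 e4
  have e6 := congrArg S.res e5
  have hPr : S.res P = 0 := hπr
  simp only [map_add, map_mul, map_natCast, hPr, zero_mul, add_zero] at e6
  exact e6

/-- **(KEY)**. -/
theorem key [Infinite k] (N : NodalSeed K F k Fk₁ Fk₂ ι) : KeyStatement N := by
  intro π α₀ hα h κ₁ κ₂ B₁ B₂ D m t n₁ n₂ hnode
  choose hc hγ d hres hd₁ hd₂ using fun i => key_node hα D (hnode i)
  -- `B₁`, `B₂` are constants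
  have hreg₁ : ∀ Q : Place k Fk₁, 0 ≤ Q.ord B₁ := by
    intro Q
    by_cases hQ : ∃ i, Q = N.s₁ i
    · obtain ⟨i, rfl⟩ := hQ
      exact Gluing.valAt_ord_nonneg (key_valAt_solve (hnode i).m0 (hd₁ i))
    · exact D.rsm₁ Q (fun i hi => hQ ⟨i, hi⟩)
  have hreg₂ : ∀ Q : Place k Fk₂, 0 ≤ Q.ord B₂ := by
    intro Q
    by_cases hQ : ∃ i, Q = N.s₂ i
    · obtain ⟨i, rfl⟩ := hQ
      exact Gluing.valAt_ord_nonneg (key_valAt_solve (hnode i).m0 (hd₂ i))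
    · exact D.rsm₂ Q (fun i hi => hQ ⟨i, hi⟩)
  obtain ⟨β₁, rfl⟩ := key_const_of_regular N.S₁.hFk hreg₁
  obtain ⟨β₂, rfl⟩ := key_const_of_regular N.S₂.hFk hreg₂
  -- the values at the nodes
  have hv₁ : ∀ i, (d i - -(n₁ i : k) * N.S₁.res ⟨α₀, hα⟩) / (m i : k) = β₁ := fun i =>
    (key_valAt_solve (hnode i).m0 (hd₁ i)).unique (Gluing.valAt_algebraMap _ _)
  have hv₂ : ∀ i, (d i - (-(n₂ i : k) * N.S₁.res ⟨α₀, hα⟩ +
      N.S₁.res ⟨((κ₂ / κ₁) ^ m i - 1) / π, hγ i⟩)) / (m i : k) = β₂ := fun i =>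
    (key_valAt_solve (hnode i).m0 (hd₂ i)).unique (Gluing.valAt_algebraMap _ _)
  rcases isEmpty_or_nonempty ι with hι | ⟨⟨i₀⟩⟩
  · exact ⟨0, fun i => isEmptyElim i⟩
  refine ⟨β₂ - β₁ + N.S₁.res ⟨((κ₂ / κ₁) ^ m i₀ - 1) / π, hγ i₀⟩ / (m i₀ : k), fun i => ?_⟩
  have hm := (hnode i).m0
  have hm₀ := (hnode i₀).m0
  have hcomm := key_gamma_comm N.S₁ D.πA D.π0 D.πres (c := κ₂ / κ₁) (hγ i) (hγ i₀)
  have h1 := hv₁ i
  have h2 := hv₂ i
  rw [div_eq_iff hm] at h1 h2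
  field_simp
  linear_combination (m i₀ : k) * h2 - (m i₀ : k) * h1 + hcomm

/-- **(KEY)**, cross form: `m_j (n₂ - n₁)(i) = m_i (n₂ - n₁)(j)` in `k` (for `res α₀ ≠ 0`). -/
theorem key_cross [Infinite k] (N : NodalSeed K F k Fk₁ Fk₂ ι) {π α₀ : K} (hα : α₀ ∈ N.S₁.A)
    (hα0 : N.S₁.res ⟨α₀, hα⟩ ≠ 0) {h : F} {κ₁ κ₂ : K} {B₁ : Fk₁} {B₂ : Fk₂}
    (D : KeyData N π h κ₁ κ₂ B₁ B₂) {m : ι → ℕ} {t : ι → F} {n₁ n₂ : ι → ℤ}
    (hnode : ∀ i, KeyNode N π α₀ h i (m i) (t i) (n₁ i) (n₂ i)) (i j : ι) :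
    (m j : k) * ((n₂ i : k) - (n₁ i : k)) = (m i : k) * ((n₂ j : k) - (n₁ j : k)) := by
  obtain ⟨δ, hδ⟩ := key N π α₀ hα h κ₁ κ₂ B₁ B₂ D m t n₁ n₂ hnode
  have hi := hδ i
  have hj := hδ j
  apply mul_right_cancel₀ hα0
  linear_combination (m j : k) * hi - (m i : k) * hj

/-- **(KEY)**, congruence form, residue characteristic `p`. -/
theorem key_modEq [Infinite k] (N : NodalSeed K F k Fk₁ Fk₂ ι) (p : ℕ) [CharP k p] {π α₀ : K}
    (hα : α₀ ∈ N.S₁.A) (hα0 : N.S₁.res ⟨α₀, hα⟩ ≠ 0) {h : F} {κ₁ κ₂ : K} {B₁ : Fk₁} {B₂ : Fk₂}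
    (D : KeyData N π h κ₁ κ₂ B₁ B₂) {m : ι → ℕ} {t : ι → F} {n₁ n₂ : ι → ℤ}
    (hnode : ∀ i, KeyNode N π α₀ h i (m i) (t i) (n₁ i) (n₂ i)) (i j : ι) :
    (m j : ℤ) * (n₂ i - n₁ i) ≡ (m i : ℤ) * (n₂ j - n₁ j) [ZMOD (p : ℤ)] := by
  have h1 := key_cross N hα hα0 D hnode i j
  rw [← CharP.intCast_eq_intCast k p]
  push_cast
  exact h1

end Key

end Fermat.Agent.PeuD
end
end MergeWrap_Lib_BadRed_PeuD_Key
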