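import Mathlib
import Fermat.Prelude.Def_AlgebraicCurve_BaseChangeGalois
import Fermat.Agent.MU.Lib.Deuring.Basic

section MergeWrap_Lib_BadRed_PeuD_LemmaA -- from Lib/BadRed/PeuD/LemmaA.lean

set_option autoImplicit false
set_option linter.unusedSectionVars false
set_option linter.unusedVariables false

noncomputable section

open AlgebraicCurve Fermat.Agent.RR Fermat.Agent.Deuring

namespace Fermat.Agent.PeuD

/-! ### First-order congruences in a valuation ring -/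

section FirstOrder

variable {F : Type*} [Field F] (O : ValuationSubring F)

/-- `x ≡ 1 + ϖ a mod ϖ² O`. -/
def LaCong (ϖ x a : F) : Prop := ∃ r ∈ O, x = 1 + ϖ * a + ϖ ^ 2 * r

variable {O}

theorem laCong_one (ϖ : F) : LaCong O ϖ 1 0 := ⟨0, O.zero_mem, by ring⟩

theorem laCong_of_sq {ϖ x : F} {r : F} (hr : r ∈ O) (hx : x = 1 + ϖ ^ 2 * r) :
    LaCong O ϖ x 0 := ⟨r, hr, by rw [hx]; ring⟩

theorem LaCong.congr {ϖ x a b : F} (hx : LaCong O ϖ x a) (hab : a = b) : LaCong O ϖ x b :=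
  hab ▸ hx

theorem LaCong.mul {ϖ x y a b : F} (hϖ : ϖ ∈ O) (ha : a ∈ O) (hb : b ∈ O)
    (hx : LaCong O ϖ x a) (hy : LaCong O ϖ y b) : LaCong O ϖ (x * y) (a + b) := by
  obtain ⟨r, hr, rfl⟩ := hx
  obtain ⟨t, ht, rfl⟩ := hy
  refine ⟨a * b + r + t + ϖ * (a * t + b * r) + ϖ ^ 2 * (r * t), ?_, by ring⟩
  exact add_mem (add_mem (add_mem (add_mem (mul_mem ha hb) hr) ht)
    (mul_mem hϖ (add_mem (mul_mem ha ht) (mul_mem hb hr))))
    (mul_mem (pow_mem hϖ 2) (mul_mem hr ht))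

/-- `1 + ϖ z` is a unit of `O` if `ϖ` is not. -/
theorem la_inv_mem {ϖ z : F} (hϖ : O.valuation ϖ < 1) (hz : z ∈ O) :
    (1 + ϖ * z)⁻¹ ∈ O := by
  have h1 : O.valuation (ϖ * z) < 1 := by
    rw [map_mul]
    calc O.valuation ϖ * O.valuation z ≤ O.valuation ϖ * 1 := by
          gcongr
          exact (O.valuation_le_one_iff z).mpr hz
      _ = O.valuation ϖ := mul_one _
      _ < 1 := hϖ
  have h2 : O.valuation (1 + ϖ * z) = 1 := O.valuation.map_one_add_of_lt h1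
  rw [← O.valuation_le_one_iff, map_inv₀, h2, inv_one]

theorem la_mem_of_val_lt {ϖ : F} (hϖ : O.valuation ϖ < 1) : ϖ ∈ O :=
  (O.valuation_le_one_iff ϖ).mp hϖ.le

theorem LaCong.inv {ϖ x a : F} (hϖ : O.valuation ϖ < 1) (ha : a ∈ O)
    (hx : LaCong O ϖ x a) : LaCong O ϖ x⁻¹ (-a) := by
  obtain ⟨r, hr, rfl⟩ := hx
  have hϖO : ϖ ∈ O := la_mem_of_val_lt hϖ
  have hz : a + ϖ * r ∈ O := add_mem ha (mul_mem hϖO hr)
  have hinv : (1 + ϖ * (a + ϖ * r))⁻¹ ∈ O := la_inv_mem hϖ hz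
  have hne : (1 + ϖ * (a + ϖ * r)) ≠ 0 := by
    intro h0
    have h1 : O.valuation (ϖ * (a + ϖ * r)) < 1 := by
      rw [map_mul]
      calc O.valuation ϖ * O.valuation (a + ϖ * r) ≤ O.valuation ϖ * 1 := by
            gcongr
            exact (O.valuation_le_one_iff _).mpr hz
        _ = O.valuation ϖ := mul_one _
        _ < 1 := hϖ
    have h2 : O.valuation (1 + ϖ * (a + ϖ * r)) = 1 := O.valuation.map_one_add_of_lt h1
    rw [h0, map_zero] at h2
    exact zero_ne_one h2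
  have e : (1 + ϖ * a + ϖ ^ 2 * r) = 1 + ϖ * (a + ϖ * r) := by ring
  refine ⟨-r + (a + ϖ * r) ^ 2 * (1 + ϖ * (a + ϖ * r))⁻¹, ?_, ?_⟩
  · exact add_mem (neg_mem hr) (mul_mem (pow_mem hz 2) hinv)
  · rw [e]
    field_simp
    ring

theorem LaCong.pow {ϖ x a : F} (hϖ : ϖ ∈ O) (ha : a ∈ O) (hx : LaCong O ϖ x a) (n : ℕ) :
    LaCong O ϖ (x ^ n) ((n : F) * a) := by
  induction n with
  | zero => simpa using laCong_one (O := O) ϖ
  | succ n ih =>
    rw [pow_succ]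
    have hna : (n : F) * a ∈ O := mul_mem (natCast_mem O n) ha
    refine (ih.mul hϖ hna ha hx).congr ?_
    push_cast
    ring

theorem LaCong.zpow {ϖ x a : F} (hϖ : O.valuation ϖ < 1) (ha : a ∈ O)
    (hx : LaCong O ϖ x a) (n : ℤ) : LaCong O ϖ (x ^ n) ((n : F) * a) := by
  have hϖO : ϖ ∈ O := la_mem_of_val_lt hϖ
  obtain ⟨m, rfl | rfl⟩ := n.eq_nat_or_neg
  · rw [zpow_natCast]
    have := hx.pow hϖO ha m
    simpa using this
  · rw [zpow_neg, zpow_natCast]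
    have hma : (m : F) * a ∈ O := mul_mem (natCast_mem O m) ha
    refine ((hx.pow hϖO ha m).inv hϖ hma).congr ?_
    push_cast
    ring

/-- the conclusion in quotient form. -/
theorem LaCong.div_mem {ϖ x a : F} (hϖ0 : ϖ ≠ 0) (hx : LaCong O ϖ x a) :
    (x - (1 + ϖ * a)) / ϖ ^ 2 ∈ O := by
  obtain ⟨r, hr, rfl⟩ := hx
  have : (1 + ϖ * a + ϖ ^ 2 * r - (1 + ϖ * a)) / ϖ ^ 2 = r := by
    field_simp
    ring
  rw [this]
  exact hr

theorem laCong_of_div_mem {ϖ x a : F} (hϖ0 : ϖ ≠ 0) (hx : (x - (1 + ϖ * a)) / ϖ ^ 2 ∈ O) :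
    LaCong O ϖ x a := by
  refine ⟨_, hx, ?_⟩
  field_simp
  ring

end FirstOrder

/-! ### Lemma A -/

section Main

variable {K F k Fk : Type*} [Field K] [Field F] [Algebra K F] [Field k] [Field Fk] [Algebra k Fk]
  (S : ValSetup K F k Fk)

/-- transport of a first-order congruence of constants to the function field. -/
theorem laCong_algebraMap {π x a : K} (h : LaCong S.A π x a) :
    LaCong S.Ov (algebraMap K F π) (algebraMap K F x) (algebraMap K F a) := by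
  obtain ⟨r, hr, rfl⟩ := h
  refine ⟨algebraMap K F r, S.algebraMap_mem hr, ?_⟩
  simp only [map_add, map_mul, map_pow, map_one]

/-- a constant of valuation `< 1` is a non-unit of `Ov`. -/
theorem la_val_algebraMap_lt {π : K} (hπ0 : π ≠ 0) (hπ1 : S.A.valuation π < 1) :
    S.Ov.valuation (algebraMap K F π) < 1 := by
  have hπA : π ∈ S.A := (S.A.valuation_le_one_iff π).mp hπ1.le
  have hinv : π⁻¹ ∉ S.A := by
    intro h
    have h1 : S.A.valuation π⁻¹ ≤ 1 := (S.A.valuation_le_one_iff _).mpr h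
    rw [map_inv₀] at h1
    have h0 : S.A.valuation π ≠ 0 := (Valuation.ne_zero_iff _).mpr hπ0
    have h2 : 1 ≤ S.A.valuation π := by
      have := (inv_le_one₀ (zero_lt_iff.mpr h0)).mp h1
      exact this
    exact absurd hπ1 (not_lt.mpr h2)
  have hle : S.Ov.valuation (algebraMap K F π) ≤ 1 :=
    (S.Ov.valuation_le_one_iff _).mpr (S.algebraMap_mem hπA)
  rcases lt_or_eq_of_le hle with h | h
  · exact h
  · exfalso
    apply hinv
    rw [← S.mem_Ov_iff, map_inv₀, ← S.Ov.valuation_le_one_iff, map_inv₀, h, inv_one]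

variable {S}

/-- **Lemma A, constants**: for an `M`-rational constant `c` with `v c = v π ^ n`,
`s c / c ≡ 1 + n α₀ π mod π² A`. -/
theorem lemmaA_const (s : SemilinearAut K F) (H : Set (SemilinearAut K F)) {π α₀ : K}
    (hπ0 : π ≠ 0) (hπ1 : S.A.valuation π < 1)
    (hπH : ∀ t ∈ H, SemilinearAut.baseAut t π = π) (hα₀ : α₀ ∈ S.A)
    (hsπ : (SemilinearAut.baseAut s π - π * (1 + α₀ * π)) / π ^ 3 ∈ S.A)
    (hA1 : ∀ c : K, c ∈ S.A → (∀ t ∈ H, SemilinearAut.baseAut t c = c) →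
      (SemilinearAut.baseAut s c - c) / π ^ 2 ∈ S.A)
    {c : K} (hc0 : c ≠ 0) (hcH : ∀ t ∈ H, SemilinearAut.baseAut t c = c)
    {n : ℤ} (hn : S.A.valuation c = S.A.valuation π ^ n) :
    LaCong S.A π (SemilinearAut.baseAut s c / c) ((n : K) * α₀) := by
  set σ := SemilinearAut.baseAut s with hσ
  have hvπ0 : S.A.valuation π ≠ 0 := (Valuation.ne_zero_iff _).mpr hπ0
  have hπn0 : π ^ n ≠ 0 := zpow_ne_zero n hπ0
  -- the unit part
  set e : K := c / π ^ n with he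
  have he0 : e ≠ 0 := div_ne_zero hc0 hπn0
  have hve : S.A.valuation e = 1 := by
    rw [he, map_div₀, map_zpow₀, hn]
    exact div_self (zpow_ne_zero n hvπ0)
  have heA : e ∈ S.A := (S.A.valuation_le_one_iff e).mp hve.le
  have heA' : e⁻¹ ∈ S.A := by
    rw [← S.A.valuation_le_one_iff, map_inv₀, hve, inv_one]
  have heH : ∀ t ∈ H, SemilinearAut.baseAut t e = e := by
    intro t ht
    rw [he, map_div₀, map_zpow₀, hcH t ht, hπH t ht]
  have hce : c = π ^ n * e := by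
    rw [he]; field_simp
  -- first factor: `σ π / π`
  have h1 : LaCong S.A π (σ π / π) α₀ := by
    refine ⟨_, hsπ, ?_⟩
    field_simp
    ring
  have h1n : LaCong S.A π ((σ π / π) ^ n) ((n : K) * α₀) := h1.zpow hπ1 hα₀ n
  -- second factor: `σ e / e`
  have h2 : LaCong S.A π (σ e / e) 0 := by
    refine ⟨(σ e - e) / π ^ 2 * e⁻¹, mul_mem (hA1 e heA heH) heA', ?_⟩
    field_simp
    ring
  have hπA : π ∈ S.A := (S.A.valuation_le_one_iff π).mp hπ1.le
  have hnα : (n : K) * α₀ ∈ S.A := mul_mem (intCast_mem S.A n) hα₀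
  have h3 := h1n.mul hπA hnα S.A.zero_mem h2
  have e3 : σ c / c = (σ π / π) ^ n * (σ e / e) := by
    conv_lhs => rw [hce]
    rw [map_mul, map_zpow₀, div_zpow]
    field_simp
  rw [e3]
  exact h3.congr (add_zero _)

/-- **Lemma A, congruence form.** -/
theorem lemmaA_cong (s : SemilinearAut K F) (H : Set (SemilinearAut K F)) {π α₀ : K}
    (hπ0 : π ≠ 0) (hπ1 : S.A.valuation π < 1)
    (hπH : ∀ t ∈ H, SemilinearAut.baseAut t π = π) (hα₀ : α₀ ∈ S.A)
    (hsπ : (SemilinearAut.baseAut s π - π * (1 + α₀ * π)) / π ^ 3 ∈ S.A)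
    (hA1 : ∀ c : K, c ∈ S.A → (∀ t ∈ H, SemilinearAut.baseAut t c = c) →
      (SemilinearAut.baseAut s c - c) / π ^ 2 ∈ S.A)
    (hG2 : ∀ f : F, f ∈ S.Ov → (∀ t ∈ H, t • f = f) →
      (s • f - f) / algebraMap K F (π ^ 2) ∈ S.Ov)
    {θ : F} (hθH : ∀ t ∈ H, t • θ = θ)
    {c : K} (hcH : ∀ t ∈ H, SemilinearAut.baseAut t c = c)
    (hθc : S.red (θ / algebraMap K F c) ≠ 0)
    {n : ℤ} (hn : S.A.valuation c = S.A.valuation π ^ n) :
    LaCong S.Ov (algebraMap K F π) (s • θ / θ) (algebraMap K F ((n : K) * α₀)) := by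
  have hw0 : θ / algebraMap K F c ≠ 0 := S.ne_zero_of_red_ne_zero hθc
  have hθ0 : θ ≠ 0 := fun h => hw0 (by rw [h, zero_div])
  have hc0 : c ≠ 0 := fun h => hw0 (by rw [h, map_zero, div_zero])
  have hc0' : algebraMap K F c ≠ 0 := (map_ne_zero _).mpr hc0
  have hπ0' : algebraMap K F π ≠ 0 := (map_ne_zero _).mpr hπ0
  set w : F := θ / algebraMap K F c with hw
  have hwO : w ∈ S.Ov := S.mem_of_red_ne_zero hθc
  have hwO' : w⁻¹ ∈ S.Ov := S.inv_mem_of_red_ne_zero hθc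
  have hwH : ∀ t ∈ H, t • w = w := by
    intro t ht
    rw [hw, SemilinearAut.smul_def, map_div₀, ← SemilinearAut.smul_def, ← SemilinearAut.smul_def,
      hθH t ht, SemilinearAut.smul_algebraMap, hcH t ht]
  have hϖ : S.Ov.valuation (algebraMap K F π) < 1 := la_val_algebraMap_lt S hπ0 hπ1
  have hϖO : algebraMap K F π ∈ S.Ov := la_mem_of_val_lt hϖ
  -- constants
  have h1 := laCong_algebraMap S
    (lemmaA_const s H hπ0 hπ1 hπH hα₀ hsπ hA1 hc0 hcH hn)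
  -- the unit
  have h2 : LaCong S.Ov (algebraMap K F π) (s • w / w) 0 := by
    refine ⟨(s • w - w) / algebraMap K F (π ^ 2) * w⁻¹, mul_mem (hG2 w hwO hwH) hwO', ?_⟩
    rw [map_pow]
    field_simp
    ring
  have hnα : algebraMap K F ((n : K) * α₀) ∈ S.Ov :=
    S.algebraMap_mem (mul_mem (intCast_mem S.A n) hα₀)
  have h3 := h1.mul hϖO hnα S.Ov.zero_mem h2
  have hθw : θ = algebraMap K F c * w := by
    rw [hw]; field_simp
  have e3 : s • θ / θ = algebraMap K F (SemilinearAut.baseAut s c / c) * (s • w / w) := by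
    have hs : s • θ = algebraMap K F (SemilinearAut.baseAut s c) * s • w := by
      conv_lhs => rw [hθw]
      rw [smul_mul', SemilinearAut.smul_algebraMap]
    rw [hs, map_div₀]
    conv_lhs => rw [hθw]
    field_simp
  rw [← e3, add_zero] at h3
  exact h3

/-- rewriting the first-order term. -/
theorem la_term_eq (π α₀ : K) (n : ℤ) :
    algebraMap K F π * algebraMap K F ((n : K) * α₀) = algebraMap K F ((n : K) * α₀ * π) := by
  rw [← map_mul]
  congr 1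
  ring

/-- **Lemma A** (helper62's (LA)).  For an `M`-rational function `θ`, written `θ = c · (unit of
`O`)` with an `M`-rational constant `c` of valuation `v π ^ n`:
`s θ / θ ≡ 1 + n α₀ π mod π² O`. -/
theorem lemmaA (s : SemilinearAut K F) (H : Set (SemilinearAut K F)) {π α₀ : K}
    (hπ0 : π ≠ 0) (hπ1 : S.A.valuation π < 1)
    (hπH : ∀ t ∈ H, SemilinearAut.baseAut t π = π) (hα₀ : α₀ ∈ S.A)
    (hsπ : (SemilinearAut.baseAut s π - π * (1 + α₀ * π)) / π ^ 3 ∈ S.A)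
    (hA1 : ∀ c : K, c ∈ S.A → (∀ t ∈ H, SemilinearAut.baseAut t c = c) →
      (SemilinearAut.baseAut s c - c) / π ^ 2 ∈ S.A)
    (hG2 : ∀ f : F, f ∈ S.Ov → (∀ t ∈ H, t • f = f) →
      (s • f - f) / algebraMap K F (π ^ 2) ∈ S.Ov)
    {θ : F} (hθH : ∀ t ∈ H, t • θ = θ)
    {c : K} (hcH : ∀ t ∈ H, SemilinearAut.baseAut t c = c)
    (hθc : S.red (θ / algebraMap K F c) ≠ 0)
    {n : ℤ} (hn : S.A.valuation c = S.A.valuation π ^ n) :
    (s • θ / θ - (1 + algebraMap K F ((n : K) * α₀ * π))) / algebraMap K F (π ^ 2) ∈ S.Ov := by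
  have h := (lemmaA_cong s H hπ0 hπ1 hπH hα₀ hsπ hA1 hG2 hθH hcH hθc hn).div_mem
    ((map_ne_zero _).mpr hπ0)
  rwa [la_term_eq, ← map_pow] at h

/-- **Lemma A, inverse form**: `θ / s θ ≡ 1 - n α₀ π mod π² O` (the twist `t = η / s(η)` of
D-KEY's `KeyNode.la₁`, `la₂`). -/
theorem lemmaA_inv (s : SemilinearAut K F) (H : Set (SemilinearAut K F)) {π α₀ : K}
    (hπ0 : π ≠ 0) (hπ1 : S.A.valuation π < 1)
    (hπH : ∀ t ∈ H, SemilinearAut.baseAut t π = π) (hα₀ : α₀ ∈ S.A)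
    (hsπ : (SemilinearAut.baseAut s π - π * (1 + α₀ * π)) / π ^ 3 ∈ S.A)
    (hA1 : ∀ c : K, c ∈ S.A → (∀ t ∈ H, SemilinearAut.baseAut t c = c) →
      (SemilinearAut.baseAut s c - c) / π ^ 2 ∈ S.A)
    (hG2 : ∀ f : F, f ∈ S.Ov → (∀ t ∈ H, t • f = f) →
      (s • f - f) / algebraMap K F (π ^ 2) ∈ S.Ov)
    {θ : F} (hθH : ∀ t ∈ H, t • θ = θ)
    {c : K} (hcH : ∀ t ∈ H, SemilinearAut.baseAut t c = c)
    (hθc : S.red (θ / algebraMap K F c) ≠ 0)
    {n : ℤ} (hn : S.A.valuation c = S.A.valuation π ^ n) :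
    (θ / s • θ - (1 + algebraMap K F (-(n : K) * α₀ * π))) / algebraMap K F (π ^ 2) ∈ S.Ov := by
  have hϖ : S.Ov.valuation (algebraMap K F π) < 1 := la_val_algebraMap_lt S hπ0 hπ1
  have hnα : algebraMap K F ((n : K) * α₀) ∈ S.Ov :=
    S.algebraMap_mem (mul_mem (intCast_mem S.A n) hα₀)
  have h := ((lemmaA_cong s H hπ0 hπ1 hπH hα₀ hsπ hA1 hG2 hθH hcH hθc hn).inv hϖ hnα).div_mem
    ((map_ne_zero _).mpr hπ0)
  rw [inv_div, ← map_pow] at h
  have e : algebraMap K F π * -algebraMap K F ((n : K) * α₀) =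
      algebraMap K F (-(n : K) * α₀ * π) := by
    rw [← map_neg, ← map_mul]
    congr 1
    ring
  rwa [e] at h

/-- the residue of `π` vanishes. -/
theorem la_red_pi {π : K} (hπ0 : π ≠ 0) (hπ1 : S.A.valuation π < 1) :
    S.red (algebraMap K F π) = 0 := by
  have hϖ : S.Ov.valuation (algebraMap K F π) < 1 := la_val_algebraMap_lt S hπ0 hπ1
  have hϖO : algebraMap K F π ∈ S.Ov := la_mem_of_val_lt hϖ
  rw [S.red_eq_zero_iff hϖO ((map_ne_zero _).mpr hπ0)]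
  intro h
  have h1 : S.Ov.valuation (algebraMap K F π)⁻¹ ≤ 1 := (S.Ov.valuation_le_one_iff _).mpr h
  rw [map_inv₀] at h1
  have h0 : S.Ov.valuation (algebraMap K F π) ≠ 0 :=
    (Valuation.ne_zero_iff _).mpr ((map_ne_zero _).mpr hπ0)
  have h2 : 1 ≤ S.Ov.valuation (algebraMap K F π) := (inv_le_one₀ (zero_lt_iff.mpr h0)).mp h1
  exact absurd hϖ (not_lt.mpr h2)

/-- first-order congruence ⟹ value of the reduction of `(x - 1) / π`. -/
theorem LaCong.red_eq {π : K} (hπ0 : π ≠ 0) (hπ1 : S.A.valuation π < 1) {x a : F} (ha : a ∈ S.Ov)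
    (hx : LaCong S.Ov (algebraMap K F π) x a) :
    (x - 1) / algebraMap K F π ∈ S.Ov ∧ S.red ((x - 1) / algebraMap K F π) = S.red a := by
  obtain ⟨r, hr, rfl⟩ := hx
  have hπ0' : algebraMap K F π ≠ 0 := (map_ne_zero _).mpr hπ0
  have hϖ : S.Ov.valuation (algebraMap K F π) < 1 := la_val_algebraMap_lt S hπ0 hπ1
  have hϖO : algebraMap K F π ∈ S.Ov := la_mem_of_val_lt hϖ
  have e : (1 + algebraMap K F π * a + algebraMap K F π ^ 2 * r - 1) / algebraMap K F π =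
      a + algebraMap K F π * r := by
    field_simp
    ring
  rw [e]
  refine ⟨add_mem ha (mul_mem hϖO hr), ?_⟩
  rw [S.red_add ha (mul_mem hϖO hr), S.red_mul hϖO hr, la_red_pi hπ0 hπ1, zero_mul, add_zero]

/-- **Lemma A, reduced form**: `red ((s θ / θ - 1) / π) = n · res α₀` (a constant). -/
theorem lemmaA_red (s : SemilinearAut K F) (H : Set (SemilinearAut K F)) {π α₀ : K}
    (hπ0 : π ≠ 0) (hπ1 : S.A.valuation π < 1)
    (hπH : ∀ t ∈ H, SemilinearAut.baseAut t π = π) (hα₀ : α₀ ∈ S.A)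
    (hsπ : (SemilinearAut.baseAut s π - π * (1 + α₀ * π)) / π ^ 3 ∈ S.A)
    (hA1 : ∀ c : K, c ∈ S.A → (∀ t ∈ H, SemilinearAut.baseAut t c = c) →
      (SemilinearAut.baseAut s c - c) / π ^ 2 ∈ S.A)
    (hG2 : ∀ f : F, f ∈ S.Ov → (∀ t ∈ H, t • f = f) →
      (s • f - f) / algebraMap K F (π ^ 2) ∈ S.Ov)
    {θ : F} (hθH : ∀ t ∈ H, t • θ = θ)
    {c : K} (hcH : ∀ t ∈ H, SemilinearAut.baseAut t c = c)
    (hθc : S.red (θ / algebraMap K F c) ≠ 0)
    {n : ℤ} (hn : S.A.valuation c = S.A.valuation π ^ n) :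
    (s • θ / θ - 1) / algebraMap K F π ∈ S.Ov ∧
      S.red ((s • θ / θ - 1) / algebraMap K F π) =
        algebraMap k Fk ((n : k) * S.res ⟨α₀, hα₀⟩) := by
  have hnA : (n : K) ∈ S.A := intCast_mem S.A n
  have hnα : algebraMap K F ((n : K) * α₀) ∈ S.Ov :=
    S.algebraMap_mem (mul_mem hnA hα₀)
  have h := (lemmaA_cong s H hπ0 hπ1 hπH hα₀ hsπ hA1 hG2 hθH hcH hθc hn).red_eq hπ0 hπ1 hnα
  refine ⟨h.1, ?_⟩
  rw [h.2, S.red_algebraMap (mul_mem hnA hα₀)]
  congr 1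
  have e1 : (⟨(n : K) * α₀, mul_mem hnA hα₀⟩ : S.A) = (n : S.A) * ⟨α₀, hα₀⟩ := by
    apply Subtype.ext
    simp
  rw [e1, map_mul, map_intCast]

/-! ### The integer `n_S(θ)` as a relation -/

/-- `n = n_S(θ)`: `θ = c · (unit of O)` with an `M`-rational constant `c` of valuation
`v π ^ n`. -/
def LaOrd (S : ValSetup K F k Fk) (H : Set (SemilinearAut K F)) (π : K) (θ : F) (n : ℤ) : Prop :=
  ∃ c : K, (∀ t ∈ H, SemilinearAut.baseAut t c = c) ∧ S.red (θ / algebraMap K F c) ≠ 0 ∧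
    S.A.valuation c = S.A.valuation π ^ n

variable {H : Set (SemilinearAut K F)} {π : K}

theorem LaOrd.ne_zero {θ : F} {n : ℤ} (h : LaOrd S H π θ n) : θ ≠ 0 := by
  obtain ⟨c, -, hc, -⟩ := h
  intro h0
  exact S.ne_zero_of_red_ne_zero hc (by rw [h0, zero_div])

/-- existence of `n_S(θ)` from (G1) and the value group of `M`. -/
theorem laOrd_exists
    (hG1 : ∀ f : F, f ≠ 0 → (∀ t ∈ H, t • f = f) →
      ∃ c : K, (∀ t ∈ H, SemilinearAut.baseAut t c = c) ∧ S.red (f / algebraMap K F c) ≠ 0)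
    (hval : ∀ c : K, c ≠ 0 → (∀ t ∈ H, SemilinearAut.baseAut t c = c) →
      ∃ n : ℤ, S.A.valuation c = S.A.valuation π ^ n)
    {θ : F} (hθ0 : θ ≠ 0) (hθH : ∀ t ∈ H, t • θ = θ) : ∃ n : ℤ, LaOrd S H π θ n := by
  obtain ⟨c, hcH, hc⟩ := hG1 θ hθ0 hθH
  have hc0 : c ≠ 0 := by
    intro h0
    exact S.ne_zero_of_red_ne_zero hc (by rw [h0, map_zero, div_zero])
  obtain ⟨n, hn⟩ := hval c hc0 hcH
  exact ⟨n, c, hcH, hc, hn⟩

/-- two scaling constants of the same function have the same valuation. -/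
theorem la_val_eq_of_red_ne_zero {θ : F} {c c' : K} (hc : S.red (θ / algebraMap K F c) ≠ 0)
    (hc' : S.red (θ / algebraMap K F c') ≠ 0) : S.A.valuation c = S.A.valuation c' := by
  have hw0 : θ / algebraMap K F c ≠ 0 := S.ne_zero_of_red_ne_zero hc
  have hθ0 : θ ≠ 0 := fun h => hw0 (by rw [h, zero_div])
  have hc0 : c ≠ 0 := fun h => hw0 (by rw [h, map_zero, div_zero])
  have hc0' : c' ≠ 0 := fun h => S.ne_zero_of_red_ne_zero hc' (by rw [h, map_zero, div_zero])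
  have hF0 : algebraMap K F c ≠ 0 := (map_ne_zero _).mpr hc0
  have hF0' : algebraMap K F c' ≠ 0 := (map_ne_zero _).mpr hc0'
  have key : ∀ {a b : K}, a ≠ 0 → b ≠ 0 → S.red (θ / algebraMap K F a) ≠ 0 →
      S.red (θ / algebraMap K F b) ≠ 0 → S.A.valuation a ≤ S.A.valuation b := by
    intro a b ha0 hb0 ha hb
    have haF : algebraMap K F a ≠ 0 := (map_ne_zero _).mpr ha0
    have hbF : algebraMap K F b ≠ 0 := (map_ne_zero _).mpr hb0
    have h1 : algebraMap K F (a / b) ∈ S.Ov := by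
      have e : algebraMap K F (a / b) = (θ / algebraMap K F a)⁻¹ * (θ / algebraMap K F b) := by
        rw [map_div₀]
        field_simp
      rw [e]
      exact mul_mem (S.inv_mem_of_red_ne_zero ha) (S.mem_of_red_ne_zero hb)
    have h2 : a / b ∈ S.A := (S.mem_Ov_iff _).mp h1
    have h3 : S.A.valuation (a / b) ≤ 1 := (S.A.valuation_le_one_iff _).mpr h2
    rw [map_div₀] at h3
    have hvb : 0 < S.A.valuation b := zero_lt_iff.mpr ((Valuation.ne_zero_iff _).mpr hb0)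
    exact (div_le_one₀ hvb).mp h3
  exact le_antisymm (key hc0 hc0' hc hc') (key hc0' hc0 hc' hc)

/-- uniqueness of `n_S(θ)`. -/
theorem LaOrd.unique (hπ0 : π ≠ 0) (hπ1 : S.A.valuation π < 1) {θ : F} {n m : ℤ}
    (hn : LaOrd S H π θ n) (hm : LaOrd S H π θ m) : n = m := by
  obtain ⟨c, -, hc, hcn⟩ := hn
  obtain ⟨c', -, hc', hcm⟩ := hm
  have h := la_val_eq_of_red_ne_zero hc hc'
  rw [hcn, hcm] at h
  have hv0 : 0 < S.A.valuation π := zero_lt_iff.mpr ((Valuation.ne_zero_iff _).mpr hπ0)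
  exact zpow_right_injective₀ hv0 hπ1.ne h

/-- if `π = 0` (degenerate), the only possible exponent is `0`. -/
theorem la_exp_eq_zero_of_val {c : K} (hc0 : c ≠ 0) {n : ℤ}
    (hcn : S.A.valuation c = S.A.valuation π ^ n) (h0 : S.A.valuation π = 0) : n = 0 := by
  by_contra hn0
  have hvc : S.A.valuation c ≠ 0 := (Valuation.ne_zero_iff _).mpr hc0
  rw [hcn, h0, zero_zpow n hn0] at hvc
  exact hvc rfl

theorem la_ne_zero_of_red {θ : F} {c : K} (hc : S.red (θ / algebraMap K F c) ≠ 0) : c ≠ 0 :=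
  fun h => S.ne_zero_of_red_ne_zero hc (by rw [h, map_zero, div_zero])

theorem LaOrd.mul {θ θ' : F} {n n' : ℤ} (h : LaOrd S H π θ n) (h' : LaOrd S H π θ' n') :
    LaOrd S H π (θ * θ') (n + n') := by
  obtain ⟨c, hcH, hc, hcn⟩ := h
  obtain ⟨c', hcH', hc', hcn'⟩ := h'
  have hc0 : c ≠ 0 := la_ne_zero_of_red hc
  have hc0' : c' ≠ 0 := la_ne_zero_of_red hc'
  refine ⟨c * c', ?_, ?_, ?_⟩
  · intro t ht
    rw [map_mul, hcH t ht, hcH' t ht]
  · have e : θ * θ' / algebraMap K F (c * c') =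
        (θ / algebraMap K F c) * (θ' / algebraMap K F c') := by
      rw [map_mul, mul_div_mul_comm]
    rw [e, S.red_mul (S.mem_of_red_ne_zero hc) (S.mem_of_red_ne_zero hc')]
    exact mul_ne_zero hc hc'
  · by_cases hvπ : S.A.valuation π = 0
    · have hn := la_exp_eq_zero_of_val hc0 hcn hvπ
      have hn' := la_exp_eq_zero_of_val hc0' hcn' hvπ
      subst hn hn'
      rw [map_mul, hcn, hcn']
      simp
    · rw [map_mul, hcn, hcn', zpow_add₀ hvπ]

theorem LaOrd.inv {θ : F} {n : ℤ} (h : LaOrd S H π θ n) : LaOrd S H π θ⁻¹ (-n) := by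
  obtain ⟨c, hcH, hc, hcn⟩ := h
  have hc0 : c ≠ 0 := la_ne_zero_of_red hc
  have hw0 : θ / algebraMap K F c ≠ 0 := S.ne_zero_of_red_ne_zero hc
  refine ⟨c⁻¹, ?_, ?_, ?_⟩
  · intro t ht
    rw [map_inv₀, hcH t ht]
  · have e : θ⁻¹ / algebraMap K F c⁻¹ = (θ / algebraMap K F c)⁻¹ := by
      rw [map_inv₀, inv_div_inv, inv_div]
    rw [e, S.red_inv (S.mem_of_red_ne_zero hc) (S.inv_mem_of_red_ne_zero hc) hw0]
    exact inv_ne_zero hc
  · rw [map_inv₀, hcn, zpow_neg]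

theorem laOrd_one : LaOrd S H π (1 : F) 0 := by
  refine ⟨1, fun t _ => map_one _, ?_, by simp⟩
  rw [map_one, div_one, S.red_one]
  exact one_ne_zero

theorem LaOrd.pow {θ : F} {n : ℤ} (h : LaOrd S H π θ n) (m : ℕ) :
    LaOrd S H π (θ ^ m) ((m : ℤ) * n) := by
  induction m with
  | zero => simpa using laOrd_one (S := S) (H := H) (π := π)
  | succ m ih =>
    rw [pow_succ]
    have := ih.mul h
    have e : ((m : ℤ) * n + n) = ((m + 1 : ℕ) : ℤ) * n := by push_cast; ring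
    rwa [e] at this

theorem LaOrd.div {θ θ' : F} {n n' : ℤ} (h : LaOrd S H π θ n) (h' : LaOrd S H π θ' n') :
    LaOrd S H π (θ / θ') (n - n') := by
  rw [div_eq_mul_inv, sub_eq_add_neg]
  exact h.mul h'.inv

/-- a unit of `O` has `n_S = 0`. -/
theorem laOrd_of_red_ne_zero {θ : F} (h : S.red θ ≠ 0) : LaOrd S H π θ 0 := by
  refine ⟨1, fun t _ => map_one _, ?_, by simp⟩
  rwa [map_one, div_one]

/-- an `M`-rational constant of valuation `v π ^ n` has `n_S = n`. -/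
theorem laOrd_const {c : K} (hc0 : c ≠ 0) (hcH : ∀ t ∈ H, SemilinearAut.baseAut t c = c) {n : ℤ}
    (hn : S.A.valuation c = S.A.valuation π ^ n) : LaOrd S H π (algebraMap K F c) n := by
  refine ⟨c, hcH, ?_, hn⟩
  rw [div_self ((map_ne_zero _).mpr hc0), S.red_one]
  exact one_ne_zero

/-- **Lemma A** in terms of `LaOrd`. -/
theorem lemmaA_of_laOrd (s : SemilinearAut K F) {α₀ : K}
    (hπ0 : π ≠ 0) (hπ1 : S.A.valuation π < 1)
    (hπH : ∀ t ∈ H, SemilinearAut.baseAut t π = π) (hα₀ : α₀ ∈ S.A)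
    (hsπ : (SemilinearAut.baseAut s π - π * (1 + α₀ * π)) / π ^ 3 ∈ S.A)
    (hA1 : ∀ c : K, c ∈ S.A → (∀ t ∈ H, SemilinearAut.baseAut t c = c) →
      (SemilinearAut.baseAut s c - c) / π ^ 2 ∈ S.A)
    (hG2 : ∀ f : F, f ∈ S.Ov → (∀ t ∈ H, t • f = f) →
      (s • f - f) / algebraMap K F (π ^ 2) ∈ S.Ov)
    {θ : F} (hθH : ∀ t ∈ H, t • θ = θ) {n : ℤ} (hn : LaOrd S H π θ n) :
    (s • θ / θ - (1 + algebraMap K F ((n : K) * α₀ * π))) / algebraMap K F (π ^ 2) ∈ S.Ov ∧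
    (θ / s • θ - (1 + algebraMap K F (-(n : K) * α₀ * π))) / algebraMap K F (π ^ 2) ∈ S.Ov := by
  obtain ⟨c, hcH, hc, hcn⟩ := hn
  exact ⟨lemmaA s H hπ0 hπ1 hπH hα₀ hsπ hA1 hG2 hθH hcH hc hcn,
    lemmaA_inv s H hπ0 hπ1 hπH hα₀ hsπ hA1 hG2 hθH hcH hc hcn⟩

/-! ### Valuation form of the hypotheses (the shape of D-BRK's `Brk`) -/

/-- `v x ≤ v π ^ m` ⟹ `x / π ^ m ∈ A`. -/
theorem la_div_mem_of_val_le (A : ValuationSubring K) {π x : K} (hπ0 : π ≠ 0) {m : ℕ}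
    (h : A.valuation x ≤ A.valuation π ^ m) : x / π ^ m ∈ A := by
  rw [← A.valuation_le_one_iff, map_div₀, map_pow]
  have hv : 0 < A.valuation π ^ m :=
    pow_pos (zero_lt_iff.mpr ((Valuation.ne_zero_iff _).mpr hπ0)) m
  exact (div_le_one₀ hv).mpr h

/-- **Lemma A**, hypotheses in valuation form (fields `s_π`, `depth` of D-BRK's `Brk`). -/
theorem lemmaA_val (s : SemilinearAut K F) (H : Set (SemilinearAut K F)) {π α₀ : K}
    (hπ0 : π ≠ 0) (hπ1 : S.A.valuation π < 1)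
    (hπH : ∀ t ∈ H, SemilinearAut.baseAut t π = π) (hα₀ : α₀ ∈ S.A)
    (hsπ : S.A.valuation (SemilinearAut.baseAut s π - π * (1 + α₀ * π)) ≤ S.A.valuation π ^ 3)
    (hA1 : ∀ c : K, (∀ t ∈ H, SemilinearAut.baseAut t c = c) → c ∈ S.A →
      S.A.valuation (SemilinearAut.baseAut s c - c) ≤ S.A.valuation π ^ 2)
    (hG2 : ∀ f : F, f ∈ S.Ov → (∀ t ∈ H, t • f = f) →
      (s • f - f) / algebraMap K F (π ^ 2) ∈ S.Ov)
    {θ : F} (hθH : ∀ t ∈ H, t • θ = θ) {n : ℤ} (hn : LaOrd S H π θ n) :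
    (s • θ / θ - (1 + algebraMap K F ((n : K) * α₀ * π))) / algebraMap K F (π ^ 2) ∈ S.Ov ∧
    (θ / s • θ - (1 + algebraMap K F (-(n : K) * α₀ * π))) / algebraMap K F (π ^ 2) ∈ S.Ov :=
  lemmaA_of_laOrd s hπ0 hπ1 hπH hα₀ (la_div_mem_of_val_le S.A hπ0 hsπ)
    (fun c hc hcH => la_div_mem_of_val_le S.A hπ0 (hA1 c hcH hc)) hG2 hθH hn

/-- (G2) in valuation form ⟹ (G2) in quotient form. -/
theorem la_G2_of_val (s : SemilinearAut K F) (H : Set (SemilinearAut K F)) {π : K} (hπ0 : π ≠ 0)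
    (h : ∀ f : F, f ∈ S.Ov → (∀ t ∈ H, t • f = f) →
      S.Ov.valuation (s • f - f) ≤ S.Ov.valuation (algebraMap K F π) ^ 2) :
    ∀ f : F, f ∈ S.Ov → (∀ t ∈ H, t • f = f) →
      (s • f - f) / algebraMap K F (π ^ 2) ∈ S.Ov := by
  intro f hf hfH
  rw [map_pow]
  exact la_div_mem_of_val_le S.Ov ((map_ne_zero _).mpr hπ0) (h f hf hfH)

end Main

end Fermat.Agent.PeuD
end
end MergeWrap_Lib_BadRed_PeuD_LemmaA
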