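import Mathlib
import Fermat.Agent.MU.Lib.BadRed.PeuD.NodeLoc
import Fermat.Agent.MU.E.Desc.Kp.OrdToric

section MergeWrap_Lib_BadRed_PeuD_SlopeLoc -- from Lib/BadRed/PeuD/SlopeLoc.lean

set_option autoImplicit false
set_option linter.unusedSectionVars false
set_option linter.unusedVariables false

noncomputable section

open AlgebraicCurve Fermat.Agent.RR Fermat.Agent.Deuring Fermat.Agent.BadRed Fermat.Agent.EKp

namespace Fermat.Agent.PeuD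

variable {K F k Fk₁ Fk₂ : Type*} [Field K] [Field F] [Algebra K F]
  [Field k] [Field Fk₁] [Algebra k Fk₁] [Field Fk₂] [Algebra k Fk₂] {ι : Type*} [Fintype ι]

variable {N : NodalSeed K F k Fk₁ Fk₂ ι}

/-- constants have neither zero nor pole. -/
theorem noDivAtNode_algebraMap (i : ι) (c : K) : NoDivAtNode N i (algebraMap K F c) :=
  fun P _ => Fermat.Agent.S24Res.ord_algebraMap P c

theorem NoDivAtNode.pow {i : ι} {f : F} (h : NoDivAtNode N i f) (n : ℕ) :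
    NoDivAtNode N i (f ^ n) := by
  intro P hP
  rw [ordt_ord_pow, h P hP, mul_zero]

theorem NoDivAtNode.zpow {i : ι} {f : F} (h : NoDivAtNode N i f) (n : ℤ) :
    NoDivAtNode N i (f ^ n) := by
  intro P hP
  rw [P.ord_zpow, h P hP, mul_zero]

theorem NoDivAtNode.div {i : ι} {f g : F} (hf : NoDivAtNode N i f) (hg : NoDivAtNode N i g) :
    NoDivAtNode N i (f / g) := by
  rw [div_eq_mul_inv]
  exact hf.mul hg.inv

/-- injectivity of `x ↦ x ^ b` on the value group. -/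
theorem slopeLoc_pow_inj {Γ : Type*} [LinearOrderedCommGroupWithZero Γ] {x y : Γ} {b : ℕ}
    (hb : 0 < b) (h : x ^ b = y ^ b) : x = y :=
  (pow_left_inj₀ zero_le zero_le hb.ne').mp h

/-- **SLOPE-loc**. -/
theorem slope_loc [Infinite k] {u : F} {ϖ : K} {ε : ℕ} {i : ι} (hϖ : ϖ ≠ 0)
    (hu₁ : N.S₁.red u ≠ 0) (hw₂ : N.S₂.red (algebraMap K F ϖ * u⁻¹) ≠ 0)
    (hε₁ : (N.s₁ i).ord (N.S₁.red u) = ε)
    (hε₂ : (N.s₂ i).ord (N.S₂.red (algebraMap K F ϖ * u⁻¹)) = ε)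
    (hu : NoDivAtNode N i u)
    {θ : F} (hθ : NoDivAtNode N i θ) {c₁ c₂ : K}
    (h₁ : N.S₁.red (θ / algebraMap K F c₁) ≠ 0) (h₂ : N.S₂.red (θ / algebraMap K F c₂) ≠ 0)
    (hR1 : ∃ (b : ℕ) (a : ℤ), 0 < b ∧
      N.S₁.A.valuation ((c₂ / c₁) ^ b) = N.S₁.A.valuation (ϖ ^ a)) :
    (N.s₂ i).ord (N.S₂.red (θ / algebraMap K F c₂)) =
        -(N.s₁ i).ord (N.S₁.red (θ / algebraMap K F c₁)) ∧
      N.S₁.A.valuation (c₂ / c₁) ^ ε =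
        N.S₁.A.valuation ϖ ^ (N.s₁ i).ord (N.S₁.red (θ / algebraMap K F c₁)) := by
  classical
  obtain ⟨b, a, hb, hval⟩ := hR1
  -- the basic non-vanishing
  have hG1ne : θ / algebraMap K F c₁ ≠ 0 := N.S₁.ne_zero_of_red_ne_zero h₁
  have hG2ne : θ / algebraMap K F c₂ ≠ 0 := N.S₂.ne_zero_of_red_ne_zero h₂
  have hθ0 : θ ≠ 0 := fun h => hG1ne (by rw [h, zero_div])
  have hc1F : algebraMap K F c₁ ≠ 0 := fun h => hG1ne (by rw [h, div_zero])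
  have hc2F : algebraMap K F c₂ ≠ 0 := fun h => hG2ne (by rw [h, div_zero])
  have hc1 : c₁ ≠ 0 := fun h => hc1F (by rw [h, map_zero])
  have hc2 : c₂ ≠ 0 := fun h => hc2F (by rw [h, map_zero])
  have hu0 : u ≠ 0 := N.S₁.ne_zero_of_red_ne_zero hu₁
  have hϖF : algebraMap K F ϖ ≠ 0 := by
    rwa [Ne, map_eq_zero_iff _ (algebraMap K F).injective]
  set G1 : F := θ / algebraMap K F c₁ with hG1def
  set G2 : F := θ / algebraMap K F c₂ with hG2def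
  set w : F := algebraMap K F ϖ * u⁻¹ with hw
  have hw0 : w ≠ 0 := mul_ne_zero hϖF (inv_ne_zero hu0)
  have hG1 : G1 ∈ N.S₁.Ov := N.S₁.mem_of_red_ne_zero h₁
  have hG1' : G1⁻¹ ∈ N.S₁.Ov := N.S₁.inv_mem_of_red_ne_zero h₁
  have hG2 : G2 ∈ N.S₂.Ov := N.S₂.mem_of_red_ne_zero h₂
  have hG2' : G2⁻¹ ∈ N.S₂.Ov := N.S₂.inv_mem_of_red_ne_zero h₂
  have hum : u ∈ N.S₁.Ov := N.S₁.mem_of_red_ne_zero hu₁
  have hum' : u⁻¹ ∈ N.S₁.Ov := N.S₁.inv_mem_of_red_ne_zero hu₁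
  have hwm : w ∈ N.S₂.Ov := N.S₂.mem_of_red_ne_zero hw₂
  have hwm' : w⁻¹ ∈ N.S₂.Ov := N.S₂.inv_mem_of_red_ne_zero hw₂
  -- the constant `η` of valuation `1`
  set η : K := (c₂ / c₁) ^ b * (ϖ ^ a)⁻¹ with hη
  have hϖa : ϖ ^ a ≠ 0 := zpow_ne_zero _ hϖ
  have hη0 : η ≠ 0 :=
    mul_ne_zero (pow_ne_zero _ (div_ne_zero hc2 hc1)) (inv_ne_zero hϖa)
  have hηv : N.S₁.A.valuation η = 1 := by
    rw [hη, map_mul, map_inv₀, hval, mul_inv_cancel₀]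
    exact (Valuation.ne_zero_iff _).2 hϖa
  have hηA : η ∈ N.S₁.A := (ValuationSubring.valuation_le_one_iff _ _).1 hηv.le
  have hηA' : η⁻¹ ∈ N.S₁.A := by
    rw [← ValuationSubring.valuation_le_one_iff, map_inv₀, hηv, inv_one]
  have hηA₂ : η ∈ N.S₂.A := N.A_eq ▸ hηA
  have hηA₂' : η⁻¹ ∈ N.S₂.A := N.A_eq ▸ hηA'
  have hηF : algebraMap K F η ≠ 0 := by
    rwa [Ne, map_eq_zero_iff _ (algebraMap K F).injective]
  have hηmem : algebraMap K F η ∈ N.S₂.Ov := N.S₂.algebraMap_mem hηA₂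
  have hηmem' : (algebraMap K F η)⁻¹ ∈ N.S₂.Ov := by
    rw [← map_inv₀]; exact N.S₂.algebraMap_mem hηA₂'
  -- the function `f`
  set f : F := G1 ^ b * u ^ (-a) with hf
  have hf2 : f = G2 ^ b * algebraMap K F η * w ^ a := by
    have e1 : algebraMap K F η
        = (algebraMap K F c₂ / algebraMap K F c₁) ^ b * ((algebraMap K F ϖ) ^ a)⁻¹ := by
      rw [hη, map_mul, map_pow, map_div₀, map_inv₀, map_zpow₀]
    have e2 : w ^ a = (algebraMap K F ϖ) ^ a * (u ^ a)⁻¹ := by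
      rw [hw, mul_zpow, inv_zpow]
    have e3 : G2 * (algebraMap K F c₂ / algebraMap K F c₁) = G1 := by
      rw [hG1def, hG2def]
      field_simp
    have hΦ : (algebraMap K F ϖ) ^ a ≠ 0 := zpow_ne_zero _ hϖF
    calc f = (G2 * (algebraMap K F c₂ / algebraMap K F c₁)) ^ b
          * (((algebraMap K F ϖ) ^ a)⁻¹ * (algebraMap K F ϖ) ^ a) * (u ^ a)⁻¹ := by
          rw [e3, inv_mul_cancel₀ hΦ, mul_one, hf, zpow_neg]
      _ = G2 ^ b * algebraMap K F η * w ^ a := by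
          rw [e1, e2, mul_pow]; ring
  have hGb₁ : G1 ^ b ∈ N.S₁.Ov := pow_mem hG1 b
  have hGb₁' : (G1 ^ b)⁻¹ ∈ N.S₁.Ov := by rw [← inv_pow]; exact pow_mem hG1' b
  have hGb₂ : G2 ^ b ∈ N.S₂.Ov := pow_mem hG2 b
  have hGb₂' : (G2 ^ b)⁻¹ ∈ N.S₂.Ov := by rw [← inv_pow]; exact pow_mem hG2' b
  have hua : u ^ (-a) ∈ N.S₁.Ov := ordt_zpow_mem _ hum hum' _
  have hua' : (u ^ (-a))⁻¹ ∈ N.S₁.Ov := by
    rw [← zpow_neg]; exact ordt_zpow_mem _ hum hum' _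
  have hwa : w ^ a ∈ N.S₂.Ov := ordt_zpow_mem _ hwm hwm' _
  have hwa' : (w ^ a)⁻¹ ∈ N.S₂.Ov := by
    rw [← zpow_neg]; exact ordt_zpow_mem _ hwm hwm' _
  have hf₁ : f ∈ N.S₁.Ov := mul_mem hGb₁ hua
  have hf₁' : f⁻¹ ∈ N.S₁.Ov := by rw [hf, mul_inv]; exact mul_mem hGb₁' hua'
  have hf₂ : f ∈ N.S₂.Ov := by rw [hf2]; exact mul_mem (mul_mem hGb₂ hηmem) hwa
  have hf₂' : f⁻¹ ∈ N.S₂.Ov := by
    rw [hf2, mul_inv, mul_inv]; exact mul_mem (mul_mem hGb₂' hηmem') hwa'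
  have hf0 : f ≠ 0 := mul_ne_zero (pow_ne_zero _ hG1ne) (zpow_ne_zero _ hu0)
  -- `f` has neither zero nor pole of type N at the node `i`
  have hfN : NoDivAtNode N i f :=
    ((hθ.div (noDivAtNode_algebraMap i c₁)).pow b).mul (hu.zpow (-a))
  obtain ⟨hn₁, hn₂, -⟩ := node_loc_unit hf₁ hf₂ hf₁' hf₂' hf0 hfN
  -- reductions
  have hηne : N.S₂.red (algebraMap K F η) ≠ 0 := N.S₂.red_ne_zero hηmem hηmem' hηF
  have hredf₁ : N.S₁.red f = N.S₁.red G1 ^ b * N.S₁.red u ^ (-a) := by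
    rw [hf, N.S₁.red_mul hGb₁ hua, N.S₁.red_pow hG1, ordt_red_zpow N.S₁ hum hum' hu0]
  have hredf₂ : N.S₂.red f
      = N.S₂.red G2 ^ b * N.S₂.red (algebraMap K F η) * N.S₂.red w ^ a := by
    rw [hf2, N.S₂.red_mul (mul_mem hGb₂ hηmem) hwa, N.S₂.red_mul hGb₂ hηmem, N.S₂.red_pow hG2,
      ordt_red_zpow N.S₂ hwm hwm' hw0]
  have hnode₁ : (b : ℤ) * (N.s₁ i).ord (N.S₁.red G1) = a * ε := by
    rw [hredf₁, Place.ord_mul _ (pow_ne_zero _ h₁) (zpow_ne_zero _ hu₁), ordt_ord_pow,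
      Place.ord_zpow, hε₁] at hn₁
    linarith
  have hnode₂ : (b : ℤ) * (N.s₂ i).ord (N.S₂.red G2) = (-a) * ε := by
    have hconst : (N.s₂ i).ord (N.S₂.red (algebraMap K F η)) = 0 := by
      rw [N.S₂.red_algebraMap hηA₂, Fermat.Agent.S24Res.ord_algebraMap]
    rw [hredf₂, Place.ord_mul _ (mul_ne_zero (pow_ne_zero _ h₂) hηne) (zpow_ne_zero _ hw₂),
      Place.ord_mul _ (pow_ne_zero _ h₂) hηne, ordt_ord_pow, Place.ord_zpow, hε₂, hconst]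
      at hn₂
    linarith
  have hbz : (b : ℤ) ≠ 0 := by exact_mod_cast hb.ne'
  refine ⟨?_, ?_⟩
  · apply mul_left_cancel₀ hbz
    rw [hnode₂, mul_neg, hnode₁]
    ring
  · -- `(x ^ ε) ^ b = (y ^ ord) ^ b`
    apply slopeLoc_pow_inj hb
    have hx : N.S₁.A.valuation (c₂ / c₁) ^ b = N.S₁.A.valuation ϖ ^ a := by
      rw [← map_pow, hval, map_zpow₀]
    have hy0 : N.S₁.A.valuation ϖ ≠ 0 := (Valuation.ne_zero_iff _).2 hϖ
    calc (N.S₁.A.valuation (c₂ / c₁) ^ ε) ^ b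
        = (N.S₁.A.valuation (c₂ / c₁) ^ b) ^ ε := by rw [← pow_mul, ← pow_mul, mul_comm]
      _ = (N.S₁.A.valuation ϖ ^ a) ^ (ε : ℤ) := by rw [hx, zpow_natCast]
      _ = N.S₁.A.valuation ϖ ^ ((b : ℤ) * (N.s₁ i).ord (N.S₁.red G1)) := by
          rw [← zpow_mul, hnode₁]
      _ = (N.S₁.A.valuation ϖ ^ (N.s₁ i).ord (N.S₁.red G1)) ^ b := by
          rw [mul_comm, zpow_mul, zpow_natCast]

/-- **SLOPE-loc**, with `(R1)` for all constants (the shape of K-p ORDT). -/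
theorem slope_loc_of_rankOne [Infinite k] {u : F} {ϖ : K} {ε : ℕ} {i : ι} (hϖ : ϖ ≠ 0)
    (hu₁ : N.S₁.red u ≠ 0) (hw₂ : N.S₂.red (algebraMap K F ϖ * u⁻¹) ≠ 0)
    (hε₁ : (N.s₁ i).ord (N.S₁.red u) = ε)
    (hε₂ : (N.s₂ i).ord (N.S₂.red (algebraMap K F ϖ * u⁻¹)) = ε)
    (hu : NoDivAtNode N i u)
    (hR1 : ∀ c : K, c ≠ 0 → ∃ (b : ℕ) (a : ℤ), 0 < b ∧
      N.S₁.A.valuation (c ^ b) = N.S₁.A.valuation (ϖ ^ a))
    {θ : F} (hθ : NoDivAtNode N i θ) {c₁ c₂ : K}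
    (h₁ : N.S₁.red (θ / algebraMap K F c₁) ≠ 0) (h₂ : N.S₂.red (θ / algebraMap K F c₂) ≠ 0) :
    (N.s₂ i).ord (N.S₂.red (θ / algebraMap K F c₂)) =
        -(N.s₁ i).ord (N.S₁.red (θ / algebraMap K F c₁)) ∧
      N.S₁.A.valuation (c₂ / c₁) ^ ε =
        N.S₁.A.valuation ϖ ^ (N.s₁ i).ord (N.S₁.red (θ / algebraMap K F c₁)) := by
  have hc1 : c₁ ≠ 0 := fun h =>
    N.S₁.ne_zero_of_red_ne_zero h₁ (by rw [h, map_zero, div_zero])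
  have hc2 : c₂ ≠ 0 := fun h =>
    N.S₂.ne_zero_of_red_ne_zero h₂ (by rw [h, map_zero, div_zero])
  exact slope_loc hϖ hu₁ hw₂ hε₁ hε₂ hu hθ h₁ h₂ (hR1 _ (div_ne_zero hc2 hc1))

/-- **SLOPE-loc**, the case of order `0`: `v c₂ = v c₁`. -/
theorem slope_loc_val_eq [Infinite k] {u : F} {ϖ : K} {ε : ℕ} {i : ι} (hϖ : ϖ ≠ 0)
    (hu₁ : N.S₁.red u ≠ 0) (hw₂ : N.S₂.red (algebraMap K F ϖ * u⁻¹) ≠ 0)
    (hε₁ : (N.s₁ i).ord (N.S₁.red u) = ε)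
    (hε₂ : (N.s₂ i).ord (N.S₂.red (algebraMap K F ϖ * u⁻¹)) = ε) (hε : ε ≠ 0)
    (hu : NoDivAtNode N i u)
    {θ : F} (hθ : NoDivAtNode N i θ) {c₁ c₂ : K}
    (h₁ : N.S₁.red (θ / algebraMap K F c₁) ≠ 0) (h₂ : N.S₂.red (θ / algebraMap K F c₂) ≠ 0)
    (hR1 : ∃ (b : ℕ) (a : ℤ), 0 < b ∧
      N.S₁.A.valuation ((c₂ / c₁) ^ b) = N.S₁.A.valuation (ϖ ^ a))
    (h0 : (N.s₁ i).ord (N.S₁.red (θ / algebraMap K F c₁)) = 0) :
    N.S₁.A.valuation c₂ = N.S₁.A.valuation c₁ := by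
  obtain ⟨-, h⟩ := slope_loc hϖ hu₁ hw₂ hε₁ hε₂ hu hθ h₁ h₂ hR1
  rw [h0, zpow_zero] at h
  have hc1 : c₁ ≠ 0 := fun h =>
    N.S₁.ne_zero_of_red_ne_zero h₁ (by rw [h, map_zero, div_zero])
  have h1 : N.S₁.A.valuation (c₂ / c₁) = 1 := by
    apply slopeLoc_pow_inj (Nat.pos_of_ne_zero hε)
    rw [h, one_pow]
  rw [map_div₀, div_eq_one_iff_eq ((Valuation.ne_zero_iff _).2 hc1)] at h1
  exact h1

/-- **SLOPE-loc** for units of both valuation rings (`c₁ = c₂ = 1`): no `u`-data needed. -/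
theorem slope_loc_unit [Infinite k] {i : ι} {θ : F} (hθ : NoDivAtNode N i θ)
    (h₁ : N.S₁.red θ ≠ 0) (h₂ : N.S₂.red θ ≠ 0) :
    (N.s₁ i).ord (N.S₁.red θ) = 0 ∧ (N.s₂ i).ord (N.S₂.red θ) = 0 := by
  obtain ⟨a, b, -⟩ := node_loc_unit (N.S₁.mem_of_red_ne_zero h₁) (N.S₂.mem_of_red_ne_zero h₂)
    (N.S₁.inv_mem_of_red_ne_zero h₁) (N.S₂.inv_mem_of_red_ne_zero h₂)
    (N.S₁.ne_zero_of_red_ne_zero h₁) hθ
  exact ⟨a, b⟩

end Fermat.Agent.PeuD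
end
end MergeWrap_Lib_BadRed_PeuD_SlopeLoc
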