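import Mathlib
import Fermat.Agent.MU.Lib.BadRed.PeuD.Key
import Fermat.Agent.MU.Lib.BadRed.PeuD.SlopeLoc
import Fermat.Agent.MU.Lib.BadRed.PeuD.LemmaA

section MergeWrap_Lib_BadRed_PeuD_IntCore -- from Lib/BadRed/PeuD/IntCore.lean

set_option autoImplicit false

namespace Fermat.Agent.PeuD

/-- exponents in a value group: `x ^ a = x ^ b`, `0 < x < 1` ⟹ `a = b`. -/
theorem intCore_zpow_inj {Γ : Type*} [LinearOrderedCommGroupWithZero Γ] {x : Γ} (hx0 : x ≠ 0)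
    (hx1 : x < 1) {a b : ℤ} (h : x ^ a = x ^ b) : a = b := by
  have hpos : 0 < x := lt_of_le_of_ne zero_le (Ne.symm hx0)
  exact (zpow_right_strictAnti₀ hpos hx1).injective h

/-- from the conclusion of `slope_loc` to integers: `v(c₂/c₁) = x ^ n`, `v(ϖ) = x ^ e`,
`v(c₂/c₁) ^ ε = v(ϖ) ^ A`  ⟹  `ε n = e A`. -/
theorem intCore_exp {Γ : Type*} [LinearOrderedCommGroupWithZero Γ] {x y z : Γ} (hx0 : x ≠ 0)
    (hx1 : x < 1) {n e A : ℤ} {ε : ℕ} (hy : y = x ^ n) (hz : z = x ^ e)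
    (h : y ^ ε = z ^ A) : (ε : ℤ) * n = e * A := by
  rw [hy, hz, ← zpow_natCast, ← zpow_mul, ← zpow_mul] at h
  have := intCore_zpow_inj hx0 hx1 h
  rw [mul_comm]
  exact this

/-- **arithmetic core of (INT)**. -/
theorem int_core (p : ℕ) (hp : p.Prime) {ι : Type*} (ε m : ι → ℕ) (E' Δg : ℤ)
    (a b Δη : ι → ℤ)
    (hε : ∀ i, ¬ (p : ℤ) ∣ (ε i : ℤ)) (hm : ∀ i, ¬ (p : ℤ) ∣ (m i : ℤ)) (hE : ¬ (p : ℤ) ∣ E')
    (hSL : ∀ i, (ε i : ℤ) * ((m i : ℤ) * Δg - p * Δη i) = p * E' * ((m i : ℤ) * a i - p * b i))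
    (hKEY : ∀ i j, (m j : ℤ) * Δη i ≡ (m i : ℤ) * Δη j [ZMOD (p : ℤ)]) (i j : ι) :
    (ε j : ℤ) * a i ≡ (ε i : ℤ) * a j [ZMOD (p : ℤ)] := by
  have hpZ : Prime (p : ℤ) := Nat.prime_iff_prime_int.mp hp
  have hp0 : (p : ℤ) ≠ 0 := hpZ.ne_zero
  -- `p ∣ Δg`
  have hΔ : (p : ℤ) ∣ Δg := by
    have h1 : (p : ℤ) ∣ (ε i : ℤ) * ((m i : ℤ) * Δg) := by
      refine ⟨E' * ((m i : ℤ) * a i - p * b i) + (ε i : ℤ) * Δη i, ?_⟩
      linear_combination hSL i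
    rcases hpZ.dvd_or_dvd h1 with h | h
    · exact absurd h (hε i)
    · rcases hpZ.dvd_or_dvd h with h | h
      · exact absurd h (hm i)
      · exact h
  obtain ⟨W, rfl⟩ := hΔ
  -- the relation divided by `p`
  have hrel : ∀ l, (ε l : ℤ) * ((m l : ℤ) * W - Δη l) = E' * ((m l : ℤ) * a l - p * b l) := by
    intro l
    apply mul_left_cancel₀ hp0
    linear_combination hSL l
  -- multiply the claim by the unit `E' m_i m_j`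
  have hunit : ¬ (p : ℤ) ∣ E' * ((m i : ℤ) * (m j : ℤ)) := by
    intro h
    rcases hpZ.dvd_or_dvd h with h | h
    · exact hE h
    · rcases hpZ.dvd_or_dvd h with h | h
      · exact hm i h
      · exact hm j h
  have hmain : (p : ℤ) ∣ E' * ((m i : ℤ) * (m j : ℤ)) * ((ε j : ℤ) * a i - (ε i : ℤ) * a j) := by
    obtain ⟨c, hc⟩ := (Int.modEq_iff_dvd.mp (hKEY i j))
    -- hc : m i * Δη j - m j * Δη i = p * c
    refine ⟨(ε i : ℤ) * (ε j : ℤ) * c + E' * ((m j : ℤ) * (ε j : ℤ) * b i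
      - (m i : ℤ) * (ε i : ℤ) * b j), ?_⟩
    linear_combination (-(m j : ℤ) * (ε j : ℤ)) * hrel i + ((m i : ℤ) * (ε i : ℤ)) * hrel j
      + ((ε i : ℤ) * (ε j : ℤ)) * hc
  have h2 : (p : ℤ) ∣ (ε j : ℤ) * a i - (ε i : ℤ) * a j :=
    (hpZ.dvd_or_dvd hmain).resolve_left hunit
  exact (Int.modEq_iff_dvd.mpr (by
    have : (ε i : ℤ) * a j - (ε j : ℤ) * a i = -((ε j : ℤ) * a i - (ε i : ℤ) * a j) := by ring
    rw [this]
    exact (dvd_neg.mpr h2)))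

/-- **arithmetic core of (INT), tame case**: `v(ϖ) = v(π) ^ E` with `p ∤ E`. -/
theorem int_core_tame (p : ℕ) (hp : p.Prime) {ι : Type*} (ε m : ι → ℕ) (E Δg : ℤ)
    (a b Δη : ι → ℤ)
    (hm : ∀ i, ¬ (p : ℤ) ∣ (m i : ℤ)) (hE : ¬ (p : ℤ) ∣ E)
    (hSL : ∀ i, (ε i : ℤ) * ((m i : ℤ) * Δg - p * Δη i) = E * ((m i : ℤ) * a i - p * b i))
    (i j : ι) :
    (ε j : ℤ) * a i ≡ (ε i : ℤ) * a j [ZMOD (p : ℤ)] := by
  have hpZ : Prime (p : ℤ) := Nat.prime_iff_prime_int.mp hp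
  have hunit : ¬ (p : ℤ) ∣ E * ((m i : ℤ) * (m j : ℤ)) := by
    intro h
    rcases hpZ.dvd_or_dvd h with h | h
    · exact hE h
    · rcases hpZ.dvd_or_dvd h with h | h
      · exact hm i h
      · exact hm j h
  have hmain : (p : ℤ) ∣ E * ((m i : ℤ) * (m j : ℤ)) * ((ε j : ℤ) * a i - (ε i : ℤ) * a j) := by
    refine ⟨E * ((m j : ℤ) * (ε j : ℤ) * b i - (m i : ℤ) * (ε i : ℤ) * b j)
      - (ε i : ℤ) * (ε j : ℤ) * ((m j : ℤ) * Δη i - (m i : ℤ) * Δη j), ?_⟩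
    linear_combination (-(m j : ℤ) * (ε j : ℤ)) * hSL i + ((m i : ℤ) * (ε i : ℤ)) * hSL j
  have h2 : (p : ℤ) ∣ (ε j : ℤ) * a i - (ε i : ℤ) * a j :=
    (hpZ.dvd_or_dvd hmain).resolve_left hunit
  exact (Int.modEq_iff_dvd.mpr (by
    have : (ε i : ℤ) * a j - (ε j : ℤ) * a i = -((ε j : ℤ) * a i - (ε i : ℤ) * a j) := by ring
    rw [this]
    exact (dvd_neg.mpr h2)))

end Fermat.Agent.PeuD
end MergeWrap_Lib_BadRed_PeuD_IntCore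

section MergeWrap_Lib_BadRed_PeuD_Int -- from Lib/BadRed/PeuD/Int.lean

set_option autoImplicit false
set_option linter.unusedSectionVars false
set_option linter.unusedVariables false

noncomputable section

open AlgebraicCurve Fermat.Agent.RR Fermat.Agent.Deuring Fermat.Agent.BadRed Fermat.Agent.EKp

namespace Fermat.Agent.PeuD

/-! ### scaled reductions -/

section Scaled

variable {K F k Fk : Type*} [Field K] [Field F] [Algebra K F]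
  [Field k] [Field Fk] [Algebra k Fk] (S : ValSetup K F k Fk)

theorem int_scale_ne {f : F} {c : K} (h : S.red (f / algebraMap K F c) ≠ 0) : c ≠ 0 := by
  rintro rfl
  exact S.ne_zero_of_red_ne_zero h (by rw [map_zero, div_zero])

theorem int_fun_ne {f : F} {c : K} (h : S.red (f / algebraMap K F c) ≠ 0) : f ≠ 0 := by
  rintro rfl
  exact S.ne_zero_of_red_ne_zero h (by rw [zero_div])

theorem int_red_pow {f : F} {c : K} (h : S.red (f / algebraMap K F c) ≠ 0) (m : ℕ) :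
    S.red (f ^ m / algebraMap K F (c ^ m)) = S.red (f / algebraMap K F c) ^ m := by
  rw [map_pow, ← div_pow, S.red_pow (S.mem_of_red_ne_zero h)]

theorem int_red_inv {f : F} {c : K} (h : S.red (f / algebraMap K F c) ≠ 0) :
    S.red (f⁻¹ / algebraMap K F c⁻¹) = (S.red (f / algebraMap K F c))⁻¹ := by
  have e : f⁻¹ / algebraMap K F c⁻¹ = (f / algebraMap K F c)⁻¹ := by
    rw [map_inv₀, inv_div_inv, inv_div]
  rw [e, S.red_inv (S.mem_of_red_ne_zero h) (S.inv_mem_of_red_ne_zero h)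
    (S.ne_zero_of_red_ne_zero h)]

theorem int_red_mul {f g : F} {c d : K} (hf : S.red (f / algebraMap K F c) ≠ 0)
    (hg : S.red (g / algebraMap K F d) ≠ 0) :
    S.red (f * g / algebraMap K F (c * d)) =
      S.red (f / algebraMap K F c) * S.red (g / algebraMap K F d) := by
  rw [map_mul, mul_div_mul_comm, S.red_mul (S.mem_of_red_ne_zero hf) (S.mem_of_red_ne_zero hg)]

/-- the reduction of `θ = f ^ m (η ^ p)⁻¹`. -/
theorem int_red_theta {f η : F} {c d : K} (hf : S.red (f / algebraMap K F c) ≠ 0)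
    (hη : S.red (η / algebraMap K F d) ≠ 0) (m p : ℕ) :
    S.red (f ^ m * (η ^ p)⁻¹ / algebraMap K F (c ^ m * (d ^ p)⁻¹)) =
      S.red (f / algebraMap K F c) ^ m * (S.red (η / algebraMap K F d) ^ p)⁻¹ := by
  have h1 : S.red (f ^ m / algebraMap K F (c ^ m)) ≠ 0 := by
    rw [int_red_pow S hf]
    exact pow_ne_zero _ hf
  have h2 : S.red (η ^ p / algebraMap K F (d ^ p)) ≠ 0 := by
    rw [int_red_pow S hη]
    exact pow_ne_zero _ hη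
  have h3 : S.red ((η ^ p)⁻¹ / algebraMap K F (d ^ p)⁻¹) ≠ 0 := by
    rw [int_red_inv S h2]
    exact inv_ne_zero h2
  rw [int_red_mul S h1 h3, int_red_pow S hf, int_red_inv S h2, int_red_pow S hη]

/-- the order of the reduction does not depend on the scaling constant. -/
theorem int_ord_red_scale (Q : Place k Fk) {f : F} {c c' : K}
    (h : S.red (f / algebraMap K F c) ≠ 0) (h' : S.red (f / algebraMap K F c') ≠ 0) :
    Q.ord (S.red (f / algebraMap K F c')) = Q.ord (S.red (f / algebraMap K F c)) := by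
  have hc : c ≠ 0 := int_scale_ne S h
  have hc' : c' ≠ 0 := int_scale_ne S h'
  have hf : f ≠ 0 := int_fun_ne S h
  have hcF : algebraMap K F c ≠ 0 := (map_ne_zero _).mpr hc
  have hcF' : algebraMap K F c' ≠ 0 := (map_ne_zero _).mpr hc'
  have e : f / algebraMap K F c' = f / algebraMap K F c * algebraMap K F (c / c') := by
    rw [map_div₀]
    field_simp
  have hmemF : algebraMap K F (c / c') ∈ S.Ov := by
    have e2 : algebraMap K F (c / c') = f / algebraMap K F c' * (f / algebraMap K F c)⁻¹ := by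
      rw [map_div₀]
      field_simp
    rw [e2]
    exact mul_mem (S.mem_of_red_ne_zero h') (S.inv_mem_of_red_ne_zero h)
  have hmem : c / c' ∈ S.A := (S.mem_Ov_iff _).mp hmemF
  have hred : S.red (f / algebraMap K F c') =
      S.red (f / algebraMap K F c) * algebraMap k Fk (S.res ⟨c / c', hmem⟩) := by
    rw [e, S.red_mul (S.mem_of_red_ne_zero h) hmemF, S.red_algebraMap hmem]
  have hr0 : algebraMap k Fk (S.res ⟨c / c', hmem⟩) ≠ 0 := by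
    intro h0
    rw [hred, h0, mul_zero] at h'
    exact h' rfl
  rw [hred, Q.ord_mul h hr0, Fermat.Agent.S24Res.ord_algebraMap, add_zero]

end Scaled

/-! ### arithmetic in the value group -/

theorem int_val_combo {Γ : Type*} [LinearOrderedCommGroupWithZero Γ] {x : Γ} (hx : x ≠ 0)
    (a₁ b₁ a₂ b₂ : ℤ) (m p : ℕ) :
    ((x ^ a₂) ^ m * ((x ^ b₂) ^ p)⁻¹) / ((x ^ a₁) ^ m * ((x ^ b₁) ^ p)⁻¹) =
      x ^ ((m : ℤ) * (a₂ - a₁) - (p : ℤ) * (b₂ - b₁)) := by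
  rw [← zpow_natCast (x ^ a₂), ← zpow_natCast (x ^ b₂), ← zpow_natCast (x ^ a₁),
    ← zpow_natCast (x ^ b₁), ← zpow_mul, ← zpow_mul, ← zpow_mul, ← zpow_mul, ← zpow_neg,
    ← zpow_neg, ← zpow_add₀ hx, ← zpow_add₀ hx, ← zpow_sub₀ hx]
  congr 1
  ring

theorem int_val_transport {K : Type*} [Field K] {A B : ValuationSubring K} (h : A = B) {c π : K}
    {n : ℤ} (hn : A.valuation c = A.valuation π ^ n) : B.valuation c = B.valuation π ^ n := by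
  subst h
  exact hn

theorem int_val_lt_transport {K : Type*} [Field K] {A B : ValuationSubring K} (h : A = B) {π : K}
    (hn : A.valuation π < 1) : B.valuation π < 1 := by
  subst h
  exact hn

/-! ### the slope equation -/

section Main

variable {K F k Fk₁ Fk₂ : Type*} [Field K] [Field F] [Algebra K F]
  [Field k] [Field Fk₁] [Algebra k Fk₁] [Field Fk₂] [Algebra k Fk₂] {ι : Type*} [Fintype ι]

variable {N : NodalSeed K F k Fk₁ Fk₂ ι}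

/-- **the slope equation** for `θ = g ^ m (η ^ p)⁻¹` at the node `i`. -/
theorem int_slope_eq [Infinite k] {u : F} {ϖ : K} {ε : ℕ} {i : ι} (hϖ : ϖ ≠ 0)
    (hu₁ : N.S₁.red u ≠ 0) (hw₂ : N.S₂.red (algebraMap K F ϖ * u⁻¹) ≠ 0)
    (hε₁ : (N.s₁ i).ord (N.S₁.red u) = ε)
    (hε₂ : (N.s₂ i).ord (N.S₂.red (algebraMap K F ϖ * u⁻¹)) = ε)
    (hu : NoDivAtNode N i u)
    {π : K} (hπ0 : π ≠ 0) (hπ1 : N.S₁.A.valuation π < 1)
    {e : ℕ} (he : 0 < e) (hϖπ : N.S₁.A.valuation ϖ = N.S₁.A.valuation π ^ e)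
    (p : ℕ) (D : Place K F → ℤ) {g η : F} {m : ℕ}
    (hgD : ∀ P : Place K F, IsNodeOf N P i → P.ord g = p * D P)
    (hηD : ∀ P : Place K F, IsNodeOf N P i → P.ord η = m * D P)
    {cg₁ cg₂ ce₁ ce₂ : K} {ng₁ ng₂ ne₁ ne₂ : ℤ}
    (hcg₁ : N.S₁.red (g / algebraMap K F cg₁) ≠ 0) (hcg₂ : N.S₂.red (g / algebraMap K F cg₂) ≠ 0)
    (hce₁ : N.S₁.red (η / algebraMap K F ce₁) ≠ 0) (hce₂ : N.S₂.red (η / algebraMap K F ce₂) ≠ 0)
    (hng₁ : N.S₁.A.valuation cg₁ = N.S₁.A.valuation π ^ ng₁)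
    (hng₂ : N.S₁.A.valuation cg₂ = N.S₁.A.valuation π ^ ng₂)
    (hne₁ : N.S₁.A.valuation ce₁ = N.S₁.A.valuation π ^ ne₁)
    (hne₂ : N.S₁.A.valuation ce₂ = N.S₁.A.valuation π ^ ne₂) :
    (ε : ℤ) * ((m : ℤ) * (ng₂ - ng₁) - (p : ℤ) * (ne₂ - ne₁)) =
      (e : ℤ) * ((m : ℤ) * (N.s₁ i).ord (N.S₁.red (g / algebraMap K F cg₁)) -
        (p : ℤ) * (N.s₁ i).ord (N.S₁.red (η / algebraMap K F ce₁))) := by
  have hg0 : g ≠ 0 := int_fun_ne N.S₁ hcg₁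
  have hη0 : η ≠ 0 := int_fun_ne N.S₁ hce₁
  have hvπ0 : N.S₁.A.valuation π ≠ 0 := (Valuation.ne_zero_iff _).mpr hπ0
  -- `θ` has neither zero nor pole of type N at the node `i`
  have hθ : NoDivAtNode N i (g ^ m * (η ^ p)⁻¹) := by
    intro P hP
    rw [P.ord_mul (pow_ne_zero _ hg0) (inv_ne_zero (pow_ne_zero _ hη0)), P.ord_inv,
      ordt_ord_pow, ordt_ord_pow, hgD P hP, hηD P hP]
    ring
  have h₁ := int_red_theta N.S₁ hcg₁ hce₁ m p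
  have h₂ := int_red_theta N.S₂ hcg₂ hce₂ m p
  have h₁ne : N.S₁.red (g ^ m * (η ^ p)⁻¹ / algebraMap K F (cg₁ ^ m * (ce₁ ^ p)⁻¹)) ≠ 0 := by
    rw [h₁]
    exact mul_ne_zero (pow_ne_zero _ hcg₁) (inv_ne_zero (pow_ne_zero _ hce₁))
  have h₂ne : N.S₂.red (g ^ m * (η ^ p)⁻¹ / algebraMap K F (cg₂ ^ m * (ce₂ ^ p)⁻¹)) ≠ 0 := by
    rw [h₂]
    exact mul_ne_zero (pow_ne_zero _ hcg₂) (inv_ne_zero (pow_ne_zero _ hce₂))
  -- the valuation of the quotient of the constants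
  have hval : N.S₁.A.valuation ((cg₂ ^ m * (ce₂ ^ p)⁻¹) / (cg₁ ^ m * (ce₁ ^ p)⁻¹)) =
      N.S₁.A.valuation π ^ ((m : ℤ) * (ng₂ - ng₁) - (p : ℤ) * (ne₂ - ne₁)) := by
    rw [map_div₀, map_mul, map_mul, map_inv₀, map_inv₀, map_pow, map_pow, map_pow, map_pow,
      hng₁, hng₂, hne₁, hne₂]
    exact int_val_combo hvπ0 ng₁ ne₁ ng₂ ne₂ m p
  have hϖπ' : N.S₁.A.valuation ϖ = N.S₁.A.valuation π ^ (e : ℤ) := by
    rw [hϖπ, zpow_natCast]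
  -- (R1)
  have hR1 : ∃ (b : ℕ) (a : ℤ), 0 < b ∧
      N.S₁.A.valuation (((cg₂ ^ m * (ce₂ ^ p)⁻¹) / (cg₁ ^ m * (ce₁ ^ p)⁻¹)) ^ b) =
        N.S₁.A.valuation (ϖ ^ a) := by
    refine ⟨e, (m : ℤ) * (ng₂ - ng₁) - (p : ℤ) * (ne₂ - ne₁), he, ?_⟩
    rw [map_pow, map_zpow₀, hval, hϖπ', ← zpow_natCast, ← zpow_mul, ← zpow_mul]
    congr 1
    ring
  obtain ⟨-, hsl⟩ := slope_loc hϖ hu₁ hw₂ hε₁ hε₂ hu hθ h₁ne h₂ne hR1
  have hexp := intCore_exp hvπ0 hπ1 hval hϖπ' hsl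
  rw [hexp, h₁, (N.s₁ i).ord_mul (pow_ne_zero _ hcg₁) (inv_ne_zero (pow_ne_zero _ hce₁)),
    (N.s₁ i).ord_inv, ordt_ord_pow, ordt_ord_pow]
  ring

/-- **(INT-abs), tame case**. -/
theorem int_abs_tame [Infinite k] (N : NodalSeed K F k Fk₁ Fk₂ ι) (p : ℕ) (hp : p.Prime)
    {u : F} {ϖ : K} {ε : ι → ℕ} (hϖ : ϖ ≠ 0)
    (hu₁ : N.S₁.red u ≠ 0) (hw₂ : N.S₂.red (algebraMap K F ϖ * u⁻¹) ≠ 0)
    (hε₁ : ∀ i, (N.s₁ i).ord (N.S₁.red u) = ε i)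
    (hε₂ : ∀ i, (N.s₂ i).ord (N.S₂.red (algebraMap K F ϖ * u⁻¹)) = ε i)
    (hu : ∀ i, NoDivAtNode N i u)
    (H : Set (SemilinearAut K F)) {π : K}
    (hπ0 : π ≠ 0) (hπ1 : N.S₁.A.valuation π < 1)
    (hval : ∀ c : K, c ≠ 0 → (∀ t ∈ H, SemilinearAut.baseAut t c = c) →
      ∃ n : ℤ, N.S₁.A.valuation c = N.S₁.A.valuation π ^ n)
    {E : ℕ} (hE : ¬ (p : ℤ) ∣ (E : ℤ))
    (hϖπ : N.S₁.A.valuation ϖ = N.S₁.A.valuation π ^ E)
    (hG1₁ : ∀ f : F, f ≠ 0 → (∀ t ∈ H, t • f = f) →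
      ∃ c : K, (∀ t ∈ H, SemilinearAut.baseAut t c = c) ∧ N.S₁.red (f / algebraMap K F c) ≠ 0)
    (hG1₂ : ∀ f : F, f ≠ 0 → (∀ t ∈ H, t • f = f) →
      ∃ c : K, (∀ t ∈ H, SemilinearAut.baseAut t c = c) ∧ N.S₂.red (f / algebraMap K F c) ≠ 0)
    (D : Place K F → ℤ) {g : F} (hg0 : g ≠ 0) (hgH : ∀ t ∈ H, t • g = g)
    (hgD : ∀ (P : Place K F) (i : ι), IsNodeOf N P i → P.ord g = p * D P)
    (hη : ∀ i, ∃ (m : ℕ) (η : F), ¬ (p : ℤ) ∣ (m : ℤ) ∧ η ≠ 0 ∧ (∀ t ∈ H, t • η = η) ∧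
      ∀ P : Place K F, IsNodeOf N P i → P.ord η = m * D P)
    {c : K} (hc : N.S₁.red (g / algebraMap K F c) ≠ 0) (i j : ι) :
    (p : ℤ) ∣ (ε j : ℤ) * (N.s₁ i).ord (N.S₁.red (g / algebraMap K F c)) -
      (ε i : ℤ) * (N.s₁ j).ord (N.S₁.red (g / algebraMap K F c)) := by
  classical
  choose m η hm hη0 hηH hηD using hη
  obtain ⟨cg₁, hcg₁H, hcg₁⟩ := hG1₁ g hg0 hgH
  obtain ⟨cg₂, hcg₂H, hcg₂⟩ := hG1₂ g hg0 hgH
  obtain ⟨ng₁, hng₁⟩ := hval cg₁ (int_scale_ne N.S₁ hcg₁) hcg₁H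
  obtain ⟨ng₂, hng₂⟩ := hval cg₂ (int_scale_ne N.S₂ hcg₂) hcg₂H
  choose ce₁ hce₁H hce₁ using fun l => hG1₁ (η l) (hη0 l) (hηH l)
  choose ce₂ hce₂H hce₂ using fun l => hG1₂ (η l) (hη0 l) (hηH l)
  choose ne₁ hne₁ using fun l => hval (ce₁ l) (int_scale_ne N.S₁ (hce₁ l)) (hce₁H l)
  choose ne₂ hne₂ using fun l => hval (ce₂ l) (int_scale_ne N.S₂ (hce₂ l)) (hce₂H l)
  have hE0 : 0 < E := by
    rcases Nat.eq_zero_or_pos E with h | h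
    · exact absurd (by rw [h]; exact dvd_zero _) hE
    · exact h
  have hSL : ∀ l, (ε l : ℤ) * ((m l : ℤ) * (ng₂ - ng₁) - (p : ℤ) * (ne₂ l - ne₁ l)) =
      (E : ℤ) * ((m l : ℤ) * (N.s₁ l).ord (N.S₁.red (g / algebraMap K F cg₁)) -
        (p : ℤ) * (N.s₁ l).ord (N.S₁.red (η l / algebraMap K F (ce₁ l)))) := fun l =>
    int_slope_eq hϖ hu₁ hw₂ (hε₁ l) (hε₂ l) (hu l) hπ0 hπ1 hE0 hϖπ p D
      (fun P hP => hgD P l hP) (hηD l) hcg₁ hcg₂ (hce₁ l) (hce₂ l) hng₁ hng₂ (hne₁ l) (hne₂ l)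
  have hmain := int_core_tame p hp ε m (E : ℤ) (ng₂ - ng₁)
    (fun l => (N.s₁ l).ord (N.S₁.red (g / algebraMap K F cg₁)))
    (fun l => (N.s₁ l).ord (N.S₁.red (η l / algebraMap K F (ce₁ l))))
    (fun l => ne₂ l - ne₁ l) hm hE hSL i j
  rw [int_ord_red_scale N.S₁ (N.s₁ i) hcg₁ hc, int_ord_red_scale N.S₁ (N.s₁ j) hcg₁ hc]
  exact (Int.modEq_iff_dvd.mp hmain.symm)

/-- **(INT-abs), wild case**. -/
theorem int_abs_wild [Infinite k] (N : NodalSeed K F k Fk₁ Fk₂ ι) (p : ℕ) (hp : p.Prime)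
    [CharP k p] {u : F} {ϖ : K} {ε : ι → ℕ} (hϖ : ϖ ≠ 0)
    (hu₁ : N.S₁.red u ≠ 0) (hw₂ : N.S₂.red (algebraMap K F ϖ * u⁻¹) ≠ 0)
    (hε₁ : ∀ i, (N.s₁ i).ord (N.S₁.red u) = ε i)
    (hε₂ : ∀ i, (N.s₂ i).ord (N.S₂.red (algebraMap K F ϖ * u⁻¹)) = ε i)
    (hu : ∀ i, NoDivAtNode N i u)
    (hεp : ∀ i, ¬ (p : ℤ) ∣ (ε i : ℤ))
    (H : Set (SemilinearAut K F)) (s : SemilinearAut K F) {π α₀ : K}
    (hπ0 : π ≠ 0) (hπ1 : N.S₁.A.valuation π < 1)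
    (hπH : ∀ t ∈ H, SemilinearAut.baseAut t π = π) (hα₀ : α₀ ∈ N.S₁.A)
    (hα0 : N.S₁.res ⟨α₀, hα₀⟩ ≠ 0)
    (hsπ : (SemilinearAut.baseAut s π - π * (1 + α₀ * π)) / π ^ 3 ∈ N.S₁.A)
    (hA1 : ∀ c : K, c ∈ N.S₁.A → (∀ t ∈ H, SemilinearAut.baseAut t c = c) →
      (SemilinearAut.baseAut s c - c) / π ^ 2 ∈ N.S₁.A)
    (hval : ∀ c : K, c ≠ 0 → (∀ t ∈ H, SemilinearAut.baseAut t c = c) →
      ∃ n : ℤ, N.S₁.A.valuation c = N.S₁.A.valuation π ^ n)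
    {E' : ℕ} (hE' : ¬ (p : ℤ) ∣ (E' : ℤ))
    (hϖπ : N.S₁.A.valuation ϖ = N.S₁.A.valuation π ^ (p * E'))
    (hG1₁ : ∀ f : F, f ≠ 0 → (∀ t ∈ H, t • f = f) →
      ∃ c : K, (∀ t ∈ H, SemilinearAut.baseAut t c = c) ∧ N.S₁.red (f / algebraMap K F c) ≠ 0)
    (hG1₂ : ∀ f : F, f ≠ 0 → (∀ t ∈ H, t • f = f) →
      ∃ c : K, (∀ t ∈ H, SemilinearAut.baseAut t c = c) ∧ N.S₂.red (f / algebraMap K F c) ≠ 0)
    (hG2₁ : ∀ f : F, f ∈ N.S₁.Ov → (∀ t ∈ H, t • f = f) →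
      (s • f - f) / algebraMap K F (π ^ 2) ∈ N.S₁.Ov)
    (hG2₂ : ∀ f : F, f ∈ N.S₂.Ov → (∀ t ∈ H, t • f = f) →
      (s • f - f) / algebraMap K F (π ^ 2) ∈ N.S₂.Ov)
    (hsN : ∀ (P : Place K F) (i : ι), IsNodeOf N P i → IsNodeOf N (s⁻¹ • P) i)
    (D : Place K F → ℤ) {g kf : F} (hg0 : g ≠ 0) (hgH : ∀ t ∈ H, t • g = g)
    (hgD : ∀ (P : Place K F) (i : ι), IsNodeOf N P i → P.ord g = p * D P)
    (hkD : ∀ (P : Place K F) (i : ι), IsNodeOf N P i → P.ord kf = D (s⁻¹ • P) - D P)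
    {κ₁ κ₂ : K} {B₁ : Fk₁} {B₂ : Fk₂} (hkey : KeyData N π kf κ₁ κ₂ B₁ B₂)
    (hη : ∀ i, ∃ (m : ℕ) (η : F), ¬ (p : ℤ) ∣ (m : ℤ) ∧ η ≠ 0 ∧ (∀ t ∈ H, t • η = η) ∧
      ∀ P : Place K F, IsNodeOf N P i → P.ord η = m * D P)
    {c : K} (hc : N.S₁.red (g / algebraMap K F c) ≠ 0) (i j : ι) :
    (p : ℤ) ∣ (ε j : ℤ) * (N.s₁ i).ord (N.S₁.red (g / algebraMap K F c)) -
      (ε i : ℤ) * (N.s₁ j).ord (N.S₁.red (g / algebraMap K F c)) := by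
  classical
  choose m η hm hη0 hηH hηD using hη
  obtain ⟨cg₁, hcg₁H, hcg₁⟩ := hG1₁ g hg0 hgH
  obtain ⟨cg₂, hcg₂H, hcg₂⟩ := hG1₂ g hg0 hgH
  obtain ⟨ng₁, hng₁⟩ := hval cg₁ (int_scale_ne N.S₁ hcg₁) hcg₁H
  obtain ⟨ng₂, hng₂⟩ := hval cg₂ (int_scale_ne N.S₂ hcg₂) hcg₂H
  choose ce₁ hce₁H hce₁ using fun l => hG1₁ (η l) (hη0 l) (hηH l)
  choose ce₂ hce₂H hce₂ using fun l => hG1₂ (η l) (hη0 l) (hηH l)
  choose ne₁ hne₁ using fun l => hval (ce₁ l) (int_scale_ne N.S₁ (hce₁ l)) (hce₁H l)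
  choose ne₂ hne₂ using fun l => hval (ce₂ l) (int_scale_ne N.S₂ (hce₂ l)) (hce₂H l)
  have hE0 : 0 < p * E' := by
    rcases Nat.eq_zero_or_pos E' with h | h
    · exact absurd (by rw [h]; exact dvd_zero _) hE'
    · exact Nat.mul_pos hp.pos h
  -- (SL)
  have hSL : ∀ l, (ε l : ℤ) * ((m l : ℤ) * (ng₂ - ng₁) - (p : ℤ) * (ne₂ l - ne₁ l)) =
      (p : ℤ) * (E' : ℤ) * ((m l : ℤ) * (N.s₁ l).ord (N.S₁.red (g / algebraMap K F cg₁)) -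
        (p : ℤ) * (N.s₁ l).ord (N.S₁.red (η l / algebraMap K F (ce₁ l)))) := by
    intro l
    have h := int_slope_eq hϖ hu₁ hw₂ (hε₁ l) (hε₂ l) (hu l) hπ0 hπ1 hE0 hϖπ p D
      (fun P hP => hgD P l hP) (hηD l) hcg₁ hcg₂ (hce₁ l) (hce₂ l) hng₁ hng₂ (hne₁ l) (hne₂ l)
    rw [h]
    push_cast
    ring
  -- (KEY)
  have hkf0 : kf ≠ 0 := by
    have h1 := hkey.fo₁.red_eq_one hkey.πA hkey.π0 hkey.πres
    have h2 : N.S₁.red (kf / algebraMap K F κ₁) ≠ 0 := by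
      rw [h1]
      exact one_ne_zero
    exact int_fun_ne N.S₁ h2
  have hA : N.S₁.A = N.S₂.A := N.A_eq
  have hnode : ∀ l, KeyNode N π α₀ kf l (m l) (η l / s • η l) (ne₁ l) (ne₂ l) := by
    intro l
    have hsη0 : s • η l ≠ 0 := by
      rw [SemilinearAut.smul_def]
      exact (map_ne_zero _).mpr (hη0 l)
    refine ⟨?_, ?_, ?_, ?_⟩
    · intro h0
      have h1 : p ∣ m l := (CharP.cast_eq_zero_iff k p (m l)).mp h0
      exact hm l (Int.natCast_dvd_natCast.mpr h1)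
    · exact lemmaA_inv s H hπ0 hπ1 hπH hα₀ hsπ hA1 hG2₁ (hηH l) (hce₁H l) (hce₁ l) (hne₁ l)
    · exact lemmaA_inv (S := N.S₂) s H hπ0 (int_val_lt_transport hA hπ1) hπH (hA ▸ hα₀)
        (hA ▸ hsπ) (fun c hc hcH => hA ▸ hA1 c (hA ▸ hc) hcH) hG2₂ (hηH l) (hce₂H l) (hce₂ l)
        (int_val_transport hA (hne₂ l))
    · intro P hP
      have h1 : P.ord (s • η l) = (s⁻¹ • P).ord (η l) := by
        have := SemilinearAut.ord_smul s (s⁻¹ • P) (η l)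
        rwa [smul_inv_smul] at this
      rw [P.ord_mul (pow_ne_zero _ hkf0) (div_ne_zero (hη0 l) hsη0), ordt_ord_pow,
        div_eq_mul_inv, P.ord_mul (hη0 l) (inv_ne_zero hsη0), P.ord_inv, h1, hkD P l hP,
        hηD l P hP, hηD l _ (hsN P l hP)]
      ring
  have hKEY : ∀ l l', (m l' : ℤ) * (ne₂ l - ne₁ l) ≡ (m l : ℤ) * (ne₂ l' - ne₁ l')
      [ZMOD (p : ℤ)] := fun l l' => key_modEq N p hα₀ hα0 hkey hnode l l'
  have hmain := int_core p hp ε m (E' : ℤ) (ng₂ - ng₁)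
    (fun l => (N.s₁ l).ord (N.S₁.red (g / algebraMap K F cg₁)))
    (fun l => (N.s₁ l).ord (N.S₁.red (η l / algebraMap K F (ce₁ l))))
    (fun l => ne₂ l - ne₁ l) hεp hm hE' hSL hKEY i j
  rw [int_ord_red_scale N.S₁ (N.s₁ i) hcg₁ hc, int_ord_red_scale N.S₁ (N.s₁ j) hcg₁ hc]
  exact (Int.modEq_iff_dvd.mp hmain.symm)

end Main

end Fermat.Agent.PeuD
end
end MergeWrap_Lib_BadRed_PeuD_Int
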