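import Mathlib
import Fermat.Agent.MU.Lib.BadRed.Nodal.ToricKeyDef
import Fermat.Agent.Lib.FF.Value

section MergeWrap_Lib_BadRed_PeuD_Rat -- from Lib/BadRed/PeuD/Rat.lean

set_option autoImplicit false
set_option linter.unusedSectionVars false
set_option linter.unusedVariables false
set_option linter.style.haveILetI false

noncomputable section

open AlgebraicCurve Fermat.Agent.RR Fermat.Agent.Deuring Fermat.Agent.BadRed Fermat.Agent.FF

namespace Fermat.Agent.PeuD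

/-! ### sums over a fibre of the place map -/

section Fibre

variable {α β : Type*}

open Classical in
theorem rat_mapDomain_apply (r : α → β) (D : α →₀ ℤ) (y : β) :
    Finsupp.mapDomain r D y = ∑ P ∈ D.support.filter (fun P => r P = y), D P := by
  rw [Finsupp.mapDomain, Finsupp.sum, Finsupp.finsetSum_apply, Finset.sum_filter]
  refine Finset.sum_congr rfl fun P _ => ?_
  rw [Finsupp.single_apply]

theorem rat_mapDomain_nonneg (r : α → β) (D : α →₀ ℤ) (y : β)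
    (h : ∀ P, r P = y → 0 ≤ D P) : 0 ≤ Finsupp.mapDomain r D y := by
  classical
  rw [rat_mapDomain_apply]
  exact Finset.sum_nonneg fun P hP => h P (Finset.mem_filter.mp hP).2

theorem rat_le_mapDomain (r : α → β) (D : α →₀ ℤ) (y : β)
    (h : ∀ P, r P = y → 0 ≤ D P) {P₀ : α} (hP₀ : r P₀ = y) :
    D P₀ ≤ Finsupp.mapDomain r D y := by
  classical
  by_cases h0 : D P₀ = 0
  · rw [h0]
    exact rat_mapDomain_nonneg r D y h
  rw [rat_mapDomain_apply]
  have hmem : P₀ ∈ D.support.filter (fun P => r P = y) :=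
    Finset.mem_filter.mpr ⟨Finsupp.mem_support_iff.mpr h0, hP₀⟩
  exact Finset.single_le_sum (f := fun P => D P)
    (fun P hP => h P (Finset.mem_filter.mp hP).2) hmem

theorem rat_add_le_mapDomain (r : α → β) (D : α →₀ ℤ) (y : β)
    (h : ∀ P, r P = y → 0 ≤ D P) {P₀ P₁ : α} (hP₀ : r P₀ = y) (hP₁ : r P₁ = y)
    (hne : P₁ ≠ P₀) : D P₀ + D P₁ ≤ Finsupp.mapDomain r D y := by
  classical
  by_cases h0 : D P₀ = 0
  · rw [h0, zero_add]
    exact rat_le_mapDomain r D y h hP₁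
  by_cases h1 : D P₁ = 0
  · rw [h1, add_zero]
    exact rat_le_mapDomain r D y h hP₀
  rw [rat_mapDomain_apply]
  have hm0 : P₀ ∈ D.support.filter (fun P => r P = y) :=
    Finset.mem_filter.mpr ⟨Finsupp.mem_support_iff.mpr h0, hP₀⟩
  have hm1 : P₁ ∈ D.support.filter (fun P => r P = y) :=
    Finset.mem_filter.mpr ⟨Finsupp.mem_support_iff.mpr h1, hP₁⟩
  have hsub : ({P₀, P₁} : Finset α) ⊆ D.support.filter (fun P => r P = y) := by
    intro P hP
    rcases Finset.mem_insert.mp hP with rfl | hP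
    · exact hm0
    · rw [Finset.mem_singleton.mp hP]
      exact hm1
  have := Finset.sum_le_sum_of_subset_of_nonneg (f := fun P => D P) hsub
    (fun P hP _ => h P (Finset.mem_filter.mp hP).2)
  rwa [Finset.sum_pair (Ne.symm hne)] at this

end Fibre

variable {K F k Fk : Type*} [Field K] [Field F] [Algebra K F]
  [Field k] [Field Fk] [Algebra k Fk] {β : Type*}

/-! ### the one-sided PUSH -/

/-- **one-sided PUSH** at the point `Q`, for the fibre `y` of the place map `r`. -/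
def RatPushAt (S : ValSetup K F k Fk) (r : Place K F → β) (y : β) (Q : Place k Fk) : Prop :=
  ∀ f : F, f ∈ S.Ov → f⁻¹ ∈ S.Ov → f ≠ 0 →
    Finsupp.mapDomain r (divOf S.hF f) y = Q.ord (S.red f)

variable {S : ValSetup K F k Fk} {r : Place K F → β} {y : β} {Q : Place k Fk}

theorem rat_ord_sub_const_nonneg (P : Place K F) {f : F} (hf : 0 ≤ P.ord f) (c : K) :
    0 ≤ P.ord (f - algebraMap K F c) :=
  Fermat.Agent.S24Res.ord_nonneg_of_mem P
    (sub_mem (mem_of_ord_nonneg' P hf) (P.algebraMap_mem' c))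

/-- a function of `Ov` without pole above `Q` has a reduction without pole at `Q`. -/
theorem RatPushAt.ord_red_nonneg (hp : RatPushAt S r y Q) {f : F}
    (hreg : ∀ P, r P = y → 0 ≤ P.ord f) : 0 ≤ Q.ord (S.red f) := by
  by_cases h0 : S.red f = 0
  · rw [h0, Place.ord_zero]
  have hf := S.mem_of_red_ne_zero h0
  have hinv := S.inv_mem_of_red_ne_zero h0
  have hf0 := S.ne_zero_of_red_ne_zero h0
  rw [← hp f hf hinv hf0]
  exact rat_mapDomain_nonneg r _ y fun P hP => by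
    rw [divOf_apply]
    exact hreg P hP

/-- for a unit of `Ov` without pole above `Q`: the order at one place above `Q` is at most the
order of the reduction at `Q`. -/
theorem RatPushAt.ord_le (hp : RatPushAt S r y Q) {f : F} (hf : f ∈ S.Ov) (hinv : f⁻¹ ∈ S.Ov)
    (hf0 : f ≠ 0) (hreg : ∀ P, r P = y → 0 ≤ P.ord f) {P : Place K F} (hP : r P = y) :
    P.ord f ≤ Q.ord (S.red f) := by
  rw [← hp f hf hinv hf0, ← divOf_apply S.hF f P]
  exact rat_le_mapDomain r _ y (fun P hP => by rw [divOf_apply]; exact hreg P hP) hP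

theorem RatPushAt.ord_add_le (hp : RatPushAt S r y Q) {f : F} (hf : f ∈ S.Ov) (hinv : f⁻¹ ∈ S.Ov)
    (hf0 : f ≠ 0) (hreg : ∀ P, r P = y → 0 ≤ P.ord f) {P P' : Place K F} (hP : r P = y)
    (hP' : r P' = y) (hne : P' ≠ P) :
    P.ord f + P'.ord f ≤ Q.ord (S.red f) := by
  rw [← hp f hf hinv hf0, ← divOf_apply S.hF f P, ← divOf_apply S.hF f P']
  exact rat_add_le_mapDomain r _ y (fun P hP => by rw [divOf_apply]; exact hreg P hP) hP hP' hne

/-! ### EVAL at a smooth point -/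

theorem rat_const_ne_zero {c : K} (hc : c ≠ 0) : algebraMap K F c ≠ 0 := by
  rw [Ne, map_eq_zero_iff _ (algebraMap K F).injective]
  exact hc

/-- the values of a function `Z ∈ Ov` without pole above `Q`, at the places above `Q`, are
integral. -/
theorem RatPushAt.value_mem (hp : RatPushAt S r y Q) {Z : F} (hZ : Z ∈ S.Ov)
    (hreg : ∀ P, r P = y → 0 ≤ P.ord Z) {P : Place K F} (hP : r P = y) :
    valueAt S.hF P Z ∈ S.A := by
  by_contra hc
  obtain ⟨hinv, hres⟩ := S.res_inv_eq_zero hc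
  set c := valueAt S.hF P Z with hcdef
  have hc0 : c ≠ 0 := by
    intro h0
    apply hc
    rw [h0]
    exact zero_mem _
  have hcF : algebraMap K F c ≠ 0 := rat_const_ne_zero hc0
  have hcinvF : algebraMap K F c⁻¹ ≠ 0 := rat_const_ne_zero (inv_ne_zero hc0)
  set g : F := 1 - c⁻¹ • Z with hg
  have hgmem : g ∈ S.Ov := sub_mem (one_mem _) (S.smul_mem hinv hZ)
  have hgred : S.red g = 1 := by
    rw [hg, S.red_sub (one_mem _) (S.smul_mem hinv hZ), S.red_one, S.red_smul hinv hZ, hres,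
      zero_smul, sub_zero]
  have hgne : S.red g ≠ 0 := by
    rw [hgred]
    exact one_ne_zero
  have hginv := S.inv_mem_of_red_ne_zero hgne
  have hg0 := S.ne_zero_of_red_ne_zero hgne
  have hgeq : g = -(algebraMap K F c⁻¹) * (Z - algebraMap K F c) := by
    rw [hg, Algebra.smul_def, map_inv₀]
    field_simp
    ring
  have hgreg : ∀ P', r P' = y → 0 ≤ P'.ord g := by
    intro P' hP'
    apply Fermat.Agent.S24Res.ord_nonneg_of_mem
    rw [hg, Algebra.smul_def]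
    exact sub_mem (one_mem _)
      (mul_mem (P'.algebraMap_mem' _) (mem_of_ord_nonneg' P' (hreg P' hP')))
  have hle := hp.ord_le hgmem hginv hg0 hgreg hP
  rw [hgred, Place.ord_one] at hle
  have hZc : Z - algebraMap K F c ≠ 0 := by
    intro h0
    rw [hgeq, h0, mul_zero] at hg0
    exact hg0 rfl
  have hpos : 0 < P.ord g := by
    rcases valueAt_spec S.hF P (mem_of_ord_nonneg' P (hreg P hP)) with h1 | h1
    · exact absurd (sub_eq_zero.mpr h1) hZc
    · rw [hgeq, P.ord_mul (neg_ne_zero.mpr hcinvF) hZc]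
      have h2 : P.ord (-(algebraMap K F c⁻¹)) = 0 := by
        rw [← map_neg]
        exact Fermat.Agent.S24Res.ord_algebraMap P _
      rw [h2, zero_add]
      exact h1
  omega

/-- **EVAL** at a smooth point: the reduction of `Z` takes the value `res (Z(P))` at `Q`. -/
theorem RatPushAt.valAt_value (hp : RatPushAt S r y Q) {Z : F} (hZ : Z ∈ S.Ov)
    (hreg : ∀ P, r P = y → 0 ≤ P.ord Z) {P : Place K F} (hP : r P = y) :
    ValAt Q (S.red Z) (S.res ⟨valueAt S.hF P Z, hp.value_mem hZ hreg hP⟩) := by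
  have hcA := hp.value_mem hZ hreg hP
  set c := valueAt S.hF P Z with hcdef
  have hcmem : algebraMap K F c ∈ S.Ov := S.algebraMap_mem hcA
  have hred : S.red (Z - algebraMap K F c) = S.red Z - algebraMap k Fk (S.res ⟨c, hcA⟩) := by
    rw [S.red_sub hZ hcmem, S.red_algebraMap hcA]
  by_cases h0 : S.red (Z - algebraMap K F c) = 0
  · left
    rw [hred, sub_eq_zero] at h0
    exact h0
  right
  have hmem := S.mem_of_red_ne_zero h0
  have hinv := S.inv_mem_of_red_ne_zero h0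
  have hne := S.ne_zero_of_red_ne_zero h0
  have hle := hp.ord_le hmem hinv hne
    (fun P' hP' => rat_ord_sub_const_nonneg P' (hreg P' hP') c) hP
  rw [hred] at hle
  rcases valueAt_spec S.hF P (mem_of_ord_nonneg' P (hreg P hP)) with h1 | h1
  · exact absurd (sub_eq_zero.mpr h1) hne
  · exact lt_of_lt_of_le h1 hle

theorem rat_valAt_unique (hFk : IsRRField k Fk) {Q : Place k Fk} {f : Fk} {c d : k}
    (hc : ValAt Q f c) (hd : ValAt Q f d) : c = d := by
  have hf : f ∈ Q.toValuationSubring := by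
    rcases hc with hc | hc
    · rw [hc]
      exact Q.algebraMap_mem' c
    · have := add_mem (mem_of_ord_nonneg' Q hc.le) (Q.algebraMap_mem' c)
      rwa [sub_add_cancel] at this
  exact ((valueAt_eq_iff hFk Q hf c).mpr hc).symm.trans ((valueAt_eq_iff hFk Q hf d).mpr hd)

/-- **the factors**: if `red Z - c₀` is a uniformiser at `Q` and `Z` has no pole above `Q`,
then for `P ↦ Q` the function `Z - Z(P)` is a unit of `Ov`, its reduction is `red Z - c₀`, and
above `Q` it has exactly one zero, simple, at `P`. -/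
theorem RatPushAt.coord_factor (hp : RatPushAt S r y Q) {Z : F} (hZ : Z ∈ S.Ov)
    (hreg : ∀ P, r P = y → 0 ≤ P.ord Z) {c₀ : k}
    (hZQ : Q.ord (S.red Z - algebraMap k Fk c₀) = 1) {P : Place K F} (hP : r P = y) :
    Z - algebraMap K F (valueAt S.hF P Z) ∈ S.Ov ∧
      (Z - algebraMap K F (valueAt S.hF P Z))⁻¹ ∈ S.Ov ∧
      Z - algebraMap K F (valueAt S.hF P Z) ≠ 0 ∧
      S.red (Z - algebraMap K F (valueAt S.hF P Z)) = S.red Z - algebraMap k Fk c₀ ∧
      P.ord (Z - algebraMap K F (valueAt S.hF P Z)) = 1 ∧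
      ∀ P', r P' = y → P' ≠ P → P'.ord (Z - algebraMap K F (valueAt S.hF P Z)) = 0 := by
  have hcA := hp.value_mem hZ hreg hP
  have hval := hp.valAt_value hZ hreg hP
  set c := valueAt S.hF P Z with hcdef
  have hval₀ : ValAt Q (S.red Z) c₀ := Or.inr (by rw [hZQ]; exact one_pos)
  have hres : S.res ⟨c, hcA⟩ = c₀ := rat_valAt_unique S.hFk hval hval₀
  have hcmem : algebraMap K F c ∈ S.Ov := S.algebraMap_mem hcA
  have hred : S.red (Z - algebraMap K F c) = S.red Z - algebraMap k Fk c₀ := by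
    rw [S.red_sub hZ hcmem, S.red_algebraMap hcA, hres]
  have hne0 : S.red (Z - algebraMap K F c) ≠ 0 := by
    rw [hred]
    intro h0
    rw [h0, Place.ord_zero] at hZQ
    exact zero_ne_one hZQ
  have hmem := S.mem_of_red_ne_zero hne0
  have hinv := S.inv_mem_of_red_ne_zero hne0
  have hne := S.ne_zero_of_red_ne_zero hne0
  have hreg' : ∀ P', r P' = y → 0 ≤ P'.ord (Z - algebraMap K F c) :=
    fun P' hP' => rat_ord_sub_const_nonneg P' (hreg P' hP') c
  have hpos : 0 < P.ord (Z - algebraMap K F c) := by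
    rcases valueAt_spec S.hF P (mem_of_ord_nonneg' P (hreg P hP)) with h1 | h1
    · exact absurd (sub_eq_zero.mpr h1) hne
    · exact h1
  have hle := hp.ord_le hmem hinv hne hreg' hP
  rw [hred, hZQ] at hle
  refine ⟨hmem, hinv, hne, hred, by omega, fun P' hP' hPP' => ?_⟩
  have h2 := hp.ord_add_le hmem hinv hne hreg' hP hP' hPP'
  rw [hred, hZQ] at h2
  have h3 := hreg' P' hP'
  omega

/-! ### units of the valuation ring -/

/-- the units of `Ov`. -/
def RatIsUnit (S : ValSetup K F k Fk) (f : F) : Prop := f ∈ S.Ov ∧ f⁻¹ ∈ S.Ov ∧ f ≠ 0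

theorem ratIsUnit_one : RatIsUnit S (1 : F) :=
  ⟨one_mem _, by rw [inv_one]; exact one_mem _, one_ne_zero⟩

theorem RatIsUnit.mul {f g : F} (hf : RatIsUnit S f) (hg : RatIsUnit S g) : RatIsUnit S (f * g) :=
  ⟨mul_mem hf.1 hg.1, by rw [mul_inv]; exact mul_mem hf.2.1 hg.2.1, mul_ne_zero hf.2.2 hg.2.2⟩

theorem RatIsUnit.inv {f : F} (hf : RatIsUnit S f) : RatIsUnit S f⁻¹ :=
  ⟨hf.2.1, by rw [inv_inv]; exact hf.1, inv_ne_zero hf.2.2⟩

theorem RatIsUnit.pow {f : F} (hf : RatIsUnit S f) (n : ℕ) : RatIsUnit S (f ^ n) :=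
  ⟨pow_mem hf.1 n, by rw [← inv_pow]; exact pow_mem hf.2.1 n, pow_ne_zero n hf.2.2⟩

theorem RatIsUnit.zpow {f : F} (hf : RatIsUnit S f) (n : ℤ) : RatIsUnit S (f ^ n) := by
  cases n with
  | ofNat m =>
    rw [Int.ofNat_eq_natCast, zpow_natCast]
    exact hf.pow m
  | negSucc m =>
    rw [zpow_negSucc]
    exact (hf.pow (m + 1)).inv

theorem RatIsUnit.prod {J : Type*} (T : Finset J) (f : J → F) (hf : ∀ j ∈ T, RatIsUnit S (f j)) :
    RatIsUnit S (∏ j ∈ T, f j) := by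
  classical
  induction T using Finset.induction_on with
  | empty =>
    rw [Finset.prod_empty]
    exact ratIsUnit_one
  | insert a T ha ih =>
    rw [Finset.prod_insert ha]
    exact (hf a (Finset.mem_insert_self a T)).mul
      (ih fun j hj => hf j (Finset.mem_insert_of_mem hj))

theorem RatIsUnit.red_ne_zero {f : F} (hf : RatIsUnit S f) : S.red f ≠ 0 :=
  S.red_ne_zero hf.1 hf.2.1 hf.2.2

theorem ratIsUnit_of_red_ne_zero {f : F} (h : S.red f ≠ 0) : RatIsUnit S f :=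
  ⟨S.mem_of_red_ne_zero h, S.inv_mem_of_red_ne_zero h, S.ne_zero_of_red_ne_zero h⟩

theorem RatIsUnit.red_zpow {f : F} (hf : RatIsUnit S f) (n : ℤ) :
    S.red (f ^ n) = S.red f ^ n := by
  cases n with
  | ofNat m =>
    rw [Int.ofNat_eq_natCast, zpow_natCast, zpow_natCast]
    exact S.red_pow hf.1 m
  | negSucc m =>
    rw [zpow_negSucc, zpow_negSucc]
    have h := hf.pow (m + 1)
    rw [S.red_inv h.1 h.2.1 h.2.2, S.red_pow hf.1]

theorem RatIsUnit.red_prod {J : Type*} (T : Finset J) (f : J → F)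
    (hf : ∀ j ∈ T, RatIsUnit S (f j)) :
    S.red (∏ j ∈ T, f j) = ∏ j ∈ T, S.red (f j) := by
  classical
  induction T using Finset.induction_on with
  | empty =>
    rw [Finset.prod_empty, Finset.prod_empty]
    exact S.red_one
  | insert a T ha ih =>
    rw [Finset.prod_insert ha, Finset.prod_insert ha,
      S.red_mul (hf a (Finset.mem_insert_self a T)).1
        (RatIsUnit.prod T f fun j hj => hf j (Finset.mem_insert_of_mem hj)).1,
      ih fun j hj => hf j (Finset.mem_insert_of_mem hj)]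

theorem rat_ord_prod (P : Place K F) {J : Type*} (T : Finset J) (f : J → F)
    (hf : ∀ j ∈ T, f j ≠ 0) : P.ord (∏ j ∈ T, f j) = ∑ j ∈ T, P.ord (f j) := by
  classical
  induction T using Finset.induction_on with
  | empty => simp
  | insert a T ha ih =>
    have h1 : f a ≠ 0 := hf a (Finset.mem_insert_self a T)
    have h2 : (∏ j ∈ T, f j) ≠ 0 :=
      Finset.prod_ne_zero_iff.mpr fun j hj => hf j (Finset.mem_insert_of_mem hj)
    rw [Finset.prod_insert ha, Finset.sum_insert ha, P.ord_mul h1 h2,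
      ih fun j hj => hf j (Finset.mem_insert_of_mem hj)]

/-! ### the product `η_Q` -/

open Classical in
/-- `η = ∏_{P ↦ y} (Z - Z(P)) ^ D(P)`. -/
def ratProd (S : ValSetup K F k Fk) (r : Place K F → β) (y : β) (Z : F) (D : Divisor K F) : F :=
  ∏ P ∈ D.support.filter (fun P => r P = y), (Z - algebraMap K F (valueAt S.hF P Z)) ^ (D P)

section Prod

variable (hp : RatPushAt S r y Q) {Z : F} (hZ : Z ∈ S.Ov) (hreg : ∀ P, r P = y → 0 ≤ P.ord Z)
  {c₀ : k} (hZQ : Q.ord (S.red Z - algebraMap k Fk c₀) = 1) (D : Divisor K F)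

include hp hZ hreg hZQ

theorem ratProd_isUnitOv : RatIsUnit S (ratProd S r y Z D) := by
  classical
  refine RatIsUnit.prod _ _ fun P hP => RatIsUnit.zpow ?_ _
  obtain ⟨h1, h2, h3, -⟩ := hp.coord_factor hZ hreg hZQ (Finset.mem_filter.mp hP).2
  exact ⟨h1, h2, h3⟩

theorem ratProd_ne_zero : ratProd S r y Z D ≠ 0 := (ratProd_isUnitOv hp hZ hreg hZQ D).2.2

/-- the reduction of `η`: a power of the uniformiser. -/
theorem ratProd_red :
    S.red (ratProd S r y Z D) =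
      (S.red Z - algebraMap k Fk c₀) ^ (Finsupp.mapDomain r D y) := by
  classical
  have hu : ∀ P ∈ D.support.filter (fun P => r P = y),
      RatIsUnit S (Z - algebraMap K F (valueAt S.hF P Z)) := by
    intro P hP
    obtain ⟨h1, h2, h3, -⟩ := hp.coord_factor hZ hreg hZQ (Finset.mem_filter.mp hP).2
    exact ⟨h1, h2, h3⟩
  have hne : S.red Z - algebraMap k Fk c₀ ≠ 0 := by
    intro h0
    rw [h0, Place.ord_zero] at hZQ
    exact zero_ne_one hZQ
  unfold ratProd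
  rw [RatIsUnit.red_prod _ _ fun P hP => (hu P hP).zpow _, rat_mapDomain_apply]
  have h1 : ∀ P ∈ D.support.filter (fun P => r P = y),
      S.red ((Z - algebraMap K F (valueAt S.hF P Z)) ^ (D P)) =
        (S.red Z - algebraMap k Fk c₀) ^ (D P) := by
    intro P hP
    rw [(hu P hP).red_zpow, (hp.coord_factor hZ hreg hZQ (Finset.mem_filter.mp hP).2).2.2.2.1]
  rw [Finset.prod_congr rfl h1]
  generalize D.support.filter (fun P => r P = y) = T
  induction T using Finset.induction_on with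
  | empty => simp
  | insert a T ha ih =>
    rw [Finset.prod_insert ha, Finset.sum_insert ha, ih, zpow_add₀ hne]

/-- **the divisor of `η` above `Q`** is `D`. -/
theorem ratProd_ord {P' : Place K F} (hP' : r P' = y) :
    P'.ord (ratProd S r y Z D) = D P' := by
  classical
  unfold ratProd
  have hne : ∀ P ∈ D.support.filter (fun P => r P = y),
      (Z - algebraMap K F (valueAt S.hF P Z)) ^ (D P) ≠ 0 := by
    intro P hP
    exact zpow_ne_zero _ (hp.coord_factor hZ hreg hZQ (Finset.mem_filter.mp hP).2).2.2.1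
  rw [rat_ord_prod P' _ _ hne]
  have h1 : ∀ P ∈ D.support.filter (fun P => r P = y),
      P'.ord ((Z - algebraMap K F (valueAt S.hF P Z)) ^ (D P)) = if P = P' then D P else 0 := by
    intro P hP
    obtain ⟨-, -, -, -, h5, h6⟩ := hp.coord_factor hZ hreg hZQ (Finset.mem_filter.mp hP).2
    rw [Place.ord_zpow]
    by_cases hPP : P = P'
    · rw [if_pos hPP, ← hPP, h5, mul_one]
    · rw [if_neg hPP, h6 P' hP' (fun h => hPP h.symm), mul_zero]
  rw [Finset.sum_congr rfl h1, Finset.sum_ite_eq' ]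
  split_ifs with hmem
  · rfl
  · by_contra hD
    exact hmem (Finset.mem_filter.mpr ⟨Finsupp.mem_support_iff.mpr (Ne.symm hD), hP'⟩)

end Prod

/-! ### Galois invariance of `η_Q` -/

theorem rat_prod_smul {M : Type*} [CommMonoid M] (t : SemilinearAut K F)
    (T : Finset (Place K F)) (hT : ∀ P ∈ T, t • P ∈ T) (g : Place K F → M) :
    ∏ P ∈ T, g (t • P) = ∏ P ∈ T, g P := by
  classical
  have hinj : Function.Injective fun P : Place K F => t • P := MulAction.injective t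
  have himg : T.image (fun P : Place K F => t • P) = T := by
    apply Finset.eq_of_subset_of_card_le
    · intro Q hQ
      obtain ⟨P, hP, rfl⟩ := Finset.mem_image.mp hQ
      exact hT P hP
    · rw [Finset.card_image_of_injective _ hinj]
  calc ∏ P ∈ T, g (t • P) = ∏ Q ∈ T.image (fun P : Place K F => t • P), g Q := by
        rw [Finset.prod_image fun P _ Q _ h => hinj h]
    _ = ∏ P ∈ T, g P := by rw [himg]

theorem rat_smul_zpow (t : SemilinearAut K F) (x : F) (n : ℤ) : t • x ^ n = (t • x) ^ n :=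
  map_zpow₀ (MulSemiringAction.toRingHom (SemilinearAut K F) F t) x n

theorem rat_smul_inv (t : SemilinearAut K F) (x : F) : t • x⁻¹ = (t • x)⁻¹ :=
  map_inv₀ (MulSemiringAction.toRingHom (SemilinearAut K F) F t) x

/-- `η` is fixed by the automorphisms which fix `Z`, `D` and the fibres of `r`. -/
theorem ratProd_smul (S : ValSetup K F k Fk) (r : Place K F → β) (y : β) {Z : F}
    (D : Divisor K F) {t : SemilinearAut K F} (htZ : t • Z = Z)
    (htD : ∀ P, D (t • P) = D P) (htr : ∀ P, r (t • P) = r P) :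
    t • ratProd S r y Z D = ratProd S r y Z D := by
  classical
  unfold ratProd
  rw [Finset.smul_prod']
  have h1 : ∀ P ∈ D.support.filter (fun P => r P = y),
      t • (Z - algebraMap K F (valueAt S.hF P Z)) ^ (D P) =
        (Z - algebraMap K F (valueAt S.hF (t • P) Z)) ^ (D (t • P)) := by
    intro P _
    have h2 : valueAt S.hF (t • P) Z = SemilinearAut.baseAut t (valueAt S.hF P Z) := by
      have := valueAt_smul S.hF t P Z
      rwa [htZ] at this
    rw [rat_smul_zpow, smul_sub, htZ, SemilinearAut.smul_algebraMap, h2, htD]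
  rw [Finset.prod_congr rfl h1]
  refine rat_prod_smul t _ (fun P hP => ?_)
    (fun P => (Z - algebraMap K F (valueAt S.hF P Z)) ^ (D P))
  obtain ⟨h3, h4⟩ := Finset.mem_filter.mp hP
  refine Finset.mem_filter.mpr ⟨?_, (htr P).trans h4⟩
  rw [Finsupp.mem_support_iff, htD]
  exact Finsupp.mem_support_iff.mp h3

/-! ### congruences `θ ≡ 1 mod ϖ Ov` -/

/-- `θ ≡ 1 mod ϖ Ov`. -/
def RatOneMod (S : ValSetup K F k Fk) (ϖ : K) (θ : F) : Prop :=
  (θ - 1) / algebraMap K F ϖ ∈ S.Ov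

section RatOneMod

variable {ϖ : K} (hϖA : ϖ ∈ S.A) (hϖ0 : ϖ ≠ 0)

theorem ratOneMod_one (S : ValSetup K F k Fk) (ϖ : K) : RatOneMod S ϖ (1 : F) := by
  unfold RatOneMod
  rw [sub_self, zero_div]
  exact zero_mem _

include hϖA hϖ0

theorem RatOneMod.eq {θ : F} (h : RatOneMod S ϖ θ) :
    θ = 1 + algebraMap K F ϖ * ((θ - 1) / algebraMap K F ϖ) := by
  have := rat_const_ne_zero (F := F) hϖ0
  field_simp
  ring

theorem RatOneMod.mem {θ : F} (h : RatOneMod S ϖ θ) : θ ∈ S.Ov := by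
  rw [h.eq hϖA hϖ0]
  exact add_mem (one_mem _) (mul_mem (S.algebraMap_mem hϖA) h)

theorem RatOneMod.mul {θ θ' : F} (h : RatOneMod S ϖ θ) (h' : RatOneMod S ϖ θ') :
    RatOneMod S ϖ (θ * θ') := by
  have e : (θ * θ' - 1) / algebraMap K F ϖ =
      (θ - 1) / algebraMap K F ϖ * θ' + (θ' - 1) / algebraMap K F ϖ := by
    have := rat_const_ne_zero (F := F) hϖ0
    field_simp
    ring
  unfold RatOneMod
  rw [e]
  exact add_mem (mul_mem h (h'.mem hϖA hϖ0)) h'

variable (hϖres : S.res ⟨ϖ, hϖA⟩ = 0)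

include hϖres

theorem RatOneMod.red_eq_one {θ : F} (h : RatOneMod S ϖ θ) : S.red θ = 1 := by
  rw [h.eq hϖA hϖ0, S.red_add (one_mem _) (mul_mem (S.algebraMap_mem hϖA) h), S.red_one,
    S.red_mul (S.algebraMap_mem hϖA) h, S.red_algebraMap hϖA, hϖres, map_zero, zero_mul,
    add_zero]

theorem RatOneMod.isUnit {θ : F} (h : RatOneMod S ϖ θ) : RatIsUnit S θ :=
  ratIsUnit_of_red_ne_zero (by rw [h.red_eq_one hϖA hϖ0 hϖres]; exact one_ne_zero)

theorem RatOneMod.inv {θ : F} (h : RatOneMod S ϖ θ) : RatOneMod S ϖ θ⁻¹ := by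
  have hu := h.isUnit hϖA hϖ0 hϖres
  have e : (θ⁻¹ - 1) / algebraMap K F ϖ = -((θ - 1) / algebraMap K F ϖ) * θ⁻¹ := by
    have := rat_const_ne_zero (F := F) hϖ0
    have := hu.2.2
    field_simp
    ring
  unfold RatOneMod
  rw [e]
  exact mul_mem (neg_mem h) hu.2.1

theorem RatOneMod.pow {θ : F} (h : RatOneMod S ϖ θ) (n : ℕ) : RatOneMod S ϖ (θ ^ n) := by
  induction n with
  | zero =>
    rw [pow_zero]
    exact ratOneMod_one S ϖ
  | succ n ih =>
    rw [pow_succ]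
    exact RatOneMod.mul hϖA hϖ0 ih h

theorem RatOneMod.zpow {θ : F} (h : RatOneMod S ϖ θ) (n : ℤ) : RatOneMod S ϖ (θ ^ n) := by
  cases n with
  | ofNat m =>
    rw [Int.ofNat_eq_natCast, zpow_natCast]
    exact h.pow hϖA hϖ0 hϖres m
  | negSucc m =>
    rw [zpow_negSucc]
    exact (h.pow hϖA hϖ0 hϖres (m + 1)).inv hϖA hϖ0 hϖres

end RatOneMod

/-! ### (RSM): the core -/

theorem rat_res_sq {π : K} (hπA : π ∈ S.A) (hπres : S.res ⟨π, hπA⟩ = 0) :
    S.res ⟨π ^ 2, pow_mem hπA 2⟩ = 0 := by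
  have e : (⟨π ^ 2, pow_mem hπA 2⟩ : S.A) = ⟨π, hπA⟩ ^ 2 := rfl
  rw [e, map_pow, hπres]
  exact zero_pow two_ne_zero

/-- **(RSM), the core**: if `θ ≡ 1 mod π² Ov` and `h / θ` has no pole above `Q`, then
`red ((h / κ - 1) / π)` has no pole at `Q`. -/
theorem RatPushAt.rsm_of_theta (hp : RatPushAt S r y Q) {π : K} (hπA : π ∈ S.A) (hπ0 : π ≠ 0)
    (hπres : S.res ⟨π, hπA⟩ = 0) {h : F} {κ : K} (hκ : κ ≠ 0) {θ : F}
    (hθ : RatOneMod S (π ^ 2) θ) (hreg : ∀ P, r P = y → 0 ≤ P.ord (h / θ)) :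
    0 ≤ Q.ord (S.red ((h / algebraMap K F κ - 1) / algebraMap K F π)) := by
  by_cases hfmem : (h / algebraMap K F κ - 1) / algebraMap K F π ∈ S.Ov
  swap
  · rw [S.red_of_not_mem hfmem, Place.ord_zero]
  have hπ2A : π ^ 2 ∈ S.A := pow_mem hπA 2
  have hπ20 : π ^ 2 ≠ 0 := pow_ne_zero 2 hπ0
  have hθu := hθ.isUnit hπ2A hπ20 (rat_res_sq hπA hπres)
  have hπF : algebraMap K F π ≠ 0 := rat_const_ne_zero hπ0
  have hκF : algebraMap K F κ ≠ 0 := rat_const_ne_zero hκ
  have hθ0 : θ ≠ 0 := hθu.2.2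
  have hπmem : algebraMap K F π ∈ S.Ov := S.algebraMap_mem hπA
  have hhκ : h / algebraMap K F κ =
      1 + algebraMap K F π * ((h / algebraMap K F κ - 1) / algebraMap K F π) := by
    field_simp
    ring
  have hhκmem : h / algebraMap K F κ ∈ S.Ov := by
    rw [hhκ]
    exact add_mem (one_mem _) (mul_mem hπmem hfmem)
  have hdmem : h / algebraMap K F κ * ((θ - 1) / algebraMap K F (π ^ 2)) * θ⁻¹ ∈ S.Ov :=
    mul_mem (mul_mem hhκmem hθ) hθu.2.1
  have hf'eq : (h / θ / algebraMap K F κ - 1) / algebraMap K F π =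
      (h / algebraMap K F κ - 1) / algebraMap K F π -
        algebraMap K F π *
          (h / algebraMap K F κ * ((θ - 1) / algebraMap K F (π ^ 2)) * θ⁻¹) := by
    rw [map_pow]
    field_simp
    ring
  have hred : S.red ((h / θ / algebraMap K F κ - 1) / algebraMap K F π) =
      S.red ((h / algebraMap K F κ - 1) / algebraMap K F π) := by
    rw [hf'eq, S.red_sub hfmem (mul_mem hπmem hdmem), S.red_mul hπmem hdmem,
      S.red_algebraMap hπA, hπres, map_zero, zero_mul, sub_zero]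
  rw [← hred]
  apply hp.ord_red_nonneg
  intro P hP
  apply Fermat.Agent.S24Res.ord_nonneg_of_mem
  have h1 : h / θ ∈ P.toValuationSubring := mem_of_ord_nonneg' P (hreg P hP)
  have e : (h / θ / algebraMap K F κ - 1) / algebraMap K F π =
      (h / θ * algebraMap K F κ⁻¹ - 1) * algebraMap K F π⁻¹ := by
    rw [map_inv₀, map_inv₀, div_eq_mul_inv, div_eq_mul_inv (h / θ)]
  rw [e]
  exact mul_mem (sub_mem (mul_mem h1 (P.algebraMap_mem' _)) (one_mem _)) (P.algebraMap_mem' _)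

/-! ### (RSM): the twist `θ` -/

theorem rat_ord_smul_eq (t : SemilinearAut K F) (P : Place K F) (g : F) :
    P.ord (t • g) = (t⁻¹ • P).ord g := by
  have h := SemilinearAut.ord_smul t (t⁻¹ • P) g
  rwa [smul_inv_smul] at h

theorem rat_r_inv_smul {r : Place K F → β} {t : SemilinearAut K F}
    (ht : ∀ P, r (t • P) = r P) (P : Place K F) : r (t⁻¹ • P) = r P := by
  have h := ht (t⁻¹ • P)
  rw [smul_inv_smul] at h
  exact h.symm

/-- **the twist**: `θ = s(η) / η · ζ ^ (-c)`, `η = ∏_{P ↦ Q} (Z - Z(P)) ^ D(P)`,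
`ζ = ∏_{P ↦ Q} (Z - Z(P)) ^ D_l(P)`, is `≡ 1 mod π² Ov` and has the divisor
`s D - D - c D_l` above `Q`. -/
theorem RatPushAt.exists_theta (hp : RatPushAt S r y Q) (H : Set (SemilinearAut K F))
    (s : SemilinearAut K F) (hHr : ∀ t ∈ H, ∀ P, r (t • P) = r P)
    (hsr : ∀ P, r (s • P) = r P)
    {π : K} (hπA : π ∈ S.A) (hπ0 : π ≠ 0) (hπres : S.res ⟨π, hπA⟩ = 0)
    (hG2 : ∀ f : F, (∀ t ∈ H, t • f = f) → f ∈ S.Ov →
      (s • f - f) / algebraMap K F (π ^ 2) ∈ S.Ov)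
    (hRat : ∀ f : F, (∀ t ∈ H, t • f = f) → s • f = f → f ∈ S.Ov → S.red f = 0 →
      f / algebraMap K F (π ^ 2) ∈ S.Ov)
    (D Dl : Divisor K F) (hD : ∀ t ∈ H, ∀ P, D (t • P) = D P)
    (hDl : ∀ t ∈ H, ∀ P, Dl (t • P) = Dl P) (hDls : ∀ P, Dl (s • P) = Dl P)
    (hDl0 : Finsupp.mapDomain r Dl y = 0) (c : ℤ)
    {Z : F} (hZ : Z ∈ S.Ov) (hZH : ∀ t ∈ H, t • Z = Z) (hZs : s • Z = Z)
    (hZreg : ∀ P, r P = y → 0 ≤ P.ord Z) {c₀ : k}
    (hZQ : Q.ord (S.red Z - algebraMap k Fk c₀) = 1) :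
    ∃ θ : F, θ ≠ 0 ∧ RatOneMod S (π ^ 2) θ ∧
      ∀ P, r P = y → P.ord θ = D (s⁻¹ • P) - D P - c * Dl P := by
  have hπ2A : π ^ 2 ∈ S.A := pow_mem hπA 2
  have hπ20 : π ^ 2 ≠ 0 := pow_ne_zero 2 hπ0
  have hπ2res := rat_res_sq hπA hπres
  have hπ2F : algebraMap K F (π ^ 2) ≠ 0 := rat_const_ne_zero hπ20
  set η := ratProd S r y Z D with hη
  set ζ := ratProd S r y Z Dl with hζ
  have hηu : RatIsUnit S η := ratProd_isUnitOv hp hZ hZreg hZQ D
  have hζu : RatIsUnit S ζ := ratProd_isUnitOv hp hZ hZreg hZQ Dl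
  have hηH : ∀ t ∈ H, t • η = η := fun t ht =>
    ratProd_smul S r y D (hZH t ht) (hD t ht) (hHr t ht)
  have hζH : ∀ t ∈ H, t • ζ = ζ := fun t ht =>
    ratProd_smul S r y Dl (hZH t ht) (hDl t ht) (hHr t ht)
  have hζs : s • ζ = ζ := ratProd_smul S r y Dl hZs hDls hsr
  have hζred : S.red ζ = 1 := by
    rw [hζ, ratProd_red hp hZ hZreg hZQ Dl, hDl0, zpow_zero]
  -- `s η / η ≡ 1`
  have h1 : RatOneMod S (π ^ 2) (s • η * η⁻¹) := by
    have e : (s • η * η⁻¹ - 1) / algebraMap K F (π ^ 2) =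
        (s • η - η) / algebraMap K F (π ^ 2) * η⁻¹ := by
      have := hηu.2.2
      field_simp
    unfold RatOneMod
    rw [e]
    exact mul_mem (hG2 η hηH hηu.1) hηu.2.1
  -- `ζ ≡ 1`
  have h2 : RatOneMod S (π ^ 2) ζ := by
    refine hRat (ζ - 1) (fun t ht => ?_) ?_ (sub_mem hζu.1 (one_mem _)) ?_
    · rw [smul_sub, hζH t ht, smul_one]
    · rw [smul_sub, hζs, smul_one]
    · rw [S.red_sub hζu.1 (one_mem _), hζred, S.red_one, sub_self]
  have h3 : RatOneMod S (π ^ 2) (ζ ^ (-c)) := h2.zpow hπ2A hπ20 hπ2res (-c)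
  have hsη0 : s • η ≠ 0 := by
    intro h0
    apply hηu.2.2
    have := congrArg (fun x => s⁻¹ • x) h0
    simpa using this
  refine ⟨s • η * η⁻¹ * ζ ^ (-c),
    mul_ne_zero (mul_ne_zero hsη0 (inv_ne_zero hηu.2.2)) (zpow_ne_zero _ hζu.2.2),
    RatOneMod.mul hπ2A hπ20 h1 h3, fun P hP => ?_⟩
  rw [P.ord_mul (mul_ne_zero hsη0 (inv_ne_zero hηu.2.2)) (zpow_ne_zero _ hζu.2.2),
    P.ord_mul hsη0 (inv_ne_zero hηu.2.2), P.ord_inv, Place.ord_zpow, rat_ord_smul_eq,
    hη, hζ, ratProd_ord hp hZ hZreg hZQ D ((rat_r_inv_smul hsr P).trans hP),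
    ratProd_ord hp hZ hZreg hZQ D hP, ratProd_ord hp hZ hZreg hZQ Dl hP]
  ring

/-- **(RSM)** at the point `Q`. -/
theorem RatPushAt.rsm (hp : RatPushAt S r y Q) (H : Set (SemilinearAut K F))
    (s : SemilinearAut K F) (hHr : ∀ t ∈ H, ∀ P, r (t • P) = r P)
    (hsr : ∀ P, r (s • P) = r P)
    {π : K} (hπA : π ∈ S.A) (hπ0 : π ≠ 0) (hπres : S.res ⟨π, hπA⟩ = 0)
    (hG2 : ∀ f : F, (∀ t ∈ H, t • f = f) → f ∈ S.Ov →
      (s • f - f) / algebraMap K F (π ^ 2) ∈ S.Ov)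
    (hRat : ∀ f : F, (∀ t ∈ H, t • f = f) → s • f = f → f ∈ S.Ov → S.red f = 0 →
      f / algebraMap K F (π ^ 2) ∈ S.Ov)
    (D Dl : Divisor K F) (hD : ∀ t ∈ H, ∀ P, D (t • P) = D P)
    (hDl : ∀ t ∈ H, ∀ P, Dl (t • P) = Dl P) (hDls : ∀ P, Dl (s • P) = Dl P)
    (hDl0 : Finsupp.mapDomain r Dl y = 0) (c : ℤ)
    {h : F} (hh0 : h ≠ 0) {κ : K} (hκ : κ ≠ 0)
    (hh : ∀ P, r P = y → P.ord h = D (s⁻¹ • P) - D P - c * Dl P)
    {Z : F} (hZ : Z ∈ S.Ov) (hZH : ∀ t ∈ H, t • Z = Z) (hZs : s • Z = Z)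
    (hZreg : ∀ P, r P = y → 0 ≤ P.ord Z) {c₀ : k}
    (hZQ : Q.ord (S.red Z - algebraMap k Fk c₀) = 1) :
    0 ≤ Q.ord (S.red ((h / algebraMap K F κ - 1) / algebraMap K F π)) := by
  obtain ⟨θ, hθ0, hθ, hθord⟩ := hp.exists_theta H s hHr hsr hπA hπ0 hπres hG2 hRat D Dl hD hDl
    hDls hDl0 c hZ hZH hZs hZreg hZQ
  refine hp.rsm_of_theta hπA hπ0 hπres hκ hθ fun P hP => ?_
  rw [div_eq_mul_inv, P.ord_mul hh0 (inv_ne_zero hθ0), P.ord_inv, hh P hP, hθord P hP]
  omega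

/-! ### (RSM) for a nodal package -/

section Nodal

variable {Fk₁ Fk₂ : Type*} [Field Fk₁] [Algebra k Fk₁] [Field Fk₂] [Algebra k Fk₂] {ι : Type*}
  (N : NodalSetup K F k Fk₁ Fk₂ ι)

theorem ratPushAt₁ {Q : Place k Fk₁} (hQ : ∀ i, Q ≠ N.s₁ i) :
    RatPushAt N.S₁ N.r (some (Sum.inl Q)) Q :=
  fun f h1 h2 h3 => N.push₁ f h1 h2 h3 Q hQ

theorem ratPushAt₂ {Q : Place k Fk₂} (hQ : ∀ i, Q ≠ N.s₂ i) :
    RatPushAt N.S₂ N.r (some (Sum.inr Q)) Q :=
  fun f h1 h2 h3 => N.push₂ f h1 h2 h3 Q hQ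

/-- **(COORD₁)**: at every smooth point `Q` of the first component there is a function `Z` of
the first valuation ring, fixed by `H` and by `s`, without pole above `Q`, whose reduction is,
up to a constant, a uniformiser at `Q`. -/
def RatCoord₁ (H : Set (SemilinearAut K F)) (s : SemilinearAut K F) : Prop :=
  ∀ Q : Place k Fk₁, (∀ i, Q ≠ N.s₁ i) → ∃ Z : F, Z ∈ N.S₁.Ov ∧ (∀ t ∈ H, t • Z = Z) ∧
    s • Z = Z ∧ (∀ P, N.r P = some (Sum.inl Q) → 0 ≤ P.ord Z) ∧
    ∃ c₀ : k, Q.ord (N.S₁.red Z - algebraMap k Fk₁ c₀) = 1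

/-- **(COORD₂)**: the same on the second component. -/
def RatCoord₂ (H : Set (SemilinearAut K F)) (s : SemilinearAut K F) : Prop :=
  ∀ Q : Place k Fk₂, (∀ i, Q ≠ N.s₂ i) → ∃ Z : F, Z ∈ N.S₂.Ov ∧ (∀ t ∈ H, t • Z = Z) ∧
    s • Z = Z ∧ (∀ P, N.r P = some (Sum.inr Q) → 0 ≤ P.ord Z) ∧
    ∃ c₀ : k, Q.ord (N.S₂.red Z - algebraMap k Fk₂ c₀) = 1

/-- the hypothesis **(G2)** for one valuation: `f ∈ F_M ∩ Ov ⇒ (s f - f) / π² ∈ Ov`. -/
def RatG2Statement (S : ValSetup K F k Fk) (H : Set (SemilinearAut K F)) (s : SemilinearAut K F)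
    (π : K) : Prop :=
  ∀ f : F, (∀ t ∈ H, t • f = f) → f ∈ S.Ov → (s • f - f) / algebraMap K F (π ^ 2) ∈ S.Ov

/-- the hypothesis **(RAT)** for one valuation: a function of the maximal ideal of `Ov` which is
fixed by `H` and by `s` is divisible by `π²`  (`π^p` is a uniformiser of the field fixed by
`H` and `s`). -/
def RatStatement (S : ValSetup K F k Fk) (H : Set (SemilinearAut K F)) (s : SemilinearAut K F)
    (π : K) : Prop :=
  ∀ f : F, (∀ t ∈ H, t • f = f) → s • f = f → f ∈ S.Ov → S.red f = 0 →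
    f / algebraMap K F (π ^ 2) ∈ S.Ov

/-- the divisor data of **(DAT)** used by (RSM): `div h = s D - D - c D_l` on the ordinary
places, `D` is `H`-stable, `D_l` is `H`- and `s`-stable, ordinary with trivial reduction. -/
structure RatData (H : Set (SemilinearAut K F)) (s : SemilinearAut K F) (h : F) : Prop where
  h0 : h ≠ 0
  ex : ∃ (D Dl : Divisor K F) (c : ℤ), (∀ t ∈ H, ∀ P, D (t • P) = D P) ∧
    (∀ t ∈ H, ∀ P, Dl (t • P) = Dl P) ∧ (∀ P, Dl (s • P) = Dl P) ∧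
    (∀ Q, Finsupp.mapDomain N.r Dl (some Q) = 0) ∧
    ∀ P, N.IsOrd P → P.ord h = D (s⁻¹ • P) - D P - c * Dl P

variable {N}

/-- **(RSM₁)**: `B₁ = red₁ ((h / κ₁ - 1) / π)` has no pole at the smooth points of the first
component. -/
theorem rat_rsm₁ {H : Set (SemilinearAut K F)} {s : SemilinearAut K F}
    (hH : ∀ t ∈ H, N.IsInertial t) (hs : N.IsInertial s)
    {π : K} (hπA : π ∈ N.S₁.A) (hπ0 : π ≠ 0) (hπres : N.S₁.res ⟨π, hπA⟩ = 0)
    (hG2 : RatG2Statement N.S₁ H s π) (hRat : RatStatement N.S₁ H s π)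
    {h : F} (hdat : RatData N H s h) (hcoord : RatCoord₁ N H s) {κ : K} (hκ : κ ≠ 0)
    (Q : Place k Fk₁) (hQ : ∀ i, Q ≠ N.s₁ i) :
    0 ≤ Q.ord (N.S₁.red ((h / algebraMap K F κ - 1) / algebraMap K F π)) := by
  obtain ⟨D, Dl, c, hD, hDl, hDls, hDl0, hh⟩ := hdat.ex
  obtain ⟨Z, hZ, hZH, hZs, hZreg, c₀, hZQ⟩ := hcoord Q hQ
  exact (ratPushAt₁ N hQ).rsm H s (fun t ht => (hH t ht).r_smul) hs.r_smul hπA hπ0 hπres hG2 hRat
    D Dl hD hDl hDls (hDl0 _) c hdat.h0 hκ (fun P hP => hh P ⟨_, hP⟩) hZ hZH hZs hZreg hZQ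

/-- **(RSM₂)**: `B₂ = red₂ ((h / κ₂ - 1) / π)` has no pole at the smooth points of the second
component. -/
theorem rat_rsm₂ {H : Set (SemilinearAut K F)} {s : SemilinearAut K F}
    (hH : ∀ t ∈ H, N.IsInertial t) (hs : N.IsInertial s)
    {π : K} (hπA : π ∈ N.S₁.A) (hπ0 : π ≠ 0) (hπres : N.S₁.res ⟨π, hπA⟩ = 0)
    (hG2 : RatG2Statement N.S₂ H s π) (hRat : RatStatement N.S₂ H s π)
    {h : F} (hdat : RatData N H s h) (hcoord : RatCoord₂ N H s) {κ : K} (hκ : κ ≠ 0)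
    (Q : Place k Fk₂) (hQ : ∀ i, Q ≠ N.s₂ i) :
    0 ≤ Q.ord (N.S₂.red ((h / algebraMap K F κ - 1) / algebraMap K F π)) := by
  obtain ⟨D, Dl, c, hD, hDl, hDls, hDl0, hh⟩ := hdat.ex
  obtain ⟨Z, hZ, hZH, hZs, hZreg, c₀, hZQ⟩ := hcoord Q hQ
  have hπA₂ : π ∈ N.S₂.A := N.A_eq ▸ hπA
  have hπres₂ : N.S₂.res ⟨π, hπA₂⟩ = 0 := by
    rw [← N.res_eq π hπA hπA₂]
    exact hπres
  exact (ratPushAt₂ N hQ).rsm H s (fun t ht => (hH t ht).r_smul) hs.r_smul hπA₂ hπ0 hπres₂ hG2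
    hRat D Dl hD hDl hDls (hDl0 _) c hdat.h0 hκ (fun P hP => hh P ⟨_, hP⟩) hZ hZH hZs hZreg hZQ

end Nodal

end Fermat.Agent.PeuD
end
end MergeWrap_Lib_BadRed_PeuD_Rat
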