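import Mathlib
import Fermat.Agent.MU.Lib.BadRed.PeuD.Rat
import Fermat.Agent.MU.Lib.BadRed.Nodal.Deuring2.Main

section MergeWrap_Lib_BadRed_PeuD_RatCoord -- from Lib/BadRed/PeuD/RatCoord.lean

set_option autoImplicit false
set_option linter.unusedSectionVars false
set_option linter.unusedVariables false
set_option linter.style.haveILetI false

noncomputable section

open AlgebraicCurve Fermat.Agent.RR Fermat.Agent.Deuring Fermat.Agent.BadRed Fermat.Agent.FF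

namespace Fermat.Agent.PeuD

variable {K F k Fk₁ Fk₂ : Type*} [Field K] [Field F] [Algebra K F]
  [Field k] [Field Fk₁] [Algebra k Fk₁] [Field Fk₂] [Algebra k Fk₂] {ι : Type*} [Fintype ι]

/-- **(LIFT₁)**: for arbitrarily large `m`, every function of `L(m R₁)` vanishing at the nodes
is the first reduction of a `Γ`-fixed function of `L(m D₀) ∩ O₁`. -/
def RatLift₁ (N : NodalSeed K F k Fk₁ Fk₂ ι) (Γ : Set (SemilinearAut K F)) : Prop :=
  ∀ m₀ : ℕ, ∃ m : ℕ, m₀ ≤ m ∧ ∀ a : Fk₁, a ∈ riemannRochSpace (m • N.R₁) →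
    (∀ i, ValAt (N.s₁ i) a 0) →
    ∃ f : F, f ∈ riemannRochSpace (m • N.D₀) ∧ f ∈ N.S₁.Ov ∧ (∀ t ∈ Γ, t • f = f) ∧
      N.S₁.red f = a

/-- **(LIFT₂)**: the same on the second component. -/
def RatLift₂ (N : NodalSeed K F k Fk₁ Fk₂ ι) (Γ : Set (SemilinearAut K F)) : Prop :=
  ∀ m₀ : ℕ, ∃ m : ℕ, m₀ ≤ m ∧ ∀ b : Fk₂, b ∈ riemannRochSpace (m • N.R₂) →
    (∀ i, ValAt (N.s₂ i) b 0) →
    ∃ f : F, f ∈ riemannRochSpace (m • N.D₀) ∧ f ∈ N.S₂.Ov ∧ (∀ t ∈ Γ, t • f = f) ∧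
      N.S₂.red f = b

/-- the one-sided core of (COORD): `u` a unit of `Ov` in `L(m D₀)` whose reduction has a pole
of exact order `m ρ` at `Q`, where `ρ = (r_* D₀)(y)`; `u'` in `L(m D₀) ∩ Ov` whose reduction has
order `1 - m ρ` at `Q`.  Then `Z = u' / u` has no pole above `Q` and its reduction is a
uniformiser at `Q`. -/
theorem RatPushAt.coord_of_pair {Fk : Type*} [Field Fk] [Algebra k Fk] {β : Type*}
    {S : ValSetup K F k Fk} {r : Place K F → β} {y : β} {Q : Place k Fk}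
    (hp : RatPushAt S r y Q) {D₀ : Divisor K F} {ρ : ℤ} (hρ : Finsupp.mapDomain r D₀ y = ρ)
    {m : ℕ} {u u' : F} (hu : u ∈ riemannRochSpace (m • D₀)) (huO : u ∈ S.Ov)
    (hured : Q.ord (S.red u) = -(m * ρ)) (hured0 : S.red u ≠ 0)
    (hu' : u' ∈ riemannRochSpace (m • D₀)) (hu'O : u' ∈ S.Ov)
    (hu'red : Q.ord (S.red u') = 1 - m * ρ) (hu'red0 : S.red u' ≠ 0) :
    u' * u⁻¹ ∈ S.Ov ∧ (∀ P, r P = y → 0 ≤ P.ord (u' * u⁻¹)) ∧
      Q.ord (S.red (u' * u⁻¹) - algebraMap k Fk 0) = 1 := by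
  have huinv := S.inv_mem_of_red_ne_zero hured0
  have hu0 := S.ne_zero_of_red_ne_zero hured0
  have hu'0 := S.ne_zero_of_red_ne_zero hu'red0
  have hred : S.red (u' * u⁻¹) = S.red u' * (S.red u)⁻¹ := by
    rw [S.red_mul hu'O huinv, S.red_inv huO huinv hu0]
  refine ⟨mul_mem hu'O huinv, fun P hP => ?_, ?_⟩
  · have hDnn : ∀ P, r P = y → 0 ≤ (divOf S.hF u + m • D₀) P := by
      intro P _
      rw [Finsupp.add_apply, divOf_apply]
      have := ((mem_riemannRochSpace_iff.mp hu) P).resolve_left hu0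
      omega
    have hsum : Finsupp.mapDomain r (divOf S.hF u + m • D₀) y = 0 := by
      rw [Finsupp.mapDomain_add, Finsupp.add_apply, hp u huO huinv hu0, hured,
        Finsupp.mapDomain_smul, Finsupp.smul_apply, hρ, nsmul_eq_mul]
      ring
    have h1 := rat_le_mapDomain r _ y hDnn hP
    rw [hsum, Finsupp.add_apply, divOf_apply] at h1
    have h2 := hDnn P hP
    rw [Finsupp.add_apply, divOf_apply] at h2
    have h3 := ((mem_riemannRochSpace_iff.mp hu') P).resolve_left hu'0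
    rw [P.ord_mul hu'0 (inv_ne_zero hu0), P.ord_inv]
    omega
  · rw [map_zero, sub_zero, hred, Q.ord_mul hu'red0 (inv_ne_zero hured0), Q.ord_inv, hu'red,
      hured]
    ring

variable [Infinite k]

theorem rat_degree_sub_single (N : NodalSeed K F k Fk₁ Fk₂ ι) {m : ℕ} (hm : N.m₁ + 1 ≤ m)
    (Q : Place k Fk₁) :
    2 * (genusFF k Fk₁ : ℤ) - 2 <
      Divisor.degree (m • N.R₁ - Finsupp.single Q 1) - Fintype.card ι - 1 := by
  have h1 := N.hdeg₁ (le_refl N.m₁)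
  rw [N.degree_smul_R₁] at h1
  rw [map_sub, N.degree_smul_R₁, degree_single_one N.S₁.hFk]
  have h2 := N.R₁_pos
  have h3 : ((N.m₁ : ℤ) + 1) * Divisor.degree N.R₁ ≤ (m : ℤ) * Divisor.degree N.R₁ := by
    apply mul_le_mul_of_nonneg_right _ h2.le
    exact_mod_cast hm
  nlinarith

theorem rat_degree_sub_single₂ (N : NodalSeed K F k Fk₁ Fk₂ ι) {m : ℕ} (hm : N.m₁ + 1 ≤ m)
    (Q : Place k Fk₂) :
    2 * (genusFF k Fk₂ : ℤ) - 2 <
      Divisor.degree (m • N.R₂ - Finsupp.single Q 1) - Fintype.card ι - 1 := by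
  have h1 := N.hdeg₂ (le_refl N.m₁)
  rw [N.degree_smul_R₂] at h1
  rw [map_sub, N.degree_smul_R₂, degree_single_one N.S₂.hFk]
  have h2 := N.R₂_pos
  have h3 : ((N.m₁ : ℤ) + 1) * Divisor.degree N.R₂ ≤ (m : ℤ) * Divisor.degree N.R₂ := by
    apply mul_le_mul_of_nonneg_right _ h2.le
    exact_mod_cast hm
  nlinarith

/-- **(COORD₁)** from the equivariant lifting. -/
theorem ratCoord₁_of_lift (N : NodalSeed K F k Fk₁ Fk₂ ι) {H : Set (SemilinearAut K F)}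
    {s : SemilinearAut K F} (hlift : RatLift₁ N (insert s H)) :
    RatCoord₁ N.nodalSetup H s := by
  classical
  intro Q hQ₀
  have hQ : ∀ i, Q ≠ N.s₁ i := hQ₀
  obtain ⟨m, hm, hl⟩ := hlift (N.m₁ + 1)
  have hm₁ : N.m₁ ≤ m := by omega
  have hT : ∀ Q' ∈ ({Q} : Finset (Place k Fk₁)), ∀ i, Q' ≠ N.s₁ i := by
    intro Q' hQ' i
    rw [Finset.mem_singleton.mp hQ']
    exact hQ i
  obtain ⟨a, ha, ha0, hac, haQ⟩ := exists_interpolation_exact N.S₁.hFk N.s₁ N.s₁_inj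
    (m • N.R₁) (N.smul_R₁_node m) {Q} hT (N.hdeg₁ hm₁) (fun _ => 0)
  have hnode' : ∀ i, (m • N.R₁ - Finsupp.single Q 1 : Divisor k Fk₁) (N.s₁ i) = 0 := by
    intro i
    rw [Finsupp.sub_apply, N.smul_R₁_node, Finsupp.single_apply, if_neg (hQ i), sub_zero]
  obtain ⟨a', ha', ha'0, ha'c, ha'Q⟩ := exists_interpolation_exact N.S₁.hFk N.s₁ N.s₁_inj
    (m • N.R₁ - Finsupp.single Q 1) hnode' {Q} hT (rat_degree_sub_single N hm Q) (fun _ => 0)
  have hle : m • N.R₁ - Finsupp.single Q 1 ≤ m • N.R₁ := by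
    rw [Finsupp.le_def]
    intro v
    rw [Finsupp.sub_apply, Finsupp.single_apply]
    split_ifs <;> omega
  have ha'm : a' ∈ riemannRochSpace (m • N.R₁) := riemannRochSpace_mono hle ha'
  obtain ⟨u, hu, huO, huΓ, hua⟩ := hl a ha hac
  obtain ⟨u', hu', hu'O, hu'Γ, hu'a⟩ := hl a' ha'm ha'c
  have hp := ratPushAt₁ N.nodalSetup (Q := Q) hQ₀
  have hρ : Finsupp.mapDomain N.nodalSetup.r N.D₀ (some (Sum.inl Q)) = N.R₁ Q :=
    N.nodalType.mapDomain_D₀₁ Q hQ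
  have h1 : Q.ord (N.nodalSetup.S₁.red u) = -(m * N.R₁ Q) := by
    show Q.ord (N.S₁.red u) = _
    rw [hua, haQ Q (Finset.mem_singleton_self Q), N.po_smul_apply₁]
  have h2 : Q.ord (N.nodalSetup.S₁.red u') = 1 - m * N.R₁ Q := by
    show Q.ord (N.S₁.red u') = _
    rw [hu'a, ha'Q Q (Finset.mem_singleton_self Q), Finsupp.sub_apply, N.po_smul_apply₁,
      Finsupp.single_apply, if_pos rfl]
    ring
  have h0 : N.nodalSetup.S₁.red u ≠ 0 := by
    show N.S₁.red u ≠ 0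
    rw [hua]
    exact ha0
  have h0' : N.nodalSetup.S₁.red u' ≠ 0 := by
    show N.S₁.red u' ≠ 0
    rw [hu'a]
    exact ha'0
  obtain ⟨hZ, hreg, hord⟩ := hp.coord_of_pair hρ hu huO h1 h0 hu' hu'O h2 h0'
  have hfix : ∀ t ∈ insert s H, t • (u' * u⁻¹) = u' * u⁻¹ := by
    intro t ht
    rw [smul_mul', rat_smul_inv, huΓ t ht, hu'Γ t ht]
  exact ⟨u' * u⁻¹, hZ, fun t ht => hfix t (Set.mem_insert_of_mem s ht),
    hfix s (Set.mem_insert s H), hreg, 0, hord⟩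

/-- **(COORD₂)** from the equivariant lifting. -/
theorem ratCoord₂_of_lift (N : NodalSeed K F k Fk₁ Fk₂ ι) {H : Set (SemilinearAut K F)}
    {s : SemilinearAut K F} (hlift : RatLift₂ N (insert s H)) :
    RatCoord₂ N.nodalSetup H s := by
  classical
  intro Q hQ₀
  have hQ : ∀ i, Q ≠ N.s₂ i := hQ₀
  obtain ⟨m, hm, hl⟩ := hlift (N.m₁ + 1)
  have hm₁ : N.m₁ ≤ m := by omega
  have hT : ∀ Q' ∈ ({Q} : Finset (Place k Fk₂)), ∀ i, Q' ≠ N.s₂ i := by
    intro Q' hQ' i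
    rw [Finset.mem_singleton.mp hQ']
    exact hQ i
  obtain ⟨a, ha, ha0, hac, haQ⟩ := exists_interpolation_exact N.S₂.hFk N.s₂ N.s₂_inj
    (m • N.R₂) (N.smul_R₂_node m) {Q} hT (N.hdeg₂ hm₁) (fun _ => 0)
  have hnode' : ∀ i, (m • N.R₂ - Finsupp.single Q 1 : Divisor k Fk₂) (N.s₂ i) = 0 := by
    intro i
    rw [Finsupp.sub_apply, N.smul_R₂_node, Finsupp.single_apply, if_neg (hQ i), sub_zero]
  obtain ⟨a', ha', ha'0, ha'c, ha'Q⟩ := exists_interpolation_exact N.S₂.hFk N.s₂ N.s₂_inj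
    (m • N.R₂ - Finsupp.single Q 1) hnode' {Q} hT (rat_degree_sub_single₂ N hm Q) (fun _ => 0)
  have hle : m • N.R₂ - Finsupp.single Q 1 ≤ m • N.R₂ := by
    rw [Finsupp.le_def]
    intro v
    rw [Finsupp.sub_apply, Finsupp.single_apply]
    split_ifs <;> omega
  have ha'm : a' ∈ riemannRochSpace (m • N.R₂) := riemannRochSpace_mono hle ha'
  obtain ⟨u, hu, huO, huΓ, hua⟩ := hl a ha hac
  obtain ⟨u', hu', hu'O, hu'Γ, hu'a⟩ := hl a' ha'm ha'c
  have hp := ratPushAt₂ N.nodalSetup (Q := Q) hQ₀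
  have hρ : Finsupp.mapDomain N.nodalSetup.r N.D₀ (some (Sum.inr Q)) = N.R₂ Q :=
    N.nodalType.mapDomain_D₀₂ Q hQ
  have h1 : Q.ord (N.nodalSetup.S₂.red u) = -(m * N.R₂ Q) := by
    show Q.ord (N.S₂.red u) = _
    rw [hua, haQ Q (Finset.mem_singleton_self Q), N.po_smul_apply₂]
  have h2 : Q.ord (N.nodalSetup.S₂.red u') = 1 - m * N.R₂ Q := by
    show Q.ord (N.S₂.red u') = _
    rw [hu'a, ha'Q Q (Finset.mem_singleton_self Q), Finsupp.sub_apply, N.po_smul_apply₂,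
      Finsupp.single_apply, if_pos rfl]
    ring
  have h0 : N.nodalSetup.S₂.red u ≠ 0 := by
    show N.S₂.red u ≠ 0
    rw [hua]
    exact ha0
  have h0' : N.nodalSetup.S₂.red u' ≠ 0 := by
    show N.S₂.red u' ≠ 0
    rw [hu'a]
    exact ha'0
  obtain ⟨hZ, hreg, hord⟩ := hp.coord_of_pair hρ hu huO h1 h0 hu' hu'O h2 h0'
  have hfix : ∀ t ∈ insert s H, t • (u' * u⁻¹) = u' * u⁻¹ := by
    intro t ht
    rw [smul_mul', rat_smul_inv, huΓ t ht, hu'Γ t ht]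
  exact ⟨u' * u⁻¹, hZ, fun t ht => hfix t (Set.mem_insert_of_mem s ht),
    hfix s (Set.mem_insert s H), hreg, 0, hord⟩

end Fermat.Agent.PeuD
end
end MergeWrap_Lib_BadRed_PeuD_RatCoord
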