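import Mathlib
import Fermat.Agent.E.Desc.Kp.Rep
import Fermat.Agent.MU.Lib.BadRed.Nodal.ToricKeyDef

section MergeWrap_Lib_BadRed_PeuD_RepM -- from Lib/BadRed/PeuD/RepM.lean

set_option autoImplicit false
set_option linter.unusedSectionVars false
set_option linter.style.haveILetI false

noncomputable section

open AlgebraicCurve Fermat.Agent.RR Fermat.Agent.Deuring Fermat.Agent.BadRed

namespace Fermat.Agent.PeuD

variable {K F k Fk Fk₁ Fk₂ : Type*} [Field K] [Field F] [Algebra K F]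
  [Field k] [Field Fk] [Algebra k Fk] [Field Fk₁] [Algebra k Fk₁] [Field Fk₂] [Algebra k Fk₂]
  {ι : Type*}

/-! ### elementary lemmas -/

/-- `v.ord (t • f) = (t⁻¹ • v).ord f`. -/
theorem repM_ord_smul (t : SemilinearAut K F) (v : Place K F) (f : F) :
    v.ord (t • f) = (t⁻¹ • v).ord f := by
  have h := SemilinearAut.ord_smul t (t⁻¹ • v) f
  rw [smul_inv_smul] at h
  exact h

/-- two nonzero functions with the same divisor differ by a constant. -/
theorem repM_const_of_ord_eq (h : IsRRField K F) {f g : F} (hf : f ≠ 0) (hg : g ≠ 0)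
    (hord : ∀ v : Place K F, v.ord f = v.ord g) :
    ∃ c : K, c ≠ 0 ∧ f = algebraMap K F c * g := by
  have hmem : f * g⁻¹ ∈ riemannRochSpace (0 : Divisor K F) := by
    rw [mem_riemannRochSpace_iff]
    intro v
    right
    rw [v.ord_mul hf (inv_ne_zero hg), v.ord_inv, hord v]
    simp
  obtain ⟨c, hc⟩ := (mem_riemannRochSpace_zero_iff h (f * g⁻¹)).mp hmem
  refine ⟨c, ?_, ?_⟩
  · rintro rfl
    rw [map_zero] at hc
    exact mul_ne_zero hf (inv_ne_zero hg) hc.symm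
  · rw [hc]
    field_simp

/-- a nonzero function whose divisor is zero is a constant. -/
theorem repM_const_of_ord_zero (h : IsRRField K F) {f : F} (hf : f ≠ 0)
    (hord : ∀ v : Place K F, v.ord f = 0) : ∃ c : K, c ≠ 0 ∧ f = algebraMap K F c := by
  obtain ⟨c, hc, hfc⟩ := repM_const_of_ord_eq h hf one_ne_zero
    (fun v => by rw [hord v, v.ord_one])
  exact ⟨c, hc, by rw [hfc, mul_one]⟩

/-- a function whose divisor is `H`-stable is `H`-semi-invariant. -/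
theorem repM_semi_of_div (h : IsRRField K F) (t : SemilinearAut K F) {f : F} (hf : f ≠ 0)
    (hord : ∀ v : Place K F, (t⁻¹ • v).ord f = v.ord f) :
    ∃ c : K, t • f = algebraMap K F c * f := by
  have htf : t • f ≠ 0 := by simpa using hf
  obtain ⟨c, -, hc⟩ := repM_const_of_ord_eq h htf hf
    (fun v => by rw [repM_ord_smul, hord v])
  exact ⟨c, hc⟩

/-- **Hilbert 90 for the constants**, from an `H`-equivariant leading coefficient. -/
theorem h90_of_lc (H : Subgroup (SemilinearAut K F)) (lc : F → K)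
    (hlc0 : ∀ f : F, f ≠ 0 → lc f ≠ 0)
    (hlcmul : ∀ (c : K) (f : F), lc (algebraMap K F c * f) = c * lc f)
    (hlcH : ∀ t ∈ H, ∀ f : F, lc (t • f) = SemilinearAut.baseAut t (lc f))
    (f : F) (hf : f ≠ 0) (hsemi : ∀ t ∈ H, ∃ c : K, t • f = algebraMap K F c * f) :
    ∃ c : K, c ≠ 0 ∧ ∀ t ∈ H, t • (algebraMap K F c * f) = algebraMap K F c * f := by
  have hl := hlc0 f hf
  refine ⟨(lc f)⁻¹, inv_ne_zero hl, fun t ht => ?_⟩
  set f' := algebraMap K F (lc f)⁻¹ * f with hf'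
  have hf'0 : f' ≠ 0 := mul_ne_zero (by simpa using hl) hf
  have hlc1 : lc f' = 1 := by rw [hf', hlcmul, inv_mul_cancel₀ hl]
  obtain ⟨c, hc⟩ := hsemi t ht
  have h1 : t • f' = algebraMap K F (SemilinearAut.baseAut t (lc f)⁻¹ * c * lc f) * f' := by
    have e : SemilinearAut.baseAut t (lc f)⁻¹ * c =
        SemilinearAut.baseAut t (lc f)⁻¹ * c * lc f * (lc f)⁻¹ := by
      rw [mul_assoc _ (lc f), mul_inv_cancel₀ hl, mul_one]
    rw [hf', smul_mul', SemilinearAut.smul_algebraMap, hc, ← mul_assoc, ← mul_assoc, ← map_mul,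
      ← map_mul, ← e]
  have h2 := hlcH t ht f'
  rw [h1, hlcmul, hlc1, mul_one, map_one] at h2
  rw [h1, h2, map_one, one_mul]

/-! ### reductions -/

/-- for `u` with `red u = 1`: `red (u ^ n) = 1`, `n : ℤ`. -/
theorem repM_red_zpow_one (S : ValSetup K F k Fk) {u : F} (hu : S.red u = 1) (n : ℤ) :
    S.red (u ^ n) = 1 := by
  have hne : S.red u ≠ 0 := by rw [hu]; exact one_ne_zero
  have hmem := S.mem_of_red_ne_zero hne
  have hinv := S.inv_mem_of_red_ne_zero hne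
  have h0 := S.ne_zero_of_red_ne_zero hne
  have hri : S.red u⁻¹ = 1 := by rw [S.red_inv hmem hinv h0, hu, inv_one]
  rcases Int.eq_nat_or_neg n with ⟨m, rfl | rfl⟩
  · rw [zpow_natCast, S.red_pow hmem, hu, one_pow]
  · rw [zpow_neg, zpow_natCast, ← inv_pow, S.red_pow hinv, hri, one_pow]

/-- units of `Ov`: `red ≠ 0`. -/
theorem repM_unit_mul (S : ValSetup K F k Fk) {a b : F} (ha : S.red a ≠ 0) (hb : S.red b ≠ 0) :
    S.red (a * b) = S.red a * S.red b ∧ S.red (a * b) ≠ 0 := by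
  have h := S.red_mul (S.mem_of_red_ne_zero ha) (S.mem_of_red_ne_zero hb)
  exact ⟨h, by rw [h]; exact mul_ne_zero ha hb⟩

/-- **the reduction of `k` is a constant**: if `k₁` is a unit of `Ov`, `red hl = 1`, `s` preserves
`Ov` and the reduction, and `k₁ ^ p * hl ^ c * g = C * s g`, then `red k₁` is a nonzero constant
(`p` the characteristic of the perfect residue field `k`). -/
theorem repM_red_const (S : ValSetup K F k Fk) (p : ℕ) [Fact p.Prime] [CharP k p]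
    [PerfectField k] (s : SemilinearAut K F)
    (hred : ∀ f : F, f ∈ S.Ov → S.red (s • f) = S.red f)
    {g k₁ hl : F} {C : K} {c : ℤ} (hg : g ≠ 0) (hk₁ : S.red k₁ ≠ 0) (hhl : S.red hl = 1)
    (hrel : k₁ ^ p * hl ^ c * g = algebraMap K F C * (s • g)) :
    ∃ γ : k, γ ≠ 0 ∧ S.red k₁ = algebraMap k Fk γ := by
  haveI : ExpChar k p := ExpChar.prime Fact.out
  haveI : PerfectRing k p := PerfectField.toPerfectRing p
  haveI : CharP Fk p := charP_of_injective_algebraMap (algebraMap k Fk).injective p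
  haveI : ExpChar Fk p := ExpChar.prime Fact.out
  -- scale `g`
  obtain ⟨c₁, hc₁, hg₁, hg₁i⟩ := S.scale g hg
  set g₁ := g * (algebraMap K F c₁)⁻¹ with hg₁def
  have hc₁F : algebraMap K F c₁ ≠ 0 := by simpa using hc₁
  have hg₁0 : g₁ ≠ 0 := mul_ne_zero hg (inv_ne_zero hc₁F)
  have hg₁r : S.red g₁ ≠ 0 := S.red_ne_zero hg₁ hg₁i hg₁0
  have hsg₁r : S.red (s • g₁) ≠ 0 := by rw [hred g₁ hg₁]; exact hg₁r
  have hsg₁0 : s • g₁ ≠ 0 := S.ne_zero_of_red_ne_zero hsg₁r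
  have hgeq : g = g₁ * algebraMap K F c₁ := by
    rw [hg₁def, mul_assoc, inv_mul_cancel₀ hc₁F, mul_one]
  have hsg : s • g = (s • g₁) * algebraMap K F (SemilinearAut.baseAut s c₁) := by
    conv_lhs => rw [hgeq]
    rw [smul_mul', SemilinearAut.smul_algebraMap]
  -- the units
  have hk₁p : S.red (k₁ ^ p) = S.red k₁ ^ p := S.red_pow (S.mem_of_red_ne_zero hk₁) p
  have hk₁pne : S.red (k₁ ^ p) ≠ 0 := by rw [hk₁p]; exact pow_ne_zero _ hk₁
  have hhlc : S.red (hl ^ c) = 1 := repM_red_zpow_one S hhl c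
  have hhlcne : S.red (hl ^ c) ≠ 0 := by rw [hhlc]; exact one_ne_zero
  have hsg₁i : S.red (s • g₁)⁻¹ = (S.red g₁)⁻¹ := by
    rw [S.red_inv (S.mem_of_red_ne_zero hsg₁r) (S.inv_mem_of_red_ne_zero hsg₁r) hsg₁0,
      hred g₁ hg₁]
  have hsg₁ine : S.red (s • g₁)⁻¹ ≠ 0 := by rw [hsg₁i]; exact inv_ne_zero hg₁r
  set W := k₁ ^ p * hl ^ c * g₁ * (s • g₁)⁻¹ with hW
  have h1 := repM_unit_mul S hk₁pne hhlcne
  have h2 := repM_unit_mul S h1.2 hg₁r
  have h3 := repM_unit_mul S h2.2 hsg₁ine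
  have hWred : S.red W = S.red k₁ ^ p := by
    rw [hW, h3.1, h2.1, h1.1, hk₁p, hhlc, hsg₁i, mul_one, mul_assoc, mul_inv_cancel₀ hg₁r,
      mul_one]
  have hWne : S.red W ≠ 0 := h3.2
  -- `W` is a constant
  set C' := C * SemilinearAut.baseAut s c₁ * c₁⁻¹ with hC'
  have hWC : W = algebraMap K F C' := by
    have e1 : k₁ ^ p * hl ^ c * g₁ * algebraMap K F c₁ =
        algebraMap K F C * ((s • g₁) * algebraMap K F (SemilinearAut.baseAut s c₁)) := by
      rw [← hsg, ← hrel, hgeq, mul_assoc (k₁ ^ p * hl ^ c)]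
    rw [hW, hC', map_mul, map_mul, map_inv₀]
    field_simp
    linear_combination e1
  have hC'mem : algebraMap K F C' ∈ S.Ov := hWC ▸ S.mem_of_red_ne_zero hWne
  have hC'A : C' ∈ S.A := (S.mem_Ov_iff C').mp hC'mem
  have hWres : S.red W = algebraMap k Fk (S.res ⟨C', hC'A⟩) := by
    rw [hWC]
    exact S.red_algebraMap hC'A
  obtain ⟨γ, hγ⟩ := surjective_frobenius k p (S.res ⟨C', hC'A⟩)
  have hγp : γ ^ p = S.res ⟨C', hC'A⟩ := hγ
  have hkey : S.red k₁ = algebraMap k Fk γ := by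
    apply frobenius_inj Fk p
    show S.red k₁ ^ p = algebraMap k Fk γ ^ p
    rw [← hWred, hWres, ← map_pow, hγp]
  refine ⟨γ, ?_, hkey⟩
  rintro rfl
  rw [map_zero] at hkey
  exact hk₁ hkey

/-! ### the data (DAT) -/

/-- **(DAT)** of block D: `D` is `H`-stable, `g` is an `H`-rational Kummer generator of `D`
(exponent `p`), `kf` is `H`-rational with `div kf = s D - D - c Dl`, and `κ₁, κ₂` are
`H`-rational constants with `red_j (kf / κ_j) = 1`. -/
structure DatM (N : NodalSetup K F k Fk₁ Fk₂ ι) (H : Subgroup (SemilinearAut K F))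
    (s : SemilinearAut K F) (p : ℕ) (c : ℤ) (Dl D : Divisor K F) (g kf : F) (κ₁ κ₂ : K) :
    Prop where
  D_fix : ∀ t ∈ H, t • D = D
  g_ne : g ≠ 0
  g_fix : ∀ t ∈ H, t • g = g
  ord_g : ∀ P : Place K F, P.ord g = p * D P
  k_ne : kf ≠ 0
  k_fix : ∀ t ∈ H, t • kf = kf
  ord_k : ∀ P : Place K F, P.ord kf = D (s⁻¹ • P) - D P - c * Dl P
  κ₁_ne : κ₁ ≠ 0
  κ₁_rat : ∀ t ∈ H, SemilinearAut.baseAut t κ₁ = κ₁
  red₁ : N.S₁.red (kf / algebraMap K F κ₁) = 1
  κ₂_ne : κ₂ ≠ 0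
  κ₂_rat : ∀ t ∈ H, SemilinearAut.baseAut t κ₂ = κ₂
  red₂ : N.S₂.red (kf / algebraMap K F κ₂) = 1

/-- at the places of type N (`r P = none`) an ordinary `Dl` does not contribute:
`ord_P kf = D (s⁻¹ P) - D P`. -/
theorem DatM.ord_k_typeN {N : NodalSetup K F k Fk₁ Fk₂ ι} {H : Subgroup (SemilinearAut K F)}
    {s : SemilinearAut K F} {p : ℕ} {c : ℤ} {Dl D : Divisor K F} {g kf : F} {κ₁ κ₂ : K}
    (h : DatM N H s p c Dl D g kf κ₁ κ₂) (hDl : N.IsOrdDiv Dl) (P : Place K F)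
    (hP : N.r P = none) : P.ord kf = D (s⁻¹ • P) - D P := by
  have h0 : Dl P = 0 := by
    by_contra hne
    obtain ⟨Q, hQ⟩ := hDl P hne
    rw [hP] at hQ
    exact (Option.some_ne_none Q hQ.symm).elim
  rw [h.ord_k P, h0, mul_zero, sub_zero]

/-- a principal divisor class: `Pic0.mk E = 0` gives a function. -/
theorem repM_exists_of_mk_eq_zero {E : Divisor.degZero (K := K) (F := F)}
    (hE : Pic0.mk E = 0) : ∃ f : F, f ≠ 0 ∧ ∀ v : Place K F, (E : Divisor K F) v = v.ord f := by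
  have h1 : E ∈ (Divisor.principal (K := K) (F := F)).addSubgroupOf
      (Divisor.degZero (K := K) (F := F)) := (QuotientAddGroup.eq_zero_iff E).mp hE
  exact h1

/-- the reduction step for one valuation: from a unit `kf / κ'` to `red (kf / κ) = 1`. -/
theorem repM_normalise (S : ValSetup K F k Fk) (p : ℕ) [Fact p.Prime] [CharP k p]
    [PerfectField k] (H : Subgroup (SemilinearAut K F)) (s : SemilinearAut K F)
    (hred : ∀ f : F, f ∈ S.Ov → S.red (s • f) = S.red f)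
    (hres : ∀ γ : k, ∃ (a : K) (ha : a ∈ S.A),
      (∀ t ∈ H, SemilinearAut.baseAut t a = a) ∧ S.res ⟨a, ha⟩ = γ)
    {g kf hl : F} {C κ' : K} {c : ℤ} (hg : g ≠ 0) (hhl : S.red hl = 1)
    (hκ' : κ' ≠ 0) (hκ'rat : ∀ t ∈ H, SemilinearAut.baseAut t κ' = κ')
    (hunit : S.red (kf / algebraMap K F κ') ≠ 0)
    (hrel : kf ^ p * hl ^ c * g = algebraMap K F C * (s • g)) :
    ∃ κ : K, κ ≠ 0 ∧ (∀ t ∈ H, SemilinearAut.baseAut t κ = κ) ∧
      S.red (kf / algebraMap K F κ) = 1 := by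
  have hκ'F : algebraMap K F κ' ≠ 0 := by simpa using hκ'
  have hrel' : (kf / algebraMap K F κ') ^ p * hl ^ c * g =
      algebraMap K F (C * (κ' ^ p)⁻¹) * (s • g) := by
    rw [div_pow, map_mul, map_inv₀, map_pow]
    have hp0 : algebraMap K F κ' ^ p ≠ 0 := pow_ne_zero _ hκ'F
    field_simp
    linear_combination hrel
  obtain ⟨γ, hγ0, hγ⟩ := repM_red_const S p s hred hg hunit hhl hrel'
  obtain ⟨a, ha, harat, hares⟩ := hres γ
  have ha0 : a ≠ 0 := by
    rintro rfl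
    have : S.res ⟨0, ha⟩ = 0 := map_zero S.res
    rw [this] at hares
    exact hγ0 hares.symm
  have haF : algebraMap K F a ≠ 0 := by simpa using ha0
  have hared : S.red (algebraMap K F a) = algebraMap k Fk γ := by
    rw [S.red_algebraMap ha, hares]
  have hane : S.red (algebraMap K F a) ≠ 0 := by
    rw [hared]
    simpa using hγ0
  refine ⟨κ' * a, mul_ne_zero hκ' ha0, fun t ht => ?_, ?_⟩
  · rw [map_mul, hκ'rat t ht, harat t ht]
  · have e : kf / algebraMap K F (κ' * a) = (kf / algebraMap K F κ') * (algebraMap K F a)⁻¹ := by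
      rw [map_mul]
      field_simp
    have hainv : S.red (algebraMap K F a)⁻¹ = (algebraMap k Fk γ)⁻¹ := by
      rw [S.red_inv (S.mem_of_red_ne_zero hane) (S.inv_mem_of_red_ne_zero hane) haF, hared]
    rw [e, S.red_mul (S.mem_of_red_ne_zero hunit) (S.inv_mem_of_red_ne_zero hane), hγ, hainv]
    exact mul_inv_cancel₀ (by simpa using hγ0)

/-! ### D-REP -/

/-- rescaling by a nonzero constant does not change the divisor. -/
theorem repM_ord_const_mul (v : Place K F) {a : K} (ha : a ≠ 0) {f : F} (hf : f ≠ 0) :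
    v.ord (algebraMap K F a * f) = v.ord f := by
  rw [v.ord_mul (by simpa using ha) hf, Fermat.Agent.S24Res.ord_algebraMap, zero_add]

/-- `ord (f ^ n) = n * ord f`, `n : ℕ`. -/
theorem repM_ord_pow (v : Place K F) (f : F) (n : ℕ) : v.ord (f ^ n) = n * v.ord f := by
  rw [← zpow_natCast, v.ord_zpow]

/-- **D-REP**: the data (DAT) for an `H`-fixed class `x` of order `p` with
`s x - x = c [Dl]`. -/
theorem exists_datM (N : NodalSetup K F k Fk₁ Fk₂ ι) (p : ℕ) [Fact p.Prime] [CharP k p]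
    [PerfectField k] (H : Subgroup (SemilinearAut K F)) (s : SemilinearAut K F)
    (hsH : ∀ t ∈ H, s⁻¹ * t * s ∈ H) (hs : N.IsInertial s)
    (hH90 : ∀ f : F, f ≠ 0 → (∀ t ∈ H, ∃ a : K, t • f = algebraMap K F a * f) →
      ∃ a : K, a ≠ 0 ∧ ∀ t ∈ H, t • (algebraMap K F a * f) = algebraMap K F a * f)
    (hG1₁ : ∀ f : F, f ≠ 0 → (∀ t ∈ H, t • f = f) →
      ∃ a : K, a ≠ 0 ∧ (∀ t ∈ H, SemilinearAut.baseAut t a = a) ∧
        N.S₁.red (f / algebraMap K F a) ≠ 0)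
    (hG1₂ : ∀ f : F, f ≠ 0 → (∀ t ∈ H, t • f = f) →
      ∃ a : K, a ≠ 0 ∧ (∀ t ∈ H, SemilinearAut.baseAut t a = a) ∧
        N.S₂.red (f / algebraMap K F a) ≠ 0)
    (hres : ∀ γ : k, ∃ (a : K) (ha : a ∈ N.S₁.A),
      (∀ t ∈ H, SemilinearAut.baseAut t a = a) ∧ N.S₁.res ⟨a, ha⟩ = γ)
    (oo : Place K F) (hoo : ∀ t ∈ H, t • oo = oo)
    (x : Pic0 K F) (hpx : p • x = 0) (hHx : ∀ t ∈ H, t • x = x)
    (Dl : Divisor.degZero (K := K) (F := F)) (hl : F) (hl0 : hl ≠ 0)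
    (hdivl : ∀ P : Place K F, P.ord hl = p * (Dl : Divisor K F) P)
    (hDlH : ∀ t ∈ H, t • (Dl : Divisor K F) = Dl)
    (hl₁ : N.S₁.red hl = 1) (hl₂ : N.S₂.red hl = 1)
    (c : ℤ) (hsx : s • x - x = c • Pic0.mk Dl) :
    ∃ (D : Divisor.degZero (K := K) (F := F)) (g kf : F) (κ₁ κ₂ : K),
      Pic0.mk D = x ∧ DatM N H s p c (Dl : Divisor K F) (D : Divisor K F) g kf κ₁ κ₂ := by
  have hF : IsRRField K F := N.S₁.hF
  -- the `H`-stable representative
  obtain ⟨D, hDx, hDfix⟩ := Fermat.Agent.EKp.rep_pic0 hF oo (H : Set (SemilinearAut K F))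
    hoo x hHx
  have hDinv : ∀ t ∈ H, ∀ v : Place K F, (D : Divisor K F) (t⁻¹ • v) = (D : Divisor K F) v := by
    intro t ht v
    rw [← SemilinearAut.divisor_smul_apply, hDfix t ht]
  have hDlinv : ∀ t ∈ H, ∀ v : Place K F,
      (Dl : Divisor K F) (t⁻¹ • v) = (Dl : Divisor K F) v := by
    intro t ht v
    rw [← SemilinearAut.divisor_smul_apply, hDlH t ht]
  -- the Kummer generator
  have hpD : Pic0.mk (p • D) = 0 := by
    have : Pic0.mk (p • D) = p • Pic0.mk D := rfl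
    rw [this, hDx, hpx]
  obtain ⟨g₀, hg₀, hg₀div⟩ := repM_exists_of_mk_eq_zero hpD
  have hg₀ord : ∀ v : Place K F, v.ord g₀ = p * (D : Divisor K F) v := by
    intro v
    rw [← hg₀div v, AddSubgroup.coe_nsmul, Finsupp.smul_apply, nsmul_eq_mul]
  obtain ⟨a, ha, hafix⟩ := hH90 g₀ hg₀ (fun t ht =>
    repM_semi_of_div hF t hg₀ (fun v => by rw [hg₀ord, hg₀ord, hDinv t ht]))
  set g := algebraMap K F a * g₀ with hg
  have hg0 : g ≠ 0 := mul_ne_zero (by simpa using ha) hg₀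
  have hgord : ∀ v : Place K F, v.ord g = p * (D : Divisor K F) v := fun v => by
    rw [hg, repM_ord_const_mul v ha hg₀, hg₀ord]
  -- the function `k`
  have hE : Pic0.mk (SemilinearAut.degZeroSMulHom s D - D - c • Dl) = 0 := by
    have : Pic0.mk (SemilinearAut.degZeroSMulHom s D - D - c • Dl) =
        s • Pic0.mk D - Pic0.mk D - c • Pic0.mk Dl := rfl
    rw [this, hDx, hsx, sub_self]
  obtain ⟨k₀, hk₀, hk₀div⟩ := repM_exists_of_mk_eq_zero hE
  have hk₀ord : ∀ v : Place K F,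
      v.ord k₀ = (D : Divisor K F) (s⁻¹ • v) - (D : Divisor K F) v - c * (Dl : Divisor K F) v := by
    intro v
    rw [← hk₀div v]
    simp only [AddSubgroup.coe_sub, AddSubgroup.coe_zsmul, SemilinearAut.coe_degZeroSMulHom,
      Finsupp.sub_apply, Finsupp.smul_apply, smul_eq_mul, SemilinearAut.divisor_smul_apply]
  obtain ⟨b, hb, hbfix⟩ := hH90 k₀ hk₀ (fun t ht =>
    repM_semi_of_div hF t hk₀ (fun v => by
      rw [hk₀ord, hk₀ord, hDinv t ht, hDlinv t ht]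
      have e : s⁻¹ • t⁻¹ • v = (s⁻¹ * t * s)⁻¹ • s⁻¹ • v := by
        rw [← mul_smul, ← mul_smul]
        congr 1
        group
      rw [e, hDinv _ (hsH t ht)]))
  set kf := algebraMap K F b * k₀ with hkf
  have hkf0 : kf ≠ 0 := mul_ne_zero (by simpa using hb) hk₀
  have hkford : ∀ v : Place K F,
      v.ord kf = (D : Divisor K F) (s⁻¹ • v) - (D : Divisor K F) v - c * (Dl : Divisor K F) v :=
    fun v => by rw [hkf, repM_ord_const_mul v hb hk₀, hk₀ord]
  -- the relation `kf ^ p * hl ^ c * g = C * s g`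
  have hsg0 : s • g ≠ 0 := by simpa using hg0
  obtain ⟨C, -, hC⟩ := repM_const_of_ord_eq hF
    (mul_ne_zero (mul_ne_zero (pow_ne_zero p hkf0) (zpow_ne_zero c hl0)) hg0) hsg0
    (fun v => by
      rw [v.ord_mul (mul_ne_zero (pow_ne_zero p hkf0) (zpow_ne_zero c hl0)) hg0,
        v.ord_mul (pow_ne_zero p hkf0) (zpow_ne_zero c hl0), repM_ord_pow, v.ord_zpow,
        hkford, hdivl, hgord, repM_ord_smul, hgord]
      ring)
  -- the constants
  obtain ⟨κ₁', hκ₁', hκ₁'rat, hu₁⟩ := hG1₁ kf hkf0 hbfix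
  obtain ⟨κ₂', hκ₂', hκ₂'rat, hu₂⟩ := hG1₂ kf hkf0 hbfix
  obtain ⟨κ₁, hκ₁, hκ₁rat, hκ₁red⟩ := repM_normalise N.S₁ p H s hs.red₁ hres hg0 hl₁ hκ₁'
    hκ₁'rat hu₁ hC
  have hres₂ : ∀ γ : k, ∃ (a : K) (ha : a ∈ N.S₂.A),
      (∀ t ∈ H, SemilinearAut.baseAut t a = a) ∧ N.S₂.res ⟨a, ha⟩ = γ := by
    intro γ
    obtain ⟨a, ha, harat, hares⟩ := hres γ
    exact ⟨a, N.A_eq ▸ ha, harat, by rw [← N.res_eq a ha (N.A_eq ▸ ha), hares]⟩
  obtain ⟨κ₂, hκ₂, hκ₂rat, hκ₂red⟩ := repM_normalise N.S₂ p H s hs.red₂ hres₂ hg0 hl₂ hκ₂'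
    hκ₂'rat hu₂ hC
  exact ⟨D, g, kf, κ₁, κ₂, hDx,
    { D_fix := hDfix
      g_ne := hg0
      g_fix := hafix
      ord_g := hgord
      k_ne := hkf0
      k_fix := hbfix
      ord_k := hkford
      κ₁_ne := hκ₁
      κ₁_rat := hκ₁rat
      red₁ := hκ₁red
      κ₂_ne := hκ₂
      κ₂_rat := hκ₂rat
      red₂ := hκ₂red }⟩

end Fermat.Agent.PeuD
end
end MergeWrap_Lib_BadRed_PeuD_RepM
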