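import Mathlib
import Fermat.Agent.MU.Lib.BadRed.PeuD.Rat
import Fermat.Agent.MU.Lib.BadRed.PeuD.RatCoord
import Fermat.Agent.MU.Lib.BadRed.PeuD.RepM
import Fermat.Agent.MU.Lib.BadRed.PeuD.Key
import Fermat.Agent.MU.Lib.BadRed.PeuD.LemmaA
import Fermat.Agent.MU.Lib.BadRed.PeuD.Int
import Fermat.Agent.MU.Lib.BadRed.PeuD.Coord

section MergeWrap_Lib_BadRed_PeuD_RatWire -- from Lib/BadRed/PeuD/RatWire.lean

set_option autoImplicit false
set_option linter.unusedSectionVars false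
set_option linter.unusedVariables false
set_option linter.style.haveILetI false

noncomputable section

open AlgebraicCurve Fermat.Agent.RR Fermat.Agent.Deuring Fermat.Agent.BadRed

namespace Fermat.Agent.PeuD

variable {K F k Fk₁ Fk₂ : Type*} [Field K] [Field F] [Algebra K F]
  [Field k] [Field Fk₁] [Algebra k Fk₁] [Field Fk₂] [Algebra k Fk₂] {ι : Type*}

theorem rat_apply_smul_of_fix {t : SemilinearAut K F} {D : Divisor K F} (h : t • D = D)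
    (P : Place K F) : D (t • P) = D P := by
  have h1 := SemilinearAut.divisor_smul_apply_smul t D P
  rwa [h] at h1

/-- the divisor data of (RSM) from the data (DAT) of D-REP. -/
theorem ratData_of_datM {N : NodalSetup K F k Fk₁ Fk₂ ι} {H : Subgroup (SemilinearAut K F)}
    {s : SemilinearAut K F} {p : ℕ} {c : ℤ} {Dl D : Divisor K F} {g kf : F} {κ₁ κ₂ : K}
    (hdat : DatM N H s p c Dl D g kf κ₁ κ₂) (hDlH : ∀ t ∈ H, t • Dl = Dl) (hDls : s • Dl = Dl)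
    (hDl0 : ∀ Q, Finsupp.mapDomain N.r Dl (some Q) = 0) :
    RatData N (H : Set (SemilinearAut K F)) s kf :=
  ⟨hdat.k_ne, D, Dl, c, fun t ht P => rat_apply_smul_of_fix (hdat.D_fix t ht) P,
    fun t ht P => rat_apply_smul_of_fix (hDlH t ht) P, fun P => rat_apply_smul_of_fix hDls P,
    hDl0, fun P _ => hdat.ord_k P⟩

variable [Fintype ι] [Infinite k]

/-- **(RSM₁)** in the shape of `KeyData.rsm₁`. -/
theorem rat_keyRsm₁ (N : NodalSeed K F k Fk₁ Fk₂ ι) {H : Subgroup (SemilinearAut K F)}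
    {s : SemilinearAut K F} (hH : ∀ t ∈ H, N.nodalSetup.IsInertial t)
    (hs : N.nodalSetup.IsInertial s)
    {π : K} (hπA : π ∈ N.S₁.A) (hπ0 : π ≠ 0) (hπres : N.S₁.res ⟨π, hπA⟩ = 0)
    (hG2 : RatG2Statement N.S₁ (H : Set (SemilinearAut K F)) s π)
    (hRat : RatStatement N.S₁ (H : Set (SemilinearAut K F)) s π)
    {p : ℕ} {c : ℤ} {Dl D : Divisor K F} {g kf : F} {κ₁ κ₂ : K}
    (hdat : DatM N.nodalSetup H s p c Dl D g kf κ₁ κ₂)
    (hDlH : ∀ t ∈ H, t • Dl = Dl) (hDls : s • Dl = Dl)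
    (hDl0 : ∀ Q, Finsupp.mapDomain N.nodalSetup.r Dl (some Q) = 0)
    (hlift : RatLift₁ N (insert s (H : Set (SemilinearAut K F))))
    {B₁ : Fk₁} (hfo : FirstOrd N.S₁ π (kf / algebraMap K F κ₁) B₁)
    (Q : Place k Fk₁) (hQ : ∀ i, Q ≠ N.s₁ i) : 0 ≤ Q.ord B₁ := by
  rw [← hfo.2]
  exact rat_rsm₁ (N := N.nodalSetup) hH hs hπA hπ0 hπres hG2 hRat
    (ratData_of_datM hdat hDlH hDls hDl0) (ratCoord₁_of_lift N hlift) hdat.κ₁_ne Q hQ

/-- **(RSM₂)** in the shape of `KeyData.rsm₂`. -/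
theorem rat_keyRsm₂ (N : NodalSeed K F k Fk₁ Fk₂ ι) {H : Subgroup (SemilinearAut K F)}
    {s : SemilinearAut K F} (hH : ∀ t ∈ H, N.nodalSetup.IsInertial t)
    (hs : N.nodalSetup.IsInertial s)
    {π : K} (hπA : π ∈ N.S₁.A) (hπ0 : π ≠ 0) (hπres : N.S₁.res ⟨π, hπA⟩ = 0)
    (hG2 : RatG2Statement N.S₂ (H : Set (SemilinearAut K F)) s π)
    (hRat : RatStatement N.S₂ (H : Set (SemilinearAut K F)) s π)
    {p : ℕ} {c : ℤ} {Dl D : Divisor K F} {g kf : F} {κ₁ κ₂ : K}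
    (hdat : DatM N.nodalSetup H s p c Dl D g kf κ₁ κ₂)
    (hDlH : ∀ t ∈ H, t • Dl = Dl) (hDls : s • Dl = Dl)
    (hDl0 : ∀ Q, Finsupp.mapDomain N.nodalSetup.r Dl (some Q) = 0)
    (hlift : RatLift₂ N (insert s (H : Set (SemilinearAut K F))))
    {B₂ : Fk₂} (hfo : FirstOrd N.S₂ π (kf / algebraMap K F κ₂) B₂)
    (Q : Place k Fk₂) (hQ : ∀ i, Q ≠ N.s₂ i) : 0 ≤ Q.ord B₂ := by
  rw [← hfo.2]
  exact rat_rsm₂ (N := N.nodalSetup) hH hs hπA hπ0 hπres hG2 hRat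
    (ratData_of_datM hdat hDlH hDls hDl0) (ratCoord₂_of_lift N hlift) hdat.κ₂_ne Q hQ

end Fermat.Agent.PeuD
end
end MergeWrap_Lib_BadRed_PeuD_RatWire

section MergeWrap_Lib_BadRed_PeuD_KeyFo -- from Lib/BadRed/PeuD/KeyFo.lean

set_option autoImplicit false
set_option linter.unusedSectionVars false
set_option linter.unusedVariables false

noncomputable section

open AlgebraicCurve Fermat.Agent.RR Fermat.Agent.Deuring Fermat.Agent.BadRed Fermat.Agent.EKp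

namespace Fermat.Agent.PeuD

section One

variable {K F k Fk : Type*} [Field K] [Field F] [Algebra K F]
  [Field k] [Field Fk] [Algebra k Fk]

/-- an element of `A` which is not a unit has valuation `< 1`. -/
theorem keyFo_val_lt_one (A : ValuationSubring K) {c : K} (hinv : c⁻¹ ∉ A) :
    A.valuation c < 1 := by
  by_contra h
  rw [not_lt] at h
  apply hinv
  rw [← A.valuation_le_one_iff, map_inv₀]
  have h0 : 0 < A.valuation c := lt_of_lt_of_le zero_lt_one h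
  exact (inv_le_one₀ h0).mpr h

/-- an `M`-rational constant of valuation `< 1` is divisible by `π`. -/
theorem keyFo_div_mem (A : ValuationSubring K) (IsRat : K → Prop) {π : K} (hπ0 : π ≠ 0)
    (hπ1 : A.valuation π < 1)
    (hval : ∀ c : K, IsRat c → c ≠ 0 → ∃ n : ℤ, A.valuation c = A.valuation π ^ n)
    {c : K} (hcR : IsRat c) (hc1 : A.valuation c < 1) : c / π ∈ A := by
  rcases eq_or_ne c 0 with rfl | hc0
  · rw [zero_div]; exact A.zero_mem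
  obtain ⟨n, hn⟩ := hval c hcR hc0
  have hv0 : 0 < A.valuation π := zero_lt_iff.mpr ((Valuation.ne_zero_iff _).mpr hπ0)
  have hn1 : 1 ≤ n := by
    by_contra hlt
    have hn0 : n ≤ 0 := by omega
    have := one_le_zpow_of_nonpos₀ hv0 hπ1.le hn0
    rw [← hn] at this
    exact absurd hc1 (not_lt.mpr this)
  have hle : A.valuation c ≤ A.valuation π := by
    rw [hn]
    have := zpow_le_zpow_right_of_le_one₀ hv0 hπ1.le hn1
    simpa using this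
  rw [← A.valuation_le_one_iff, map_div₀]
  exact (div_le_one₀ hv0).mpr hle

variable (S : ValSetup K F k Fk)

/-- **W-FO, one valuation**: an `M`-rational function with reduction `1` has a first-order
expansion `f = 1 + π b`, `b ∈ O`. -/
theorem keyFo_firstOrd (H : Set (SemilinearAut K F)) {π : K} (hπ0 : π ≠ 0)
    (hπ1 : S.A.valuation π < 1)
    (hG1 : ∀ f : F, f ≠ 0 → (∀ t ∈ H, t • f = f) →
      ∃ a : K, a ≠ 0 ∧ (∀ t ∈ H, SemilinearAut.baseAut t a = a) ∧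
        S.red (f / algebraMap K F a) ≠ 0)
    (hval : ∀ c : K, (∀ t ∈ H, SemilinearAut.baseAut t c = c) → c ≠ 0 →
      ∃ n : ℤ, S.A.valuation c = S.A.valuation π ^ n)
    {f : F} (hfH : ∀ t ∈ H, t • f = f) (hred : S.red f = 1) :
    ∃ B : Fk, FirstOrd S π f B := by
  have hfO : f ∈ S.Ov := S.mem_of_red_ne_zero (by rw [hred]; exact one_ne_zero)
  have h1O : (1 : F) ∈ S.Ov := S.Ov.one_mem
  have hred0 : S.red (f - 1) = 0 := by
    rw [S.red_sub hfO h1O, hred, S.red_one, sub_self]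
  suffices h : (f - 1) / algebraMap K F π ∈ S.Ov from ⟨_, h, rfl⟩
  rcases eq_or_ne (f - 1) 0 with h0 | h0
  · rw [h0, zero_div]; exact S.Ov.zero_mem
  have hgH : ∀ t ∈ H, t • (f - 1) = f - 1 := by
    intro t ht
    rw [smul_sub, hfH t ht, smul_one]
  obtain ⟨a, ha0, haH, hau⟩ := hG1 (f - 1) h0 hgH
  have ha0' : algebraMap K F a ≠ 0 := (map_ne_zero _).mpr ha0
  have hπ0' : algebraMap K F π ≠ 0 := (map_ne_zero _).mpr hπ0
  have hwO : (f - 1) / algebraMap K F a ∈ S.Ov := S.mem_of_red_ne_zero hau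
  -- `a` is not a unit of `A`
  have hainv : a⁻¹ ∉ S.A := by
    intro hinv
    have hinvO : algebraMap K F a⁻¹ ∈ S.Ov := S.algebraMap_mem hinv
    have e : (f - 1) / algebraMap K F a = (f - 1) * algebraMap K F a⁻¹ := by
      rw [map_inv₀, div_eq_mul_inv]
    rw [e, S.red_mul (sub_mem hfO h1O) hinvO, hred0, zero_mul] at hau
    exact hau rfl
  have ha1 : S.A.valuation a < 1 := keyFo_val_lt_one S.A hainv
  have hdiv : a / π ∈ S.A :=
    keyFo_div_mem S.A (fun c => ∀ t ∈ H, SemilinearAut.baseAut t c = c) hπ0 hπ1 hval haH ha1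
  have e : (f - 1) / algebraMap K F π = (f - 1) / algebraMap K F a * algebraMap K F (a / π) := by
    rw [map_div₀]
    field_simp
  rw [e]
  exact mul_mem hwO (S.algebraMap_mem hdiv)

/-- **(VG)**: the field `KeyData.vg` from the value group of `M`. -/
theorem keyFo_vg (H : Set (SemilinearAut K F)) {π : K} (hπ0 : π ≠ 0)
    (hπ1 : S.A.valuation π < 1)
    (hval : ∀ c : K, (∀ t ∈ H, SemilinearAut.baseAut t c = c) → c ≠ 0 →
      ∃ n : ℤ, S.A.valuation c = S.A.valuation π ^ n)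
    {c : K} (hcH : ∀ t ∈ H, SemilinearAut.baseAut t c = c) (hcA : c ∈ S.A)
    (hres : S.res ⟨c, hcA⟩ = 1) : (c - 1) / π ∈ S.A := by
  have h1A : (1 : K) ∈ S.A := S.A.one_mem
  have hdA : c - 1 ∈ S.A := sub_mem hcA h1A
  have hres0 : S.res ⟨c - 1, hdA⟩ = 0 := by
    have e : (⟨c - 1, hdA⟩ : S.A) = ⟨c, hcA⟩ - 1 := Subtype.ext rfl
    rw [e, map_sub, hres, map_one, sub_self]
  rcases eq_or_ne (c - 1) 0 with h0 | h0
  · rw [h0, zero_div]; exact S.A.zero_mem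
  have hinv : (c - 1)⁻¹ ∉ S.A := inv_notMem_of_res_eq_zero S h0 hdA hres0
  have hdH : ∀ t ∈ H, SemilinearAut.baseAut t (c - 1) = c - 1 := by
    intro t ht
    rw [map_sub, hcH t ht, map_one]
  exact keyFo_div_mem S.A (fun c => ∀ t ∈ H, SemilinearAut.baseAut t c = c) hπ0 hπ1 hval hdH
    (keyFo_val_lt_one S.A hinv)

/-- `res π = 0` from `v π < 1`. -/
theorem keyFo_res_pi {π : K} (hπA : π ∈ S.A) (hπ1 : S.A.valuation π < 1) :
    S.res ⟨π, hπA⟩ = 0 := by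
  rcases eq_or_ne π 0 with h0 | h0
  · subst h0
    exact map_zero S.res
  · have h := la_red_pi (S := S) h0 hπ1
    rw [S.red_algebraMap hπA] at h
    exact (map_eq_zero_iff _ (algebraMap k Fk).injective).mp h

/-- `v π < 1` from `res π = 0`, `π ≠ 0`. -/
theorem keyFo_val_pi {π : K} (hπ0 : π ≠ 0) (hπA : π ∈ S.A) (hπres : S.res ⟨π, hπA⟩ = 0) :
    S.A.valuation π < 1 :=
  keyFo_val_lt_one S.A (inv_notMem_of_res_eq_zero S hπ0 hπA hπres)

end One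

section Two

variable {K F k Fk₁ Fk₂ : Type*} [Field K] [Field F] [Algebra K F]
  [Field k] [Field Fk₁] [Algebra k Fk₁] [Field Fk₂] [Algebra k Fk₂] {ι : Type*} [Fintype ι]
  [Infinite k]

/-- **W-FO**: the global data `KeyData` of (KEY) from (DAT), (G1), the value group of `M`
and (RSM). -/
theorem keyData_of_datM (N : NodalSeed K F k Fk₁ Fk₂ ι) {H : Subgroup (SemilinearAut K F)}
    {s : SemilinearAut K F} (hH : ∀ t ∈ H, N.nodalSetup.IsInertial t)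
    (hs : N.nodalSetup.IsInertial s)
    {π : K} (hπA : π ∈ N.S₁.A) (hπ0 : π ≠ 0) (hπres : N.S₁.res ⟨π, hπA⟩ = 0)
    (hval : ∀ c : K, (∀ t ∈ H, SemilinearAut.baseAut t c = c) → c ≠ 0 →
      ∃ n : ℤ, N.S₁.A.valuation c = N.S₁.A.valuation π ^ n)
    (hG1₁ : ∀ f : F, f ≠ 0 → (∀ t ∈ H, t • f = f) →
      ∃ a : K, a ≠ 0 ∧ (∀ t ∈ H, SemilinearAut.baseAut t a = a) ∧
        N.S₁.red (f / algebraMap K F a) ≠ 0)
    (hG1₂ : ∀ f : F, f ≠ 0 → (∀ t ∈ H, t • f = f) →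
      ∃ a : K, a ≠ 0 ∧ (∀ t ∈ H, SemilinearAut.baseAut t a = a) ∧
        N.S₂.red (f / algebraMap K F a) ≠ 0)
    (hG2₁ : RatG2Statement N.S₁ (H : Set (SemilinearAut K F)) s π)
    (hRat₁ : RatStatement N.S₁ (H : Set (SemilinearAut K F)) s π)
    (hG2₂ : RatG2Statement N.S₂ (H : Set (SemilinearAut K F)) s π)
    (hRat₂ : RatStatement N.S₂ (H : Set (SemilinearAut K F)) s π)
    {p : ℕ} {c : ℤ} {Dl D : Divisor K F} {g kf : F} {κ₁ κ₂ : K}
    (hdat : DatM N.nodalSetup H s p c Dl D g kf κ₁ κ₂)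
    (hDlH : ∀ t ∈ H, t • Dl = Dl) (hDls : s • Dl = Dl)
    (hDl0 : ∀ Q, Finsupp.mapDomain N.nodalSetup.r Dl (some Q) = 0)
    (hlift₁ : RatLift₁ N (insert s (H : Set (SemilinearAut K F))))
    (hlift₂ : RatLift₂ N (insert s (H : Set (SemilinearAut K F)))) :
    ∃ (B₁ : Fk₁) (B₂ : Fk₂), KeyData N π kf κ₁ κ₂ B₁ B₂ := by
  have hAeq : N.S₂.A = N.S₁.A := N.A_eq.symm
  have hπ1 : N.S₁.A.valuation π < 1 := keyFo_val_pi N.S₁ hπ0 hπA hπres
  have hπ1' : N.S₂.A.valuation π < 1 := by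
    apply keyFo_val_lt_one
    rw [hAeq]
    exact inv_notMem_of_res_eq_zero N.S₁ hπ0 hπA hπres
  have hval' : ∀ c : K, (∀ t ∈ H, SemilinearAut.baseAut t c = c) → c ≠ 0 →
      ∃ n : ℤ, N.S₂.A.valuation c = N.S₂.A.valuation π ^ n := by
    rw [hAeq]
    exact hval
  have hk₁H : ∀ t ∈ (H : Set (SemilinearAut K F)), t • (kf / algebraMap K F κ₁) =
      kf / algebraMap K F κ₁ := by
    intro t ht
    rw [SemilinearAut.smul_def, map_div₀, ← SemilinearAut.smul_def, ← SemilinearAut.smul_def,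
      hdat.k_fix t ht, SemilinearAut.smul_algebraMap, hdat.κ₁_rat t ht]
  have hk₂H : ∀ t ∈ (H : Set (SemilinearAut K F)), t • (kf / algebraMap K F κ₂) =
      kf / algebraMap K F κ₂ := by
    intro t ht
    rw [SemilinearAut.smul_def, map_div₀, ← SemilinearAut.smul_def, ← SemilinearAut.smul_def,
      hdat.k_fix t ht, SemilinearAut.smul_algebraMap, hdat.κ₂_rat t ht]
  obtain ⟨B₁, hfo₁⟩ := keyFo_firstOrd N.S₁ (H : Set (SemilinearAut K F)) hπ0 hπ1 hG1₁ hval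
    hk₁H hdat.red₁
  obtain ⟨B₂, hfo₂⟩ := keyFo_firstOrd N.S₂ (H : Set (SemilinearAut K F)) hπ0 hπ1' hG1₂ hval'
    hk₂H hdat.red₂
  refine ⟨B₁, B₂, ⟨hπA, hπ0, hπres, hdat.κ₁_ne, hdat.κ₂_ne, hfo₁, hfo₂, ?_, ?_, ?_⟩⟩
  · exact rat_keyRsm₁ N hH hs hπA hπ0 hπres hG2₁ hRat₁ hdat hDlH hDls hDl0 hlift₁ hfo₁
  · exact rat_keyRsm₂ N hH hs hπA hπ0 hπres hG2₂ hRat₂ hdat hDlH hDls hDl0 hlift₂ hfo₂
  · intro m hc hres
    refine keyFo_vg N.S₁ (H : Set (SemilinearAut K F)) hπ0 hπ1 hval ?_ hc hres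
    intro t ht
    rw [map_pow, map_div₀, hdat.κ₁_rat t ht, hdat.κ₂_rat t ht]

end Two

end Fermat.Agent.PeuD
end
end MergeWrap_Lib_BadRed_PeuD_KeyFo

section MergeWrap_Lib_BadRed_PeuD_RatLA -- from Lib/BadRed/PeuD/RatLA.lean

set_option autoImplicit false
set_option linter.unusedSectionVars false
set_option linter.unusedVariables false
set_option linter.style.haveILetI false

noncomputable section

open AlgebraicCurve Fermat.Agent.RR Fermat.Agent.Deuring Fermat.Agent.BadRed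

namespace Fermat.Agent.PeuD

variable {K F k Fk : Type*} [Field K] [Field F] [Algebra K F]
  [Field k] [Field Fk] [Algebra k Fk] {S : ValSetup K F k Fk}

/-- the residue of a constant of valuation `< 1` vanishes. -/
theorem rat_res_eq_zero_of_val_lt {c : K} (hc : S.A.valuation c < 1)
    (hcA : c ∈ S.A) : S.res ⟨c, hcA⟩ = 0 := by
  rcases eq_or_ne c 0 with rfl | hc0
  · exact map_zero S.res
  have hinv : c⁻¹ ∉ S.A := by
    intro h
    have h1 : S.A.valuation c⁻¹ ≤ 1 := (S.A.valuation_le_one_iff _).mpr h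
    rw [map_inv₀] at h1
    have hv0 : 0 < S.A.valuation c := zero_lt_iff.mpr ((Valuation.ne_zero_iff _).mpr hc0)
    have h2 : 1 ≤ S.A.valuation c := by
      have := (inv_le_one₀ hv0).mp h1
      exact this
    exact absurd hc (not_lt.mpr h2)
  obtain ⟨h', hres⟩ := S.res_inv_eq_zero hinv
  have e : (⟨c, hcA⟩ : S.A) = ⟨c⁻¹⁻¹, h'⟩ := Subtype.ext (inv_inv c).symm
  rw [e]
  exact hres

/-- (G2) in the shape of `Rat.lean` from (G2) in the shape of `LemmaA.lean`. -/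
theorem ratG2Statement_of {H : Set (SemilinearAut K F)} {s : SemilinearAut K F} {π : K}
    (hG2 : ∀ f : F, f ∈ S.Ov → (∀ t ∈ H, t • f = f) →
      (s • f - f) / algebraMap K F (π ^ 2) ∈ S.Ov) : RatG2Statement S H s π :=
  fun f hfH hf => hG2 f hf hfH

/-- **(RAT)** from Lemma A. -/
theorem ratStatement_of_lemmaA (p : ℕ) (hp : p.Prime) [CharP k p]
    (s : SemilinearAut K F) (H : Set (SemilinearAut K F)) {π α₀ : K}
    (hπ0 : π ≠ 0) (hπ1 : S.A.valuation π < 1)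
    (hπH : ∀ t ∈ H, SemilinearAut.baseAut t π = π) (hα₀ : α₀ ∈ S.A)
    (hα₀u : S.A.valuation α₀ = 1)
    (hsπ : (SemilinearAut.baseAut s π - π * (1 + α₀ * π)) / π ^ 3 ∈ S.A)
    (hA1 : ∀ c : K, c ∈ S.A → (∀ t ∈ H, SemilinearAut.baseAut t c = c) →
      (SemilinearAut.baseAut s c - c) / π ^ 2 ∈ S.A)
    (hG2 : ∀ f : F, f ∈ S.Ov → (∀ t ∈ H, t • f = f) →
      (s • f - f) / algebraMap K F (π ^ 2) ∈ S.Ov)
    (hG1 : ∀ f : F, f ≠ 0 → (∀ t ∈ H, t • f = f) →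
      ∃ c : K, (∀ t ∈ H, SemilinearAut.baseAut t c = c) ∧ S.red (f / algebraMap K F c) ≠ 0)
    (hval : ∀ c : K, c ≠ 0 → (∀ t ∈ H, SemilinearAut.baseAut t c = c) →
      ∃ n : ℤ, S.A.valuation c = S.A.valuation π ^ n) :
    RatStatement S H s π := by
  intro f hfH hfs hf hred
  rcases eq_or_ne f 0 with rfl | hf0
  · rw [zero_div]
    exact zero_mem _
  obtain ⟨n, c, hcH, hc, hcn⟩ := laOrd_exists (S := S) (π := π) hG1 hval hf0 hfH
  have hc0 : c ≠ 0 := by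
    intro h0
    exact S.ne_zero_of_red_ne_zero hc (by rw [h0, map_zero, div_zero])
  have hπF : algebraMap K F π ≠ 0 := rat_const_ne_zero hπ0
  have hcF : algebraMap K F c ≠ 0 := rat_const_ne_zero hc0
  have hvπ0 : 0 < S.A.valuation π := zero_lt_iff.mpr ((Valuation.ne_zero_iff _).mpr hπ0)
  -- Lemma A
  have hLA := lemmaA s H hπ0 hπ1 hπH hα₀ hsπ hA1 hG2 hfH hcH hc hcn
  rw [hfs, div_self hf0] at hLA
  have e1 : (1 - (1 + algebraMap K F ((n : K) * α₀ * π))) / algebraMap K F (π ^ 2) =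
      algebraMap K F (-((n : K) * α₀) / π) := by
    rw [map_div₀, map_neg, map_mul, map_mul, map_pow]
    field_simp
    ring
  rw [e1, S.mem_Ov_iff] at hLA
  have hvn : S.A.valuation (n : K) < 1 := by
    have h1 : S.A.valuation (-((n : K) * α₀) / π) ≤ 1 := (S.A.valuation_le_one_iff _).mpr hLA
    rw [map_div₀, Valuation.map_neg, map_mul, hα₀u, mul_one, div_le_one₀ hvπ0] at h1
    exact lt_of_le_of_lt h1 hπ1
  have hnA : (n : K) ∈ S.A := intCast_mem S.A n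
  have hnres : S.res ⟨(n : K), hnA⟩ = 0 := rat_res_eq_zero_of_val_lt hvn hnA
  have hnk : ((n : ℤ) : k) = 0 := by
    have e : (⟨(n : K), hnA⟩ : S.A) = ((n : ℤ) : S.A) := Subtype.ext (by simp)
    rw [e, map_intCast] at hnres
    exact hnres
  have hpn : (p : ℤ) ∣ n := (CharP.intCast_eq_zero_iff k p n).mp hnk
  -- `n ≥ 1`
  have hcinv : c⁻¹ ∉ S.A := by
    intro h
    apply hc
    have e : f / algebraMap K F c = c⁻¹ • f := by
      rw [Algebra.smul_def, map_inv₀, div_eq_inv_mul]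
    rw [e, S.red_smul h hf, hred, smul_zero]
  have hvc : S.A.valuation c < 1 := by
    by_contra hge
    apply hcinv
    rw [← S.A.valuation_le_one_iff, map_inv₀]
    have hv0 : 0 < S.A.valuation c := zero_lt_iff.mpr ((Valuation.ne_zero_iff _).mpr hc0)
    exact (inv_le_one₀ hv0).mpr (not_lt.mp hge)
  have hn1 : 0 < n := by
    rw [hcn] at hvc
    exact (zpow_lt_one_iff_right_of_lt_one₀ hvπ0 hπ1).mp hvc
  have hn2 : 2 ≤ n := by
    obtain ⟨j, hj⟩ := hpn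
    have hp2 : (2 : ℤ) ≤ p := by exact_mod_cast hp.two_le
    have hj1 : 1 ≤ j := by
      by_contra hlt
      have : j ≤ 0 := by omega
      have : (p : ℤ) * j ≤ 0 := mul_nonpos_of_nonneg_of_nonpos (by omega) this
      omega
    nlinarith
  -- conclusion
  have hcπ : c / π ^ 2 ∈ S.A := by
    rw [← S.A.valuation_le_one_iff, map_div₀, map_pow, hcn, ← zpow_natCast, ← zpow_sub₀
      (ne_of_gt hvπ0)]
    exact zpow_le_one₀ hvπ0 hπ1.le (by push_cast; omega)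
  have e2 : f / algebraMap K F (π ^ 2) = f / algebraMap K F c * algebraMap K F (c / π ^ 2) := by
    rw [map_div₀, map_pow]
    field_simp
  rw [e2]
  exact mul_mem (S.mem_of_red_ne_zero hc) (S.algebraMap_mem hcπ)

end Fermat.Agent.PeuD
end
end MergeWrap_Lib_BadRed_PeuD_RatLA

section MergeWrap_Lib_BadRed_PeuD_AbsWild -- from Lib/BadRed/PeuD/AbsWild.lean

set_option autoImplicit false
set_option linter.unusedSectionVars false
set_option linter.unusedVariables false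

noncomputable section

open AlgebraicCurve Fermat.Agent.RR Fermat.Agent.Deuring Fermat.Agent.BadRed Fermat.Agent.EKp

namespace Fermat.Agent.PeuD

section One

variable {K F k Fk : Type*} [Field K] [Field F] [Algebra K F]
  [Field k] [Field Fk] [Algebra k Fk] (S : ValSetup K F k Fk)

/-- a unit of `A` has nonzero residue. -/
theorem absw_res_ne_zero {c : K} (hcA : c ∈ S.A) (hc : S.A.valuation c = 1) :
    S.res ⟨c, hcA⟩ ≠ 0 := by
  intro h0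
  have hc0 : c ≠ 0 := by
    rintro rfl
    rw [map_zero] at hc
    exact zero_ne_one hc
  apply inv_notMem_of_res_eq_zero S hc0 hcA h0
  rw [← S.A.valuation_le_one_iff, map_inv₀, hc, inv_one]

/-- an automorphism preserving `Ov` and the reduction: its inverse preserves `Ov`. -/
theorem absw_inv_mem (t : SemilinearAut K F) (hmem : ∀ f : F, f ∈ S.Ov → t • f ∈ S.Ov)
    (hred : ∀ f : F, f ∈ S.Ov → S.red (t • f) = S.red f) {f : F} (hf : f ∈ S.Ov) :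
    t⁻¹ • f ∈ S.Ov := by
  by_contra hg
  set g : F := t⁻¹ • f with hgdef
  have hg0 : g ≠ 0 := fun h => hg (h ▸ S.Ov.zero_mem)
  have hginv : g⁻¹ ∈ S.Ov := (S.Ov.mem_or_inv_mem g).resolve_left hg
  have hginv0 : g⁻¹ ≠ 0 := inv_ne_zero hg0
  have hr0 : S.red g⁻¹ = 0 := by
    rw [S.red_eq_zero_iff hginv hginv0, inv_inv]
    exact hg
  have htg : t • g = f := by rw [hgdef, smul_inv_smul]
  have e : t • g⁻¹ = f⁻¹ := by
    rw [SemilinearAut.smul_def, map_inv₀, ← SemilinearAut.smul_def, htg]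
  have hf0 : f ≠ 0 := by
    rintro rfl
    apply hg0
    rw [hgdef, smul_zero]
  have h1 : f⁻¹ ∈ S.Ov := e ▸ hmem _ hginv
  have h2 : S.red f⁻¹ = 0 := by rw [← e, hred _ hginv, hr0]
  have h3 : S.red f ≠ 0 := S.red_ne_zero hf h1 hf0
  have h4 : S.red f * S.red f⁻¹ = 1 := by
    rw [← S.red_mul hf h1, mul_inv_cancel₀ hf0, S.red_one]
  rw [h2, mul_zero] at h4
  exact zero_ne_one h4

end One

section Two

variable {K F k Fk₁ Fk₂ : Type*} [Field K] [Field F] [Algebra K F]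
  [Field k] [Field Fk₁] [Algebra k Fk₁] [Field Fk₂] [Algebra k Fk₂] {ι : Type*}

/-- the inverse of an inertial automorphism is inertial. -/
theorem absw_isInertial_inv {N : NodalSetup K F k Fk₁ Fk₂ ι} {t : SemilinearAut K F}
    (ht : N.IsInertial t) : N.IsInertial t⁻¹ where
  mem₁ := fun f hf => absw_inv_mem N.S₁ t ht.mem₁ ht.red₁ hf
  red₁ := fun f hf => by
    have h := ht.red₁ (t⁻¹ • f) (absw_inv_mem N.S₁ t ht.mem₁ ht.red₁ hf)
    rw [smul_inv_smul] at h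
    exact h.symm
  mem₂ := fun f hf => absw_inv_mem N.S₂ t ht.mem₂ ht.red₂ hf
  red₂ := fun f hf => by
    have h := ht.red₂ (t⁻¹ • f) (absw_inv_mem N.S₂ t ht.mem₂ ht.red₂ hf)
    rw [smul_inv_smul] at h
    exact h.symm
  r_smul := fun P => by
    have h := ht.r_smul (t⁻¹ • P)
    rw [smul_inv_smul] at h
    exact h.symm

variable [Fintype ι] [Nonempty ι] [Infinite k]

/-- **ABS-WILD**: the slope congruence for an `H`-fixed class `x` of order `p` with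
`s x - x = c [Dl]`, in the wild case `v ϖ = v π ^ (p E')`, `p ∤ E'`, `p ∤ ε_i`. -/
theorem abs_wild_fix [PerfectField k] (N : NodalSeed K F k Fk₁ Fk₂ ι) (p : ℕ) [Fact p.Prime]
    [CharP k p] {u : F} {ϖ p0 : K} {e : ℕ} {z : F} {ε : ι → ℕ}
    (hcd : CoordData N u ϖ p0 e z)
    (hε₁ : ∀ i, (N.s₁ i).ord (N.S₁.red u) = ε i)
    (hε₂ : ∀ i, (N.s₂ i).ord (N.S₂.red (algebraMap K F ϖ * u⁻¹)) = ε i)
    (hεp : ∀ i, ¬ (p : ℤ) ∣ (ε i : ℤ))
    (H : Subgroup (SemilinearAut K F)) (s : SemilinearAut K F)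
    (hH : ∀ t ∈ H, N.nodalSetup.IsInertial t) (hs : N.nodalSetup.IsInertial s)
    (hsH : ∀ t ∈ H, s⁻¹ * t * s ∈ H)
    (hzH : ∀ t ∈ H, t • z = z)
    {π α₀ : K}
    (hπ0 : π ≠ 0) (hπ1 : N.S₁.A.valuation π < 1)
    (hπH : ∀ t ∈ H, SemilinearAut.baseAut t π = π)
    (hα₀u : N.S₁.A.valuation α₀ = 1)
    (hsπ : (SemilinearAut.baseAut s π - π * (1 + α₀ * π)) / π ^ 3 ∈ N.S₁.A)
    (hA1 : ∀ c : K, c ∈ N.S₁.A → (∀ t ∈ H, SemilinearAut.baseAut t c = c) →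
      (SemilinearAut.baseAut s c - c) / π ^ 2 ∈ N.S₁.A)
    (hval : ∀ c : K, c ≠ 0 → (∀ t ∈ H, SemilinearAut.baseAut t c = c) →
      ∃ n : ℤ, N.S₁.A.valuation c = N.S₁.A.valuation π ^ n)
    {E' : ℕ} (hE' : ¬ (p : ℤ) ∣ (E' : ℤ))
    (hϖπ : N.S₁.A.valuation ϖ = N.S₁.A.valuation π ^ (p * E'))
    (hG1₁ : ∀ f : F, f ≠ 0 → (∀ t ∈ H, t • f = f) →
      ∃ c : K, (∀ t ∈ H, SemilinearAut.baseAut t c = c) ∧ N.S₁.red (f / algebraMap K F c) ≠ 0)
    (hG1₂ : ∀ f : F, f ≠ 0 → (∀ t ∈ H, t • f = f) →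
      ∃ c : K, (∀ t ∈ H, SemilinearAut.baseAut t c = c) ∧ N.S₂.red (f / algebraMap K F c) ≠ 0)
    (hG2₁ : ∀ f : F, f ∈ N.S₁.Ov → (∀ t ∈ H, t • f = f) →
      (s • f - f) / algebraMap K F (π ^ 2) ∈ N.S₁.Ov)
    (hG2₂ : ∀ f : F, f ∈ N.S₂.Ov → (∀ t ∈ H, t • f = f) →
      (s • f - f) / algebraMap K F (π ^ 2) ∈ N.S₂.Ov)
    (hH90 : ∀ f : F, f ≠ 0 → (∀ t ∈ H, ∃ a : K, t • f = algebraMap K F a * f) →
      ∃ a : K, a ≠ 0 ∧ ∀ t ∈ H, t • (algebraMap K F a * f) = algebraMap K F a * f)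
    (hres : ∀ γ : k, ∃ (a : K) (ha : a ∈ N.S₁.A),
      (∀ t ∈ H, SemilinearAut.baseAut t a = a) ∧ N.S₁.res ⟨a, ha⟩ = γ)
    (hlift₁ : RatLift₁ N (insert s (H : Set (SemilinearAut K F))))
    (hlift₂ : RatLift₂ N (insert s (H : Set (SemilinearAut K F))))
    (oo : Place K F) (hoo : ∀ t ∈ H, t • oo = oo)
    (x : Pic0 K F) (hpx : p • x = 0) (hHx : ∀ t ∈ H, t • x = x)
    (Dl : Divisor.degZero (K := K) (F := F)) (hl : F) (hl0 : hl ≠ 0)
    (hdivl : ∀ P : Place K F, P.ord hl = p * (Dl : Divisor K F) P)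
    (hDlH : ∀ t ∈ H, t • (Dl : Divisor K F) = Dl) (hDls : s • (Dl : Divisor K F) = Dl)
    (hl₁ : N.S₁.red hl = 1) (hl₂ : N.S₂.red hl = 1)
    (hDlred : N.nodalSetup.RedTrivial (Dl : Divisor K F))
    (c : ℤ) (hsx : s • x - x = c • Pic0.mk Dl) :
    ∃ (D : Divisor.degZero (K := K) (F := F)) (g : F), Pic0.mk D = x ∧ g ≠ 0 ∧
      (∀ t ∈ H, t • (D : Divisor K F) = D) ∧ (∀ t ∈ H, t • g = g) ∧
      (∀ P : Place K F, P.ord g = p * (D : Divisor K F) P) ∧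
      ∀ c' : K, N.S₁.red (g / algebraMap K F c') ≠ 0 → ∀ i j : ι,
        (p : ℤ) ∣ (ε j : ℤ) * (N.s₁ i).ord (N.S₁.red (g / algebraMap K F c')) -
          (ε i : ℤ) * (N.s₁ j).ord (N.S₁.red (g / algebraMap K F c')) := by
  have hp : p.Prime := Fact.out
  have hϖ : ϖ ≠ 0 := hcd.ann.varpi_ne
  have hu₁ : N.S₁.red u ≠ 0 := hcd.ann.red₁_ne
  have hw₂ : N.S₂.red (algebraMap K F ϖ * u⁻¹) ≠ 0 := by
    rw [← div_eq_mul_inv]
    exact hcd.ann.red₂_ne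
  have hu : ∀ i, NoDivAtNode N i u := fun i P hP => hcd.ann.ord_N P hP.1
  have hAeq : N.S₂.A = N.S₁.A := N.A_eq.symm
  have hα₀ : α₀ ∈ N.S₁.A := (N.S₁.A.valuation_le_one_iff _).mp hα₀u.le
  have hπA : π ∈ N.S₁.A := (N.S₁.A.valuation_le_one_iff _).mp hπ1.le
  have hπres : N.S₁.res ⟨π, hπA⟩ = 0 := keyFo_res_pi N.S₁ hπA hπ1
  -- the strong shapes of (G1)
  have hG1₁' : ∀ f : F, f ≠ 0 → (∀ t ∈ H, t • f = f) →
      ∃ a : K, a ≠ 0 ∧ (∀ t ∈ H, SemilinearAut.baseAut t a = a) ∧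
        N.S₁.red (f / algebraMap K F a) ≠ 0 := fun f hf hfH => by
    obtain ⟨a, haH, hau⟩ := hG1₁ f hf hfH
    exact ⟨a, int_scale_ne N.S₁ hau, haH, hau⟩
  have hG1₂' : ∀ f : F, f ≠ 0 → (∀ t ∈ H, t • f = f) →
      ∃ a : K, a ≠ 0 ∧ (∀ t ∈ H, SemilinearAut.baseAut t a = a) ∧
        N.S₂.red (f / algebraMap K F a) ≠ 0 := fun f hf hfH => by
    obtain ⟨a, haH, hau⟩ := hG1₂ f hf hfH
    exact ⟨a, int_scale_ne N.S₂ hau, haH, hau⟩
  have hval' : ∀ c : K, (∀ t ∈ H, SemilinearAut.baseAut t c = c) → c ≠ 0 →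
      ∃ n : ℤ, N.S₁.A.valuation c = N.S₁.A.valuation π ^ n := fun c hcH hc0 => hval c hc0 hcH
  -- (DAT)
  obtain ⟨D, g, kf, κ₁, κ₂, hDx, hdat⟩ := exists_datM N.nodalSetup p H s hsH hs hH90 hG1₁' hG1₂'
    hres oo hoo x hpx hHx Dl hl hl0 hdivl hDlH hl₁ hl₂ c hsx
  -- (RAT) for both valuations
  have hRat₁ : RatStatement N.S₁ (H : Set (SemilinearAut K F)) s π :=
    ratStatement_of_lemmaA (S := N.S₁) p hp s (H : Set (SemilinearAut K F)) hπ0 hπ1 hπH hα₀ hα₀u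
      hsπ hA1 hG2₁ hG1₁ hval
  have hRat₂ : RatStatement N.S₂ (H : Set (SemilinearAut K F)) s π := by
    refine ratStatement_of_lemmaA (S := N.S₂) (α₀ := α₀) p hp s (H : Set (SemilinearAut K F))
      hπ0 ?_ hπH ?_ ?_ ?_ ?_ hG2₂ hG1₂ ?_
    · rw [hAeq]; exact hπ1
    · rw [hAeq]; exact hα₀
    · rw [hAeq]; exact hα₀u
    · rw [hAeq]; exact hsπ
    · rw [hAeq]; exact hA1
    · rw [hAeq]; exact hval
  -- (KEY) data
  obtain ⟨B₁, B₂, hkey⟩ := keyData_of_datM N hH hs hπA hπ0 hπres hval' hG1₁' hG1₂'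
    (ratG2Statement_of (S := N.S₁) hG2₁) hRat₁ (ratG2Statement_of (S := N.S₂) hG2₂) hRat₂ hdat
    hDlH hDls hDlred.2 hlift₁ hlift₂
  refine ⟨D, g, hDx, hdat.g_ne, hdat.D_fix, hdat.g_fix, hdat.ord_g, fun c' hc' i j => ?_⟩
  have hsinv : N.nodalSetup.IsInertial s⁻¹ := absw_isInertial_inv hs
  refine int_abs_wild N p hp hϖ hu₁ hw₂ hε₁ hε₂ hu hεp (H : Set (SemilinearAut K F)) s hπ0 hπ1
    hπH hα₀ (absw_res_ne_zero N.S₁ hα₀ hα₀u) hsπ hA1 hval hE' hϖπ hG1₁ hG1₂ hG2₁ hG2₂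
    (fun P i hP => isNodeOf_smul hsinv hP) (fun P => (D : Divisor K F) P) hdat.g_ne hdat.g_fix
    (fun P _ _ => hdat.ord_g P) (fun P i hP => hdat.ord_k_typeN hDlred.1 P hP.1) hkey
    (fun i => ?_) hc' i j
  obtain ⟨η, hη0, hηord, hηfix⟩ := hcd.exists_eta (D : Divisor K F) i
  refine ⟨1, η, ?_, hη0, fun t ht => hηfix t (hH t ht) (hzH t ht) (hdat.D_fix t ht),
    fun P hP => ?_⟩
  · rw [Nat.cast_one]
    intro h
    have h1 : (p : ℤ) = 1 ∨ (p : ℤ) = -1 := Int.isUnit_iff.mp (isUnit_of_dvd_one h)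
    have hp2 := hp.two_le
    omega
  · rw [hηord P hP, Nat.cast_one, one_mul]

/-- **ABS-WILD** in the shape of helper62's WIRING v1, par. 1. -/
theorem abs_wild [PerfectField k] (N : NodalSeed K F k Fk₁ Fk₂ ι) (p : ℕ) [Fact p.Prime]
    [CharP k p] {u : F} {ϖ p0 : K} {e : ℕ} {z : F} {ε : ι → ℕ}
    (hcd : CoordData N u ϖ p0 e z)
    (hε₁ : ∀ i, (N.s₁ i).ord (N.S₁.red u) = ε i)
    (hε₂ : ∀ i, (N.s₂ i).ord (N.S₂.red (algebraMap K F ϖ * u⁻¹)) = ε i)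
    (hεp : ∀ i, ¬ (p : ℤ) ∣ (ε i : ℤ))
    (H : Subgroup (SemilinearAut K F)) (s : SemilinearAut K F)
    (hH : ∀ t ∈ H, N.nodalSetup.IsInertial t) (hs : N.nodalSetup.IsInertial s)
    (hsH : ∀ t ∈ H, s⁻¹ * t * s ∈ H)
    (hzH : ∀ t ∈ H, t • z = z)
    {π α₀ : K}
    (hπ0 : π ≠ 0) (hπ1 : N.S₁.A.valuation π < 1)
    (hπH : ∀ t ∈ H, SemilinearAut.baseAut t π = π)
    (hα₀u : N.S₁.A.valuation α₀ = 1)
    (hsπ : (SemilinearAut.baseAut s π - π * (1 + α₀ * π)) / π ^ 3 ∈ N.S₁.A)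
    (hA1 : ∀ c : K, c ∈ N.S₁.A → (∀ t ∈ H, SemilinearAut.baseAut t c = c) →
      (SemilinearAut.baseAut s c - c) / π ^ 2 ∈ N.S₁.A)
    (hval : ∀ c : K, c ≠ 0 → (∀ t ∈ H, SemilinearAut.baseAut t c = c) →
      ∃ n : ℤ, N.S₁.A.valuation c = N.S₁.A.valuation π ^ n)
    {E' : ℕ} (hE' : ¬ (p : ℤ) ∣ (E' : ℤ))
    (hϖπ : N.S₁.A.valuation ϖ = N.S₁.A.valuation π ^ (p * E'))
    (hG1₁ : ∀ f : F, f ≠ 0 → (∀ t ∈ H, t • f = f) →
      ∃ c : K, (∀ t ∈ H, SemilinearAut.baseAut t c = c) ∧ N.S₁.red (f / algebraMap K F c) ≠ 0)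
    (hG1₂ : ∀ f : F, f ≠ 0 → (∀ t ∈ H, t • f = f) →
      ∃ c : K, (∀ t ∈ H, SemilinearAut.baseAut t c = c) ∧ N.S₂.red (f / algebraMap K F c) ≠ 0)
    (hG2₁ : ∀ f : F, f ∈ N.S₁.Ov → (∀ t ∈ H, t • f = f) →
      (s • f - f) / algebraMap K F (π ^ 2) ∈ N.S₁.Ov)
    (hG2₂ : ∀ f : F, f ∈ N.S₂.Ov → (∀ t ∈ H, t • f = f) →
      (s • f - f) / algebraMap K F (π ^ 2) ∈ N.S₂.Ov)
    (hH90 : ∀ f : F, f ≠ 0 → (∀ t ∈ H, ∃ a : K, t • f = algebraMap K F a * f) →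
      ∃ a : K, a ≠ 0 ∧ ∀ t ∈ H, t • (algebraMap K F a * f) = algebraMap K F a * f)
    (hres : ∀ γ : k, ∃ (a : K) (ha : a ∈ N.S₁.A),
      (∀ t ∈ H, SemilinearAut.baseAut t a = a) ∧ N.S₁.res ⟨a, ha⟩ = γ)
    (hlift₁ : RatLift₁ N (insert s (H : Set (SemilinearAut K F))))
    (hlift₂ : RatLift₂ N (insert s (H : Set (SemilinearAut K F))))
    (oo : Place K F) (hoo : ∀ t ∈ H, t • oo = oo)
    (x : Pic0 K F) (hpx : p • x = 0) (hHx : ∀ t ∈ H, t • x = x)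
    (Dl : Divisor.degZero (K := K) (F := F)) (hl : F) (hl0 : hl ≠ 0)
    (hdivl : ∀ P : Place K F, P.ord hl = p * (Dl : Divisor K F) P)
    (hDlH : ∀ t ∈ H, t • (Dl : Divisor K F) = Dl) (hDls : s • (Dl : Divisor K F) = Dl)
    (hl₁ : N.S₁.red hl = 1) (hl₂ : N.S₂.red hl = 1)
    (hDlred : N.nodalSetup.RedTrivial (Dl : Divisor K F))
    (c : ℤ) (hsx : s • x - x = c • Pic0.mk Dl) :
    ∃ (D : Divisor.degZero (K := K) (F := F)) (g : F), Pic0.mk D = x ∧ g ≠ 0 ∧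
      (∀ P : Place K F, P.ord g = p * (D : Divisor K F) P) ∧
      ∀ c' : K, N.S₁.red (g / algebraMap K F c') ≠ 0 → ∀ i j : ι,
        (p : ℤ) ∣ (ε j : ℤ) * (N.s₁ i).ord (N.S₁.red (g / algebraMap K F c')) -
          (ε i : ℤ) * (N.s₁ j).ord (N.S₁.red (g / algebraMap K F c')) := by
  obtain ⟨D, g, h1, h2, -, -, h3, h4⟩ := abs_wild_fix N p hcd hε₁ hε₂ hεp H s hH hs hsH hzH hπ0 hπ1 hπH hα₀u hsπ hA1 hval hE'
    hϖπ hG1₁ hG1₂ hG2₁ hG2₂ hH90 hres hlift₁ hlift₂ oo hoo x hpx hHx Dl hl hl0 hdivl hDlH hDls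
    hl₁ hl₂ hDlred c hsx
  exact ⟨D, g, h1, h2, h3, h4⟩

/-- **ABS-WILD** with the thickness exponents of the coordinate (`ε_i = e` for all `i`, by
`CoordData.eps_eq`): only the hypothesis on the second side and `p ∤ e` remain. -/
theorem abs_wild_e [PerfectField k] (N : NodalSeed K F k Fk₁ Fk₂ ι) (p : ℕ) [Fact p.Prime]
    [CharP k p] {u : F} {ϖ p0 : K} {e : ℕ} {z : F}
    (hcd : CoordData N u ϖ p0 e z)
    (hε₂ : ∀ i, (N.s₂ i).ord (N.S₂.red (algebraMap K F ϖ * u⁻¹)) = e)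
    (hep : ¬ (p : ℤ) ∣ (e : ℤ))
    (H : Subgroup (SemilinearAut K F)) (s : SemilinearAut K F)
    (hH : ∀ t ∈ H, N.nodalSetup.IsInertial t) (hs : N.nodalSetup.IsInertial s)
    (hsH : ∀ t ∈ H, s⁻¹ * t * s ∈ H)
    (hzH : ∀ t ∈ H, t • z = z)
    {π α₀ : K}
    (hπ0 : π ≠ 0) (hπ1 : N.S₁.A.valuation π < 1)
    (hπH : ∀ t ∈ H, SemilinearAut.baseAut t π = π)
    (hα₀u : N.S₁.A.valuation α₀ = 1)
    (hsπ : (SemilinearAut.baseAut s π - π * (1 + α₀ * π)) / π ^ 3 ∈ N.S₁.A)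
    (hA1 : ∀ c : K, c ∈ N.S₁.A → (∀ t ∈ H, SemilinearAut.baseAut t c = c) →
      (SemilinearAut.baseAut s c - c) / π ^ 2 ∈ N.S₁.A)
    (hval : ∀ c : K, c ≠ 0 → (∀ t ∈ H, SemilinearAut.baseAut t c = c) →
      ∃ n : ℤ, N.S₁.A.valuation c = N.S₁.A.valuation π ^ n)
    {E' : ℕ} (hE' : ¬ (p : ℤ) ∣ (E' : ℤ))
    (hϖπ : N.S₁.A.valuation ϖ = N.S₁.A.valuation π ^ (p * E'))
    (hG1₁ : ∀ f : F, f ≠ 0 → (∀ t ∈ H, t • f = f) →
      ∃ c : K, (∀ t ∈ H, SemilinearAut.baseAut t c = c) ∧ N.S₁.red (f / algebraMap K F c) ≠ 0)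
    (hG1₂ : ∀ f : F, f ≠ 0 → (∀ t ∈ H, t • f = f) →
      ∃ c : K, (∀ t ∈ H, SemilinearAut.baseAut t c = c) ∧ N.S₂.red (f / algebraMap K F c) ≠ 0)
    (hG2₁ : ∀ f : F, f ∈ N.S₁.Ov → (∀ t ∈ H, t • f = f) →
      (s • f - f) / algebraMap K F (π ^ 2) ∈ N.S₁.Ov)
    (hG2₂ : ∀ f : F, f ∈ N.S₂.Ov → (∀ t ∈ H, t • f = f) →
      (s • f - f) / algebraMap K F (π ^ 2) ∈ N.S₂.Ov)
    (hH90 : ∀ f : F, f ≠ 0 → (∀ t ∈ H, ∃ a : K, t • f = algebraMap K F a * f) →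
      ∃ a : K, a ≠ 0 ∧ ∀ t ∈ H, t • (algebraMap K F a * f) = algebraMap K F a * f)
    (hres : ∀ γ : k, ∃ (a : K) (ha : a ∈ N.S₁.A),
      (∀ t ∈ H, SemilinearAut.baseAut t a = a) ∧ N.S₁.res ⟨a, ha⟩ = γ)
    (hlift₁ : RatLift₁ N (insert s (H : Set (SemilinearAut K F))))
    (hlift₂ : RatLift₂ N (insert s (H : Set (SemilinearAut K F))))
    (oo : Place K F) (hoo : ∀ t ∈ H, t • oo = oo)
    (x : Pic0 K F) (hpx : p • x = 0) (hHx : ∀ t ∈ H, t • x = x)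
    (Dl : Divisor.degZero (K := K) (F := F)) (hl : F) (hl0 : hl ≠ 0)
    (hdivl : ∀ P : Place K F, P.ord hl = p * (Dl : Divisor K F) P)
    (hDlH : ∀ t ∈ H, t • (Dl : Divisor K F) = Dl) (hDls : s • (Dl : Divisor K F) = Dl)
    (hl₁ : N.S₁.red hl = 1) (hl₂ : N.S₂.red hl = 1)
    (hDlred : N.nodalSetup.RedTrivial (Dl : Divisor K F))
    (c : ℤ) (hsx : s • x - x = c • Pic0.mk Dl) :
    ∃ (D : Divisor.degZero (K := K) (F := F)) (g : F), Pic0.mk D = x ∧ g ≠ 0 ∧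
      (∀ t ∈ H, t • (D : Divisor K F) = D) ∧ (∀ t ∈ H, t • g = g) ∧
      (∀ P : Place K F, P.ord g = p * (D : Divisor K F) P) ∧
      ∀ c' : K, N.S₁.red (g / algebraMap K F c') ≠ 0 → ∀ i j : ι,
        (p : ℤ) ∣ (e : ℤ) * (N.s₁ i).ord (N.S₁.red (g / algebraMap K F c')) -
          (e : ℤ) * (N.s₁ j).ord (N.S₁.red (g / algebraMap K F c')) :=
  abs_wild_fix N p hcd (ε := fun _ => e) (fun i => hcd.eps_eq i) hε₂ (fun _ => hep) H s hH hs hsH hzH hπ0 hπ1 hπH hα₀u hsπ hA1 hval hE'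
    hϖπ hG1₁ hG1₂ hG2₁ hG2₂ hH90 hres hlift₁ hlift₂ oo hoo x hpx hHx Dl hl hl0 hdivl hDlH hDls
    hl₁ hl₂ hDlred c hsx

end Two

end Fermat.Agent.PeuD
end
end MergeWrap_Lib_BadRed_PeuD_AbsWild
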