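import Mathlib
import Fermat.Agent.Lib.GaussInt.Echelon
import Fermat.Agent.Lib.GaussInt.ValGroup
import Fermat.Agent.MU.Lib.BadRed.Bridge.Assembly
import Fermat.Agent.MU.Lib.BadRed.Mod.GaloisSemi
import Fermat.Agent.MU.Lib.FFL.FB.FieldTeich

section MergeWrap_Lib_BadRed_PeuD_GaussFix -- from Lib/BadRed/PeuD/GaussFix.lean

set_option autoImplicit false
set_option linter.unusedSectionVars false
set_option linter.unusedVariables false

noncomputable section

namespace Fermat.Agent.PeuD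

open ModularCurve HahnSeries Fermat.Agent.GaussInt

variable {K : Type*} [Field K] {A : ValuationSubring K}

section Semilinear

theorem gf_coeffMap_smul (σ : K →+* K) (c : K) (x : LaurentSeries K) :
    coeffMap σ (c • x) = σ c • coeffMap σ x := by
  ext n
  simp

theorem gf_coeff_fixed {σ : K →+* K} {x : LaurentSeries K} (h : coeffMap σ x = x) (n : ℤ) :
    σ (x.coeff n) = x.coeff n := by
  have := congrArg (fun z => z.coeff n) h
  simpa using this

end Semilinear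

section Echelon

/-- every element of the span of an echelon family is the combination of the family with its
pivot coefficients. -/
theorem gf_eq_sum_of_mem_span {V : Submodule K (LaurentSeries K)} {s : Finset ℤ}
    {p : ℤ → LaurentSeries K} (h : IsEchelon A V s p) {v : LaurentSeries K}
    (hv : v ∈ Submodule.span K (p '' (s : Set ℤ))) : v = ∑ m ∈ s, v.coeff m • p m := by
  classical
  induction hv using Submodule.span_induction with
  | mem x hx =>
    obtain ⟨n, hn, rfl⟩ := hx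
    have hn' : n ∈ s := hn
    have e : ∀ m ∈ s, (p n).coeff m • p m = if m = n then p n else 0 := by
      intro m hm
      rw [h.pivot n hn' m hm]
      split_ifs with hmn
      · rw [hmn, one_smul]
      · rw [zero_smul]
    rw [Finset.sum_congr rfl e, Finset.sum_ite_eq' s n, if_pos hn']
  | zero => simp
  | add x y _ _ hx hy =>
    conv_lhs => rw [hx, hy]
    rw [← Finset.sum_add_distrib]
    refine Finset.sum_congr rfl fun m _ => ?_
    rw [HahnSeries.coeff_add, add_smul]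
  | smul c x _ hx =>
    conv_lhs => rw [hx]
    rw [Finset.smul_sum]
    refine Finset.sum_congr rfl fun m _ => ?_
    rw [HahnSeries.coeff_smul, smul_eq_mul, mul_smul]

/-- **the echelon basis of a stable subspace is fixed.** -/
theorem gf_echelon_fixed {V : Submodule K (LaurentSeries K)} {s : Finset ℤ}
    {p : ℤ → LaurentSeries K} (h : IsEchelon A V s p)
    (hspan : Submodule.span K (p '' (s : Set ℤ)) = V) (σ : K →+* K)
    (hσ : ∀ x ∈ V, coeffMap σ x ∈ V) {n : ℤ} (hn : n ∈ s) : coeffMap σ (p n) = p n := by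
  classical
  have h1 : coeffMap σ (p n) ∈ Submodule.span K (p '' (s : Set ℤ)) := by
    rw [hspan]
    exact hσ _ (h.mem n hn)
  have h2 := gf_eq_sum_of_mem_span h h1
  have e : ∀ m ∈ s, (coeffMap σ (p n)).coeff m • p m = if m = n then p n else 0 := by
    intro m hm
    rw [coeffMap_coeff, h.pivot n hn m hm]
    split_ifs with hmn
    · rw [hmn, map_one, one_smul]
    · rw [map_zero, zero_smul]
  rw [Finset.sum_congr rfl e, Finset.sum_ite_eq' s n, if_pos hn] at h2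
  exact h2

end Echelon

section Frac

variable [Algebra ℚ K] {F₀ : IntermediateField ℚ (LaurentSeries ℚ)}

/-- the generators of the integral span are fixed by every automorphism. -/
theorem gf_span_stable (σ : K ≃ₐ[ℚ] K) {T : Set (LaurentSeries K)}
    (hT : T ⊆ coeffEmb K '' {g | g ∈ F₀ ∧ IsIntQ A g}) {x : LaurentSeries K}
    (hx : x ∈ Submodule.span K T) : coeffMap (σ : K →+* K) x ∈ Submodule.span K T := by
  induction hx using Submodule.span_induction with
  | mem y hy =>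
    obtain ⟨g, -, rfl⟩ := hT hy
    rw [coeffMap_coeffEmb]
    exact Submodule.subset_span hy
  | zero =>
    rw [map_zero]
    exact zero_mem _
  | add y z _ _ hy hz =>
    rw [map_add]
    exact add_mem hy hz
  | smul c y _ hy =>
    rw [gf_coeffMap_smul]
    exact Submodule.smul_mem _ _ hy

theorem gf_span_le_intSpan {T : Set (LaurentSeries K)}
    (hT : T ⊆ coeffEmb K '' {g | g ∈ F₀ ∧ IsIntQ A g}) :
    Submodule.span K T ≤ intSpan A F₀ :=
  Submodule.span_mono hT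

/-- **rational presentations**: a `Γ`-fixed element of `F` is `P / Q` with `Γ`-fixed `P, Q` in
the integral span, `Q` integral with a coefficient `1`. -/
theorem gf_exists_fixed_frac {ℓ : ℕ} (hℓ : ℓ.Prime) (hA : A.LiesOverPrime ℓ)
    (hF₀ : IsIntGen A F₀) (Γ : Set (K ≃ₐ[ℚ] K)) {f : LaurentSeries K}
    (hf : f ∈ laurentBaseChange K F₀)
    (hfix : ∀ σ ∈ Γ, coeffMap ((σ : K ≃ₐ[ℚ] K) : K →+* K) f = f) :
    ∃ (Q P : LaurentSeries K) (n₀ : ℤ), Q ∈ intSpan A F₀ ∧ P ∈ intSpan A F₀ ∧ f * Q = P ∧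
      (∀ m, Q.coeff m ∈ A) ∧ Q.coeff n₀ = 1 ∧
      (∀ σ ∈ Γ, coeffMap ((σ : K ≃ₐ[ℚ] K) : K →+* K) Q = Q) ∧
      (∀ σ ∈ Γ, coeffMap ((σ : K ≃ₐ[ℚ] K) : K →+* K) P = P) := by
  classical
  obtain ⟨P, Q, hP, hQ, hQ0, hPQ⟩ := exists_frac_of_mem hF₀ hf
  obtain ⟨TP, hTP, hPT⟩ := Submodule.mem_span_finite_of_mem_span hP
  obtain ⟨TQ, hTQ, hQT⟩ := Submodule.mem_span_finite_of_mem_span hQ
  set V : Submodule K (LaurentSeries K) := Submodule.span K (TQ : Set (LaurentSeries K)) with hV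
  set V' : Submodule K (LaurentSeries K) := Submodule.span K (TP : Set (LaurentSeries K)) with hV'
  let W : Submodule K (LaurentSeries K) :=
    { carrier := {x | x ∈ V ∧ f * x ∈ V'}
      zero_mem' := ⟨zero_mem _, by rw [mul_zero]; exact zero_mem _⟩
      add_mem' := fun {x y} hx hy => ⟨add_mem hx.1 hy.1, by
        rw [mul_add]; exact add_mem hx.2 hy.2⟩
      smul_mem' := fun c x hx => ⟨Submodule.smul_mem _ c hx.1, by
        have e : f * (c • x) = c • (f * x) := by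
          rw [← algebraMap_mul_eq_smul, ← algebraMap_mul_eq_smul]
          ring
        rw [e]
        exact Submodule.smul_mem _ c hx.2⟩ }
  have hWmem : ∀ x, x ∈ W ↔ x ∈ V ∧ f * x ∈ V' := fun x => Iff.rfl
  have hWV : W ≤ V := fun x hx => hx.1
  have hQW : Q ∈ W := (hWmem Q).mpr ⟨hQT, by rw [hPQ]; exact hPT⟩
  have : FiniteDimensional K V := FiniteDimensional.span_finset K TQ
  have : FiniteDimensional K W := Submodule.finiteDimensional_of_le hWV
  have hWfg : W.FG := Module.Finite.iff_fg.mp inferInstance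
  have hWtame : ∀ x ∈ W, IsTame A x := fun x hx =>
    isTame_of_mem_intSpan hℓ hA (gf_span_le_intSpan hTQ ((hWmem x).mp hx).1)
  obtain ⟨s, p, hech, hspan⟩ := exists_echelon hWfg hWtame
  have hs : s.Nonempty := by
    by_contra hne
    rw [Finset.not_nonempty_iff_eq_empty] at hne
    rw [hne, Finset.coe_empty, Set.image_empty, Submodule.span_empty] at hspan
    rw [← hspan, Submodule.mem_bot] at hQW
    exact hQ0 hQW
  obtain ⟨n₀, hn₀⟩ := hs
  have hstable : ∀ σ ∈ Γ, ∀ x ∈ W, coeffMap ((σ : K ≃ₐ[ℚ] K) : K →+* K) x ∈ W := by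
    intro σ hσ x hx
    obtain ⟨hx1, hx2⟩ := (hWmem x).mp hx
    refine (hWmem _).mpr ⟨gf_span_stable σ hTQ hx1, ?_⟩
    have := gf_span_stable σ hTP hx2
    rwa [map_mul, hfix σ hσ] at this
  have hpW := (hWmem (p n₀)).mp (hech.mem n₀ hn₀)
  have hQfix : ∀ σ ∈ Γ, coeffMap ((σ : K ≃ₐ[ℚ] K) : K →+* K) (p n₀) = p n₀ := fun σ hσ =>
    gf_echelon_fixed hech hspan _ (hstable σ hσ) hn₀
  refine ⟨p n₀, f * p n₀, n₀, gf_span_le_intSpan hTQ hpW.1, gf_span_le_intSpan hTP hpW.2, rfl,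
    hech.int n₀ hn₀, ?_, hQfix, ?_⟩
  · rw [hech.pivot n₀ hn₀ n₀ hn₀, if_pos rfl]
  · intro σ hσ
    rw [map_mul, hfix σ hσ, hQfix σ hσ]

end Frac

section Gauss

variable [Algebra ℚ K] {F₀ : IntermediateField ℚ (LaurentSeries ℚ)}

/-- an integral series with a coefficient `1` is primitive. -/
theorem gf_red_ne_zero {P : LaurentSeries K} (h : ∀ n, P.coeff n ∈ A) {n : ℤ}
    (hn : P.coeff n = 1) : red A (liftA A P h) ≠ 0 := by
  intro h0
  have h1 := congrArg (fun z => z.coeff n) h0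
  simp only [red_coeff, HahnSeries.coeff_zero] at h1
  have h2 : (liftA A P h).coeff n = 1 := by
    apply Subtype.ext
    rw [liftA_coeff, hn]
    rfl
  rw [h2, map_one] at h1
  exact one_ne_zero h1

/-- an integral series of `F` with a coefficient `1` is a unit of the Gauss ring. -/
theorem gf_unit_of_coeff_one {P : LaurentSeries K} (hPF : P ∈ laurentBaseChange K F₀)
    (h : ∀ n, P.coeff n ∈ A) {n : ℤ} (hn : P.coeff n = 1) :
    P ∈ gaussSub A (laurentBaseChange K F₀) ∧ P⁻¹ ∈ gaussSub A (laurentBaseChange K F₀) ∧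
      gaussResFun A (laurentBaseChange K F₀) P ≠ 0 := by
  have hemb : emb A (liftA A P h) = P := emb_liftA A P h
  have hmem : emb A (liftA A P h) ∈ laurentBaseChange K F₀ := by rw [hemb]; exact hPF
  have h1 := emb_mem_gaussSub (A := A) hmem
  have h2 := gaussResFun_emb (A := A) hmem
  rw [hemb] at h1 h2
  have h3 : gaussResFun A (laurentBaseChange K F₀) P ≠ 0 := by
    rw [h2]
    exact gf_red_ne_zero h hn
  exact ⟨h1, inv_mem_gaussSub h1 h3, h3⟩

/-- integral series of `F` lie in the Gauss ring. -/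
theorem gf_mem_of_int {P : LaurentSeries K} (hPF : P ∈ laurentBaseChange K F₀)
    (h : ∀ n, P.coeff n ∈ A) : P ∈ gaussSub A (laurentBaseChange K F₀) := by
  have hemb : emb A (liftA A P h) = P := emb_liftA A P h
  have hmem : emb A (liftA A P h) ∈ laurentBaseChange K F₀ := by rw [hemb]; exact hPF
  have h1 := emb_mem_gaussSub (A := A) hmem
  rwa [hemb] at h1

/-- normalising a tame series by its maximal coefficient. -/
theorem gf_normalise {P : LaurentSeries K} {n₁ : ℤ} (hn₁ : P.coeff n₁ ≠ 0)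
    (hmax : ∀ n, A.valuation (P.coeff n) ≤ A.valuation (P.coeff n₁)) :
    (∀ n, ((P.coeff n₁)⁻¹ • P).coeff n ∈ A) ∧ ((P.coeff n₁)⁻¹ • P).coeff n₁ = 1 := by
  constructor
  · intro n
    rw [HahnSeries.coeff_smul, smul_eq_mul, ← A.valuation_le_one_iff, map_mul, map_inv₀]
    have hne : A.valuation (P.coeff n₁) ≠ 0 := (Valuation.ne_zero_iff _).mpr hn₁
    rw [inv_mul_le_iff₀ (zero_lt_iff.mpr hne), mul_one]
    exact hmax n
  · rw [HahnSeries.coeff_smul, smul_eq_mul, inv_mul_cancel₀ hn₁]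

/-- **(G1)**: a `Γ`-fixed element of `F` is a `Γ`-fixed constant times a unit of the Gauss
ring. -/
theorem gf_scale {ℓ : ℕ} (hℓ : ℓ.Prime) (hA : A.LiesOverPrime ℓ) (hF₀ : IsIntGen A F₀)
    (Γ : Set (K ≃ₐ[ℚ] K)) {f : LaurentSeries K} (hf : f ∈ laurentBaseChange K F₀)
    (hf0 : f ≠ 0) (hfix : ∀ σ ∈ Γ, coeffMap ((σ : K ≃ₐ[ℚ] K) : K →+* K) f = f) :
    ∃ c : K, c ≠ 0 ∧ (∀ σ ∈ Γ, σ c = c) ∧
      algebraMap K (LaurentSeries K) c⁻¹ * f ∈ gaussSub A (laurentBaseChange K F₀) ∧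
      (algebraMap K (LaurentSeries K) c⁻¹ * f)⁻¹ ∈ gaussSub A (laurentBaseChange K F₀) ∧
      gaussResFun A (laurentBaseChange K F₀) (algebraMap K (LaurentSeries K) c⁻¹ * f) ≠ 0 := by
  obtain ⟨Q, P, n₀, hQ, hP, hfQ, hQint, hQ1, hQfix, hPfix⟩ :=
    gf_exists_fixed_frac hℓ hA hF₀ Γ hf hfix
  have hQ0 : Q ≠ 0 := by
    rintro rfl
    rw [HahnSeries.coeff_zero] at hQ1
    exact zero_ne_one hQ1
  have hP0 : P ≠ 0 := by
    rw [← hfQ]
    exact mul_ne_zero hf0 hQ0
  rcases isTame_of_mem_intSpan hℓ hA hP with h0 | ⟨n₁, hn₁, hmax⟩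
  · exact absurd h0 hP0
  obtain ⟨hint, hone⟩ := gf_normalise hn₁ hmax
  have hQu := gf_unit_of_coeff_one (intSpan_le F₀ hQ) hQint hQ1
  have hPu := gf_unit_of_coeff_one (intSpan_le F₀ (Submodule.smul_mem _ (P.coeff n₁)⁻¹ hP))
    hint hone
  have e : algebraMap K (LaurentSeries K) (P.coeff n₁)⁻¹ * f = ((P.coeff n₁)⁻¹ • P) * Q⁻¹ := by
    rw [← hfQ, ← algebraMap_mul_eq_smul]
    field_simp
  have hmem : algebraMap K (LaurentSeries K) (P.coeff n₁)⁻¹ * f ∈
      gaussSub A (laurentBaseChange K F₀) := by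
    rw [e]
    exact mul_mem hPu.1 hQu.2.1
  have hinv : (algebraMap K (LaurentSeries K) (P.coeff n₁)⁻¹ * f)⁻¹ ∈
      gaussSub A (laurentBaseChange K F₀) := by
    rw [e, mul_inv, inv_inv]
    exact mul_mem hPu.2.1 hQu.1
  refine ⟨P.coeff n₁, hn₁, fun σ hσ => ?_, hmem, hinv, ?_⟩
  · exact gf_coeff_fixed (hPfix σ hσ) n₁
  · intro h0
    have hx0 : algebraMap K (LaurentSeries K) (P.coeff n₁)⁻¹ * f ≠ 0 :=
      mul_ne_zero (by simpa using hn₁) hf0
    have h1 : gaussRes A (laurentBaseChange K F₀) (⟨_, hmem⟩ * ⟨_, hinv⟩) = 1 := by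
      have : (⟨_, hmem⟩ * ⟨_, hinv⟩ : gaussSub A (laurentBaseChange K F₀)) = 1 :=
        Subtype.ext (mul_inv_cancel₀ hx0)
      rw [this, map_one]
    rw [map_mul] at h1
    have h2 : gaussRes A (laurentBaseChange K F₀) ⟨_, hmem⟩ = 0 := h0
    rw [h2, zero_mul] at h1
    exact zero_ne_one h1

/-- **(G2)**: the depth of `s` on the `Γ`-fixed constants passes to the `Γ`-fixed elements of the
Gauss ring. -/
theorem gf_depth {ℓ : ℕ} (hℓ : ℓ.Prime) (hA : A.LiesOverPrime ℓ) (hF₀ : IsIntGen A F₀)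
    (Γ : Set (K ≃ₐ[ℚ] K)) (s : K ≃ₐ[ℚ] K) (hsA : ∀ a ∈ A, s a ∈ A) (d : K)
    (hA1 : ∀ c ∈ A, (∀ σ ∈ Γ, σ c = c) → d * (s c - c) ∈ A)
    {f : LaurentSeries K} (hf : f ∈ gaussSub A (laurentBaseChange K F₀))
    (hfix : ∀ σ ∈ Γ, coeffMap ((σ : K ≃ₐ[ℚ] K) : K →+* K) f = f) :
    algebraMap K (LaurentSeries K) d * (coeffMap ((s : K ≃ₐ[ℚ] K) : K →+* K) f - f) ∈
      gaussSub A (laurentBaseChange K F₀) := by
  by_cases hf0 : f = 0
  · rw [hf0, map_zero, sub_zero, mul_zero]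
    exact zero_mem _
  have hfF := mem_of_mem_gaussSub hf
  obtain ⟨Q, P, n₀, hQ, hP, hfQ, hQint, hQ1, hQfix, hPfix⟩ :=
    gf_exists_fixed_frac hℓ hA hF₀ Γ hfF hfix
  have hQ0 : Q ≠ 0 := by
    rintro rfl
    rw [HahnSeries.coeff_zero] at hQ1
    exact zero_ne_one hQ1
  have hP0 : P ≠ 0 := by
    rw [← hfQ]
    exact mul_ne_zero hf0 hQ0
  have hQF := intSpan_le F₀ hQ
  have hPF := intSpan_le F₀ hP
  have hQu := gf_unit_of_coeff_one hQF hQint hQ1
  -- `P` is integral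
  have hPint : ∀ n, P.coeff n ∈ A := by
    rcases isTame_of_mem_intSpan hℓ hA hP with h0 | ⟨n₁, hn₁, hmax⟩
    · exact absurd h0 hP0
    obtain ⟨hint, hone⟩ := gf_normalise hn₁ hmax
    have hPu := gf_unit_of_coeff_one (intSpan_le F₀ (Submodule.smul_mem _ (P.coeff n₁)⁻¹ hP))
      hint hone
    have hPg : P ∈ gaussSub A (laurentBaseChange K F₀) := by
      rw [← hfQ]
      exact mul_mem hf hQu.1
    have hc : algebraMap K (LaurentSeries K) (P.coeff n₁) ∈
        gaussSub A (laurentBaseChange K F₀) := by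
      have e : algebraMap K (LaurentSeries K) (P.coeff n₁) = P * ((P.coeff n₁)⁻¹ • P)⁻¹ := by
        rw [← algebraMap_mul_eq_smul, mul_inv, map_inv₀, inv_inv]
        field_simp
      rw [e]
      exact mul_mem hPg hPu.2.1
    have hcA : P.coeff n₁ ∈ A := algebraMap_mem_gaussSub_iff.mp hc
    intro n
    rw [← A.valuation_le_one_iff]
    exact (hmax n).trans ((A.valuation_le_one_iff _).mpr hcA)
  -- the two difference quotients
  have hdiff : ∀ X : LaurentSeries K, X ∈ laurentBaseChange K F₀ → (∀ n, X.coeff n ∈ A) →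
      (∀ σ ∈ Γ, coeffMap ((σ : K ≃ₐ[ℚ] K) : K →+* K) X = X) →
      algebraMap K (LaurentSeries K) d * (coeffMap ((s : K ≃ₐ[ℚ] K) : K →+* K) X - X) ∈
        gaussSub A (laurentBaseChange K F₀) := by
    intro X hXF hXint hXfix
    apply gf_mem_of_int
    · exact mul_mem ((laurentBaseChange K F₀).algebraMap_mem _)
        (sub_mem (coeffMap_mem_laurentBaseChange s hXF) hXF)
    · intro n
      rw [algebraMap_mul_eq_smul, HahnSeries.coeff_smul, smul_eq_mul, HahnSeries.coeff_sub,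
        coeffMap_coeff]
      exact hA1 _ (hXint n) fun σ hσ => gf_coeff_fixed (hXfix σ hσ) n
  have hDP := hdiff P hPF hPint hPfix
  have hDQ := hdiff Q hQF hQint hQfix
  -- `s Q` is a unit
  have hsQF : coeffMap ((s : K ≃ₐ[ℚ] K) : K →+* K) Q ∈ laurentBaseChange K F₀ :=
    coeffMap_mem_laurentBaseChange s hQF
  have hsQu := gf_unit_of_coeff_one (A := A) hsQF
    (fun n => by rw [coeffMap_coeff]; exact hsA _ (hQint n))
    (n := n₀) (by rw [coeffMap_coeff, hQ1]; exact map_one _)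
  have hsQ0 : coeffMap ((s : K ≃ₐ[ℚ] K) : K →+* K) Q ≠ 0 := by
    intro h0
    have := congrArg (fun z => z.coeff n₀) h0
    simp only [coeffMap_coeff, hQ1, HahnSeries.coeff_zero] at this
    rw [show ((s : K ≃ₐ[ℚ] K) : K →+* K) 1 = 1 from map_one _] at this
    exact one_ne_zero this
  have hPg : P ∈ gaussSub A (laurentBaseChange K F₀) := gf_mem_of_int hPF hPint
  have hsfQ : coeffMap ((s : K ≃ₐ[ℚ] K) : K →+* K) f *
      coeffMap ((s : K ≃ₐ[ℚ] K) : K →+* K) Q = coeffMap ((s : K ≃ₐ[ℚ] K) : K →+* K) P := by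
    rw [← map_mul, hfQ]
  have key : algebraMap K (LaurentSeries K) d *
      (coeffMap ((s : K ≃ₐ[ℚ] K) : K →+* K) f - f) =
      (algebraMap K (LaurentSeries K) d * (coeffMap ((s : K ≃ₐ[ℚ] K) : K →+* K) P - P) * Q -
        P * (algebraMap K (LaurentSeries K) d *
          (coeffMap ((s : K ≃ₐ[ℚ] K) : K →+* K) Q - Q))) *
        (Q⁻¹ * (coeffMap ((s : K ≃ₐ[ℚ] K) : K →+* K) Q)⁻¹) := by
    rw [← hsfQ, ← hfQ]
    field_simp
    ring
  rw [key]
  exact mul_mem (sub_mem (mul_mem hDP hQu.1) (mul_mem hPg hDQ)) (mul_mem hQu.2.1 hsQu.2.1)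

end Gauss

end Fermat.Agent.PeuD
end
end MergeWrap_Lib_BadRed_PeuD_GaussFix

section MergeWrap_Lib_BadRed_PeuD_GaussLift -- from Lib/BadRed/PeuD/GaussLift.lean

set_option autoImplicit false
set_option linter.unusedSectionVars false
set_option linter.unusedVariables false

noncomputable section

namespace Fermat.Agent.PeuD

open ModularCurve HahnSeries Fermat.Agent.GaussInt

variable {K : Type*} [Field K] {A : ValuationSubring K}

section Residue

/-- two integral series which are congruent coefficientwise have the same reduction. -/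
theorem gf_red_eq_of_congr {X Y : LaurentSeries K} (hX : ∀ n, X.coeff n ∈ A)
    (hY : ∀ n, Y.coeff n ∈ A) (h : ∀ n, A.valuation (X.coeff n - Y.coeff n) < 1) :
    red A (liftA A X hX) = red A (liftA A Y hY) := by
  ext n
  rw [red_coeff, red_coeff]
  rw [← sub_eq_zero, ← map_sub, IsLocalRing.residue_eq_zero_iff, A.valuation_lt_one_iff]
  exact h n

end Residue

section Lift

variable [Algebra ℚ K] {F₀ : IntermediateField ℚ (LaurentSeries ℚ)}

/-- **approximation by fixed series**: an integral element of a finitely generated subspace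
spanned by integral rational series is congruent, coefficientwise, to a `Γ`-fixed integral
element of the same subspace. -/
theorem gf_exists_fixed_congr {ℓ : ℕ} (hℓ : ℓ.Prime) (hA : A.LiesOverPrime ℓ)
    (Γ : Set (K ≃ₐ[ℚ] K))
    (hT : ∀ x ∈ A, ∃ t ∈ A, (∀ σ ∈ Γ, σ t = t) ∧ A.valuation (x - t) < 1)
    (T : Finset (LaurentSeries K))
    (hTS : (T : Set (LaurentSeries K)) ⊆ coeffEmb K '' {g | g ∈ F₀ ∧ IsIntQ A g})
    {X : LaurentSeries K} (hXV : X ∈ Submodule.span K (T : Set (LaurentSeries K)))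
    (hXint : ∀ n, X.coeff n ∈ A) :
    ∃ X' : LaurentSeries K, X' ∈ Submodule.span K (T : Set (LaurentSeries K)) ∧
      (∀ n, X'.coeff n ∈ A) ∧ (∀ σ ∈ Γ, coeffMap ((σ : K ≃ₐ[ℚ] K) : K →+* K) X' = X') ∧
      ∀ n, A.valuation (X.coeff n - X'.coeff n) < 1 := by
  classical
  set V : Submodule K (LaurentSeries K) := Submodule.span K (T : Set (LaurentSeries K)) with hV
  have hVfg : V.FG := Submodule.fg_span T.finite_toSet
  have hVtame : ∀ x ∈ V, IsTame A x := fun x hx =>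
    isTame_of_mem_intSpan hℓ hA (gf_span_le_intSpan hTS hx)
  obtain ⟨s, p, hech, hspan⟩ := exists_echelon hVfg hVtame
  have hpfix : ∀ σ : K ≃ₐ[ℚ] K, ∀ m ∈ s, coeffMap ((σ : K ≃ₐ[ℚ] K) : K →+* K) (p m) = p m :=
    fun σ m hm => gf_echelon_fixed hech hspan _ (fun x hx => gf_span_stable σ hTS hx) hm
  choose t htA htfix htcong using fun m : ℤ => hT (X.coeff m) (hXint m)
  have hXsum : X = ∑ m ∈ s, X.coeff m • p m :=
    gf_eq_sum_of_mem_span hech (by rw [hspan]; exact hXV)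
  refine ⟨∑ m ∈ s, t m • p m, ?_, ?_, ?_, ?_⟩
  · exact Submodule.sum_mem _ fun m hm => Submodule.smul_mem _ _ (hech.mem m hm)
  · intro n
    rw [HahnSeries.coeff_sum]
    refine sum_mem fun m hm => ?_
    rw [HahnSeries.coeff_smul, smul_eq_mul]
    exact mul_mem (htA m) (hech.int m hm n)
  · intro σ hσ
    rw [map_sum]
    refine Finset.sum_congr rfl fun m hm => ?_
    rw [gf_coeffMap_smul, hpfix σ m hm]
    congr 1
    exact htfix m σ hσ
  · intro n
    have e : X.coeff n - (∑ m ∈ s, t m • p m).coeff n =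
        ∑ m ∈ s, (X.coeff m - t m) * (p m).coeff n := by
      conv_lhs => rw [hXsum]
      rw [HahnSeries.coeff_sum, HahnSeries.coeff_sum, ← Finset.sum_sub_distrib]
      refine Finset.sum_congr rfl fun m _ => ?_
      rw [HahnSeries.coeff_smul, HahnSeries.coeff_smul, smul_eq_mul, smul_eq_mul]
      ring
    rw [e]
    refine Valuation.map_sum_lt _ one_ne_zero fun m hm => ?_
    rw [map_mul]
    calc A.valuation (X.coeff m - t m) * A.valuation ((p m).coeff n)
        ≤ A.valuation (X.coeff m - t m) * 1 :=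
          mul_le_mul' le_rfl ((A.valuation_le_one_iff _).mpr (hech.int m hm n))
      _ < 1 := by rw [mul_one]; exact htcong m

/-- an integral element of the integral span lies in a finitely generated subspace spanned by
integral rational series. -/
theorem gf_exists_finset {X : LaurentSeries K} (hX : X ∈ intSpan A F₀) :
    ∃ T : Finset (LaurentSeries K),
      (T : Set (LaurentSeries K)) ⊆ coeffEmb K '' {g | g ∈ F₀ ∧ IsIntQ A g} ∧
      X ∈ Submodule.span K (T : Set (LaurentSeries K)) :=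
  Submodule.mem_span_finite_of_mem_span hX

/-- **(RES), abstract**: every residue class of the Gauss ring contains a `Γ`-fixed element. -/
theorem gf_lift {ℓ : ℕ} (hℓ : ℓ.Prime) (hA : A.LiesOverPrime ℓ) (hF₀ : IsIntGen A F₀)
    (Γ : Set (K ≃ₐ[ℚ] K))
    (hT : ∀ x ∈ A, ∃ t ∈ A, (∀ σ ∈ Γ, σ t = t) ∧ A.valuation (x - t) < 1)
    {f : LaurentSeries K} (hf : f ∈ gaussSub A (laurentBaseChange K F₀)) :
    ∃ f' : LaurentSeries K, f' ∈ gaussSub A (laurentBaseChange K F₀) ∧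
      (∀ σ ∈ Γ, coeffMap ((σ : K ≃ₐ[ℚ] K) : K →+* K) f' = f') ∧
      gaussResFun A (laurentBaseChange K F₀) f' = gaussResFun A (laurentBaseChange K F₀) f := by
  classical
  by_cases hf0 : f = 0
  · exact ⟨0, zero_mem _, fun σ _ => map_zero _, by rw [hf0]⟩
  have hfF := mem_of_mem_gaussSub hf
  -- a presentation in the integral span, with the `Γ = ∅` case of the rational presentations
  obtain ⟨Q, P, n₀, hQ, hP, hfQ, hQint, hQ1, -, -⟩ :=
    gf_exists_fixed_frac hℓ hA hF₀ (∅ : Set (K ≃ₐ[ℚ] K)) hfF (fun σ hσ => absurd hσ (by simp))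
  have hQ0 : Q ≠ 0 := by
    rintro rfl
    rw [HahnSeries.coeff_zero] at hQ1
    exact zero_ne_one hQ1
  have hP0 : P ≠ 0 := by
    rw [← hfQ]
    exact mul_ne_zero hf0 hQ0
  have hQF := intSpan_le F₀ hQ
  have hPF := intSpan_le F₀ hP
  have hQu := gf_unit_of_coeff_one hQF hQint hQ1
  have hPint : ∀ n, P.coeff n ∈ A := by
    rcases isTame_of_mem_intSpan hℓ hA hP with h0 | ⟨n₁, hn₁, hmax⟩
    · exact absurd h0 hP0
    obtain ⟨hint, hone⟩ := gf_normalise hn₁ hmax
    have hPu := gf_unit_of_coeff_one (intSpan_le F₀ (Submodule.smul_mem _ (P.coeff n₁)⁻¹ hP))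
      hint hone
    have hPg : P ∈ gaussSub A (laurentBaseChange K F₀) := by
      rw [← hfQ]
      exact mul_mem hf hQu.1
    have hc : algebraMap K (LaurentSeries K) (P.coeff n₁) ∈
        gaussSub A (laurentBaseChange K F₀) := by
      have e : algebraMap K (LaurentSeries K) (P.coeff n₁) = P * ((P.coeff n₁)⁻¹ • P)⁻¹ := by
        rw [← algebraMap_mul_eq_smul, mul_inv, map_inv₀, inv_inv]
        field_simp
      rw [e]
      exact mul_mem hPg hPu.2.1
    have hcA : P.coeff n₁ ∈ A := algebraMap_mem_gaussSub_iff.mp hc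
    intro n
    rw [← A.valuation_le_one_iff]
    exact (hmax n).trans ((A.valuation_le_one_iff _).mpr hcA)
  obtain ⟨TP, hTP, hPT⟩ := gf_exists_finset hP
  obtain ⟨TQ, hTQ, hQT⟩ := gf_exists_finset hQ
  obtain ⟨P', hP'V, hP'int, hP'fix, hP'c⟩ :=
    gf_exists_fixed_congr hℓ hA Γ hT TP hTP hPT hPint
  obtain ⟨Q', hQ'V, hQ'int, hQ'fix, hQ'c⟩ :=
    gf_exists_fixed_congr hℓ hA Γ hT TQ hTQ hQT hQint
  have hP'F := intSpan_le F₀ (gf_span_le_intSpan hTP hP'V)
  have hQ'F := intSpan_le F₀ (gf_span_le_intSpan hTQ hQ'V)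
  have hredP := gf_red_eq_of_congr hPint hP'int hP'c
  have hredQ := gf_red_eq_of_congr hQint hQ'int hQ'c
  have hQprim : red A (liftA A Q hQint) ≠ 0 := gf_red_ne_zero hQint hQ1
  have hQ'prim : red A (liftA A Q' hQ'int) ≠ 0 := by rw [← hredQ]; exact hQprim
  have hQ'0 : Q' ≠ 0 := by
    rintro rfl
    have h1 := hQ'c n₀
    rw [hQ1, HahnSeries.coeff_zero, sub_zero, map_one] at h1
    exact lt_irrefl _ h1
  have hpres : IsPres A (laurentBaseChange K F₀) f (liftA A P hPint) (liftA A Q hQint) :=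
    ⟨by rw [emb_liftA]; exact hPF, by rw [emb_liftA]; exact hQF, hQprim,
      by rw [emb_liftA, emb_liftA]; exact hfQ⟩
  have hpres' : IsPres A (laurentBaseChange K F₀) (P' * Q'⁻¹) (liftA A P' hP'int)
      (liftA A Q' hQ'int) :=
    ⟨by rw [emb_liftA]; exact hP'F, by rw [emb_liftA]; exact hQ'F, hQ'prim,
      by rw [emb_liftA, emb_liftA, mul_assoc, inv_mul_cancel₀ hQ'0, mul_one]⟩
  refine ⟨P' * Q'⁻¹, hpres'.mem_gaussSub, ?_, ?_⟩
  · intro σ hσ
    rw [map_mul, map_inv₀, hP'fix σ hσ, hQ'fix σ hσ]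
  · rw [gaussResFun_eq hpres', gaussResFun_eq hpres, hredP, hredQ]

end Lift

end Fermat.Agent.PeuD
end
end MergeWrap_Lib_BadRed_PeuD_GaussLift

section MergeWrap_Lib_BadRed_PeuD_GaussMod -- from Lib/BadRed/PeuD/GaussMod.lean

set_option autoImplicit false
set_option linter.unusedSectionVars false
set_option linter.unusedVariables false
set_option maxHeartbeats 1000000
set_option synthInstance.maxHeartbeats 400000

noncomputable section

namespace Fermat.Agent.PeuD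

open ModularCurve AlgebraicCurve HahnSeries Fermat.Agent.GaussInt Fermat.Agent.BadRed
  Fermat.Agent.AtkinLehner Fermat.Agent.Deuring

local notation "Qb" => AlgebraicClosure ℚ
local notation "GQb" => (AlgebraicClosure ℚ ≃ₐ[ℚ] AlgebraicClosure ℚ)

variable {D : ALData} {A : ValuationSubring Qb} (M : ModularNodal D A)

/-! ### coercions -/

theorem gau_coe_smul (σ : GQb) (f : modularFunctionFieldBar (D.Q * D.R)) :
    ((arithmeticGalois (modularFunctionFieldFull (D.Q * D.R)) σ • f :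
      modularFunctionFieldBar (D.Q * D.R)) : LaurentSeries Qb) =
      coeffMap ((σ : GQb) : Qb →+* Qb) (f : LaurentSeries Qb) :=
  rfl

theorem gau_fix_iff (σ : GQb) (f : modularFunctionFieldBar (D.Q * D.R)) :
    arithmeticGalois (modularFunctionFieldFull (D.Q * D.R)) σ • f = f ↔
      coeffMap ((σ : GQb) : Qb →+* Qb) (f : LaurentSeries Qb) = f := by
  rw [← gau_coe_smul]
  exact ⟨fun h => congrArg Subtype.val h, fun h => Subtype.ext h⟩

theorem gau_coe_algebraMap (c : Qb) :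
    ((algebraMap Qb (modularFunctionFieldBar (D.Q * D.R)) c :
      modularFunctionFieldBar (D.Q * D.R)) : LaurentSeries Qb) =
      algebraMap Qb (LaurentSeries Qb) c :=
  rfl

/-! ### (G1) -/

/-- **(G1)** for the first valuation. -/
theorem gau_scale₁ (hQ : D.Q.Prime) (hA : A.LiesOverPrime D.Q) (Γ : Set GQb)
    {f : modularFunctionFieldBar (D.Q * D.R)} (hf0 : f ≠ 0)
    (hfix : ∀ σ ∈ Γ, arithmeticGalois (modularFunctionFieldFull (D.Q * D.R)) σ • f = f) :
    ∃ c : Qb, c ≠ 0 ∧ (∀ σ ∈ Γ, σ c = c) ∧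
      f * (algebraMap Qb (modularFunctionFieldBar (D.Q * D.R)) c)⁻¹ ∈ M.N.S₁.Ov ∧
      (f * (algebraMap Qb (modularFunctionFieldBar (D.Q * D.R)) c)⁻¹)⁻¹ ∈ M.N.S₁.Ov ∧
      M.N.S₁.red (f * (algebraMap Qb (modularFunctionFieldBar (D.Q * D.R)) c)⁻¹) ≠ 0 := by
  have hf0' : (f : LaurentSeries Qb) ≠ 0 := fun h => hf0 (Subtype.ext h)
  obtain ⟨c, hc, hcfix, hmem, hinv, -⟩ := gf_scale hQ hA
    (isIntGen_modularFunctionFieldFull (D.Q * D.R)) Γ f.2 hf0'
    (fun σ hσ => (gau_fix_iff σ f).mp (hfix σ hσ))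
  have e : ((f * (algebraMap Qb (modularFunctionFieldBar (D.Q * D.R)) c)⁻¹ :
      modularFunctionFieldBar (D.Q * D.R)) : LaurentSeries Qb) =
      algebraMap Qb (LaurentSeries Qb) c⁻¹ * (f : LaurentSeries Qb) := by
    show (f : LaurentSeries Qb) * (algebraMap Qb (LaurentSeries Qb) c)⁻¹ = _
    rw [map_inv₀, mul_comm (f : LaurentSeries Qb)]
  have h1 : f * (algebraMap Qb (modularFunctionFieldBar (D.Q * D.R)) c)⁻¹ ∈ M.N.S₁.Ov := by
    rw [M.mem₁_iff, e]
    exact hmem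
  have h2 : (f * (algebraMap Qb (modularFunctionFieldBar (D.Q * D.R)) c)⁻¹)⁻¹ ∈ M.N.S₁.Ov := by
    rw [M.mem₁_iff]
    have : (((f * (algebraMap Qb (modularFunctionFieldBar (D.Q * D.R)) c)⁻¹)⁻¹ :
        modularFunctionFieldBar (D.Q * D.R)) : LaurentSeries Qb) =
        (algebraMap Qb (LaurentSeries Qb) c⁻¹ * (f : LaurentSeries Qb))⁻¹ := by
      rw [← e]
      rfl
    rw [this]
    exact hinv
  have h3 : f * (algebraMap Qb (modularFunctionFieldBar (D.Q * D.R)) c)⁻¹ ≠ 0 :=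
    mul_ne_zero hf0 (inv_ne_zero ((_root_.map_ne_zero _).mpr hc))
  exact ⟨c, hc, hcfix, h1, h2, M.N.S₁.red_ne_zero h1 h2 h3⟩

/-- the Atkin-Lehner involution preserves the `Γ`-fixed functions. -/
theorem gau_atkinLehner_fix {σ : GQb} {f : modularFunctionFieldBar (D.Q * D.R)}
    (h : arithmeticGalois (modularFunctionFieldFull (D.Q * D.R)) σ • f = f) :
    arithmeticGalois (modularFunctionFieldFull (D.Q * D.R)) σ • atkinLehner D f =
      atkinLehner D f := by
  rw [← atkinLehner_galois_smul, h]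

/-- **(G1)** for the second valuation. -/
theorem gau_scale₂ (hQ : D.Q.Prime) (hA : A.LiesOverPrime D.Q) (Γ : Set GQb)
    {f : modularFunctionFieldBar (D.Q * D.R)} (hf0 : f ≠ 0)
    (hfix : ∀ σ ∈ Γ, arithmeticGalois (modularFunctionFieldFull (D.Q * D.R)) σ • f = f) :
    ∃ c : Qb, c ≠ 0 ∧ (∀ σ ∈ Γ, σ c = c) ∧
      f * (algebraMap Qb (modularFunctionFieldBar (D.Q * D.R)) c)⁻¹ ∈ M.N.S₂.Ov ∧
      (f * (algebraMap Qb (modularFunctionFieldBar (D.Q * D.R)) c)⁻¹)⁻¹ ∈ M.N.S₂.Ov ∧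
      M.N.S₂.red (f * (algebraMap Qb (modularFunctionFieldBar (D.Q * D.R)) c)⁻¹) ≠ 0 := by
  have hw0 : atkinLehner D f ≠ 0 := (_root_.map_ne_zero _).mpr hf0
  obtain ⟨c, hc, hcfix, h1, h2, -⟩ := gau_scale₁ M hQ hA Γ hw0
    (fun σ hσ => gau_atkinLehner_fix (hfix σ hσ))
  have e : atkinLehner D (f * (algebraMap Qb (modularFunctionFieldBar (D.Q * D.R)) c)⁻¹) =
      atkinLehner D f * (algebraMap Qb (modularFunctionFieldBar (D.Q * D.R)) c)⁻¹ := by
    rw [map_mul, map_inv₀, AlgEquiv.commutes]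
  have h1' : f * (algebraMap Qb (modularFunctionFieldBar (D.Q * D.R)) c)⁻¹ ∈ M.N.S₂.Ov := by
    rw [M.mem₂_iff, e]
    exact h1
  have h2' : (f * (algebraMap Qb (modularFunctionFieldBar (D.Q * D.R)) c)⁻¹)⁻¹ ∈ M.N.S₂.Ov := by
    rw [M.mem₂_iff, map_inv₀, e]
    exact h2
  have h3 : f * (algebraMap Qb (modularFunctionFieldBar (D.Q * D.R)) c)⁻¹ ≠ 0 :=
    mul_ne_zero hf0 (inv_ne_zero ((_root_.map_ne_zero _).mpr hc))
  exact ⟨c, hc, hcfix, h1', h2', M.N.S₂.red_ne_zero h1' h2' h3⟩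

/-! ### (G2) -/

/-- **(G2)** for the first valuation. -/
theorem gau_depth₁ (hQ : D.Q.Prime) (hA : A.LiesOverPrime D.Q) (Γ : Set GQb) (s : GQb)
    (hsA : ∀ a ∈ A, s a ∈ A) (d : Qb)
    (hA1 : ∀ c ∈ A, (∀ σ ∈ Γ, σ c = c) → d * (s c - c) ∈ A)
    {f : modularFunctionFieldBar (D.Q * D.R)} (hf : f ∈ M.N.S₁.Ov)
    (hfix : ∀ σ ∈ Γ, arithmeticGalois (modularFunctionFieldFull (D.Q * D.R)) σ • f = f) :
    algebraMap Qb (modularFunctionFieldBar (D.Q * D.R)) d *
      (arithmeticGalois (modularFunctionFieldFull (D.Q * D.R)) s • f - f) ∈ M.N.S₁.Ov := by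
  rw [M.mem₁_iff] at hf ⊢
  exact gf_depth hQ hA (isIntGen_modularFunctionFieldFull (D.Q * D.R)) Γ s hsA d hA1 hf
    (fun σ hσ => (gau_fix_iff σ f).mp (hfix σ hσ))

/-- **(G2)** for the second valuation. -/
theorem gau_depth₂ (hQ : D.Q.Prime) (hA : A.LiesOverPrime D.Q) (Γ : Set GQb) (s : GQb)
    (hsA : ∀ a ∈ A, s a ∈ A) (d : Qb)
    (hA1 : ∀ c ∈ A, (∀ σ ∈ Γ, σ c = c) → d * (s c - c) ∈ A)
    {f : modularFunctionFieldBar (D.Q * D.R)} (hf : f ∈ M.N.S₂.Ov)
    (hfix : ∀ σ ∈ Γ, arithmeticGalois (modularFunctionFieldFull (D.Q * D.R)) σ • f = f) :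
    algebraMap Qb (modularFunctionFieldBar (D.Q * D.R)) d *
      (arithmeticGalois (modularFunctionFieldFull (D.Q * D.R)) s • f - f) ∈ M.N.S₂.Ov := by
  rw [M.mem₂_iff] at hf ⊢
  have h := gau_depth₁ M hQ hA Γ s hsA d hA1 hf (fun σ hσ => gau_atkinLehner_fix (hfix σ hσ))
  rw [map_mul, AlgEquiv.commutes, map_sub, atkinLehner_galois_smul]
  exact h

/-! ### inertia -/

/-- the elements of the inertia group are inertial. -/
theorem gau_inertial {τ : GQb} (hτ : τ ∈ A.inertiaSubgroupIn ℚ) :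
    M.N.IsInertial (arithmeticGalois (modularFunctionFieldFull (D.Q * D.R)) τ) :=
  M.inertial τ hτ

/-- Teichmüller: every residue class of `A` contains an inertia-fixed element. -/
theorem gau_teich (hQ : D.Q.Prime) (hA : A.LiesOverPrime D.Q) :
    ∀ x ∈ A, ∃ t ∈ A, (∀ σ ∈ ((A.inertiaSubgroupIn ℚ : Subgroup GQb) : Set GQb), σ t = t) ∧
      A.valuation (x - t) < 1 := by
  intro x hx
  obtain ⟨t, ht, hxt⟩ := Fermat.Agent.FFL.FB.exists_inertiaRing_sub_mem hQ hA hx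
  exact ⟨t, ht.1, fun σ hσ => ht.2 σ hσ, hxt⟩

/-! ### (RES) -/

/-- the Gauss residue of a unit of the first valuation ring is nonzero. -/
theorem gau_gaussRes_ne_zero {f : modularFunctionFieldBar (D.Q * D.R)}
    (hf : (f : LaurentSeries Qb) ∈ gaussSub A (modularFunctionFieldBar (D.Q * D.R)))
    (hinv : ((f : LaurentSeries Qb))⁻¹ ∈ gaussSub A (modularFunctionFieldBar (D.Q * D.R)))
    (hf0 : f ≠ 0) :
    gaussResFun A (modularFunctionFieldBar (D.Q * D.R)) (f : LaurentSeries Qb) ≠ 0 := by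
  intro h0
  have hf0' : (f : LaurentSeries Qb) ≠ 0 := fun h => hf0 (Subtype.ext h)
  have h1 : gaussRes A (modularFunctionFieldBar (D.Q * D.R)) (⟨_, hf⟩ * ⟨_, hinv⟩) = 1 := by
    have : (⟨_, hf⟩ * ⟨_, hinv⟩ : gaussSub A (modularFunctionFieldBar (D.Q * D.R))) = 1 :=
      Subtype.ext (mul_inv_cancel₀ hf0')
    rw [this, map_one]
  rw [map_mul] at h1
  have h2 : gaussRes A (modularFunctionFieldBar (D.Q * D.R)) ⟨_, hf⟩ = 0 := h0
  rw [h2, zero_mul] at h1
  exact zero_ne_one h1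

/-- two units of the first valuation ring with the same Gauss residue have the same
reduction. -/
theorem gau_red₁_eq {f g : modularFunctionFieldBar (D.Q * D.R)} (hf : f ∈ M.N.S₁.Ov)
    (hfinv : f⁻¹ ∈ M.N.S₁.Ov) (hf0 : f ≠ 0) (hg : g ∈ M.N.S₁.Ov)
    (h : gaussResFun A (modularFunctionFieldBar (D.Q * D.R)) (g : LaurentSeries Qb) =
      gaussResFun A (modularFunctionFieldBar (D.Q * D.R)) (f : LaurentSeries Qb)) :
    M.N.S₁.red g = M.N.S₁.red f := by
  have hf' := (M.mem₁_iff f).mp hf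
  have hfinv' : ((f : LaurentSeries Qb))⁻¹ ∈ gaussSub A (modularFunctionFieldBar (D.Q * D.R)) :=
    (M.mem₁_iff f⁻¹).mp hfinv
  have hg' := (M.mem₁_iff g).mp hg
  have hres := gau_gaussRes_ne_zero hf' hfinv' hf0
  have hq : g * f⁻¹ ∈ M.N.S₁.Ov := mul_mem hg hfinv
  have h1 : gaussResFun A (modularFunctionFieldBar (D.Q * D.R))
      ((g * f⁻¹ : modularFunctionFieldBar (D.Q * D.R)) : LaurentSeries Qb) = 1 := by
    have e : ((g * f⁻¹ : modularFunctionFieldBar (D.Q * D.R)) : LaurentSeries Qb) =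
        (g : LaurentSeries Qb) * ((f : LaurentSeries Qb))⁻¹ := rfl
    rw [e]
    have h2 : gaussRes A (modularFunctionFieldBar (D.Q * D.R)) (⟨_, hg'⟩ * ⟨_, hfinv'⟩) =
        gaussResFun A (modularFunctionFieldBar (D.Q * D.R)) (g : LaurentSeries Qb) *
          gaussResFun A (modularFunctionFieldBar (D.Q * D.R)) ((f : LaurentSeries Qb))⁻¹ := by
      rw [map_mul]
      rfl
    have h3 : gaussRes A (modularFunctionFieldBar (D.Q * D.R)) (⟨_, hg'⟩ * ⟨_, hfinv'⟩) =
        gaussResFun A (modularFunctionFieldBar (D.Q * D.R))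
          ((g : LaurentSeries Qb) * ((f : LaurentSeries Qb))⁻¹) := rfl
    rw [← h3, h2, h, gaussResFun_inv hf' hres, mul_inv_cancel₀ hres]
  have h4 := M.red₁_eq_one _ hq h1
  have h5 : g = g * f⁻¹ * f := by
    rw [mul_assoc, inv_mul_cancel₀ hf0, mul_one]
  rw [h5, M.N.S₁.red_mul hq hf, h4, one_mul]

/-- **(RES)** for the first valuation, units. -/
theorem gau_res₁_unit (hQ : D.Q.Prime) (hA : A.LiesOverPrime D.Q)
    {f : modularFunctionFieldBar (D.Q * D.R)} (hf : f ∈ M.N.S₁.Ov) (hfinv : f⁻¹ ∈ M.N.S₁.Ov)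
    (hf0 : f ≠ 0) :
    ∃ g : modularFunctionFieldBar (D.Q * D.R),
      (∀ σ ∈ A.inertiaSubgroupIn ℚ,
        arithmeticGalois (modularFunctionFieldFull (D.Q * D.R)) σ • g = g) ∧
      g ∈ M.N.S₁.Ov ∧
      gaussResFun A (modularFunctionFieldBar (D.Q * D.R)) (g : LaurentSeries Qb) =
        gaussResFun A (modularFunctionFieldBar (D.Q * D.R)) (f : LaurentSeries Qb) ∧
      M.N.S₁.red g = M.N.S₁.red f := by
  obtain ⟨g, hg, hgfix, hgres⟩ := gf_lift hQ hA (isIntGen_modularFunctionFieldFull (D.Q * D.R))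
    ((A.inertiaSubgroupIn ℚ : Subgroup GQb) : Set GQb) (gau_teich hQ hA) ((M.mem₁_iff f).mp hf)
  have hgF : g ∈ modularFunctionFieldBar (D.Q * D.R) := mem_of_mem_gaussSub hg
  have hg1 : (⟨g, hgF⟩ : modularFunctionFieldBar (D.Q * D.R)) ∈ M.N.S₁.Ov :=
    (M.mem₁_iff _).mpr hg
  refine ⟨⟨g, hgF⟩, fun σ hσ => (gau_fix_iff σ _).mpr (hgfix σ hσ), hg1, hgres, ?_⟩
  exact gau_red₁_eq M hf hfinv hf0 hg1 hgres

/-- **(RES)** for the first valuation: every element of `Fk₁` is the reduction of an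
inertia-fixed function. -/
theorem gau_res₁ (hQ : D.Q.Prime) (hA : A.LiesOverPrime D.Q) (φ : M.Fk₁) :
    ∃ g : modularFunctionFieldBar (D.Q * D.R),
      (∀ σ ∈ A.inertiaSubgroupIn ℚ,
        arithmeticGalois (modularFunctionFieldFull (D.Q * D.R)) σ • g = g) ∧
      g ∈ M.N.S₁.Ov ∧ M.N.S₁.red g = φ := by
  by_cases hφ : φ = 0
  · refine ⟨0, fun σ _ => smul_zero _, zero_mem _, ?_⟩
    rw [M.N.S₁.red_zero, hφ]
  obtain ⟨⟨f, hf⟩, hfφ⟩ := M.N.S₁.ρ_surj φ
  have hred : M.N.S₁.red f = φ := by rw [M.N.S₁.red_of_mem hf]; exact hfφ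
  have hred0 : M.N.S₁.red f ≠ 0 := by rw [hred]; exact hφ
  obtain ⟨g, hgfix, hg, -, hgred⟩ := gau_res₁_unit M hQ hA hf
    (M.N.S₁.inv_mem_of_red_ne_zero hred0) (M.N.S₁.ne_zero_of_red_ne_zero hred0)
  exact ⟨g, hgfix, hg, by rw [hgred, hred]⟩

/-- **(RES)** for the second valuation. -/
theorem gau_res₂ (hQ : D.Q.Prime) (hA : A.LiesOverPrime D.Q) (φ : M.Fk₂) :
    ∃ g : modularFunctionFieldBar (D.Q * D.R),
      (∀ σ ∈ A.inertiaSubgroupIn ℚ,
        arithmeticGalois (modularFunctionFieldFull (D.Q * D.R)) σ • g = g) ∧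
      g ∈ M.N.S₂.Ov ∧ M.N.S₂.red g = φ := by
  by_cases hφ : φ = 0
  · refine ⟨0, fun σ _ => smul_zero _, zero_mem _, ?_⟩
    rw [M.N.S₂.red_zero, hφ]
  obtain ⟨⟨f, hf⟩, hfφ⟩ := M.N.S₂.ρ_surj φ
  have hred : M.N.S₂.red f = φ := by rw [M.N.S₂.red_of_mem hf]; exact hfφ
  have hred0 : M.N.S₂.red f ≠ 0 := by rw [hred]; exact hφ
  have hf0 := M.N.S₂.ne_zero_of_red_ne_zero hred0
  have hfinv := M.N.S₂.inv_mem_of_red_ne_zero hred0
  have hw : atkinLehner D f ∈ M.N.S₁.Ov := (M.mem₂_iff f).mp hf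
  have hwinv : (atkinLehner D f)⁻¹ ∈ M.N.S₁.Ov := by
    have := (M.mem₂_iff f⁻¹).mp hfinv
    rwa [map_inv₀] at this
  have hw0 : atkinLehner D f ≠ 0 := (_root_.map_ne_zero _).mpr hf0
  obtain ⟨g, hgfix, hg, hgres, -⟩ := gau_res₁_unit M hQ hA hw hwinv hw0
  have hwg : atkinLehner D (atkinLehner D g) = g := atkinLehner_atkinLehner D g
  have hg2 : atkinLehner D g ∈ M.N.S₂.Ov := by
    rw [M.mem₂_iff, hwg]
    exact hg
  refine ⟨atkinLehner D g, fun σ hσ => gau_atkinLehner_fix (hgfix σ hσ), hg2, ?_⟩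
  -- the quotient `w g / f` reduces to `1`
  have hq : atkinLehner D g * f⁻¹ ∈ M.N.S₂.Ov := mul_mem hg2 hfinv
  have hq1 : atkinLehner D (atkinLehner D g * f⁻¹) = g * (atkinLehner D f)⁻¹ := by
    rw [map_mul, hwg, map_inv₀]
  have hq1mem : g * (atkinLehner D f)⁻¹ ∈ M.N.S₁.Ov := mul_mem hg hwinv
  have h1 : M.N.S₁.red (g * (atkinLehner D f)⁻¹) = 1 := by
    rw [M.N.S₁.red_mul hg hwinv, gau_red₁_eq M hw hwinv hw0 hg hgres, ← M.N.S₁.red_mul hw hwinv,
      mul_inv_cancel₀ hw0, M.N.S₁.red_one]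
  have h2 : M.N.S₂.red (atkinLehner D g * f⁻¹) = 1 := by
    apply M.red₂_eq_one _ hq
    rw [hq1]
    exact h1
  have h5 : atkinLehner D g = atkinLehner D g * f⁻¹ * f := by
    rw [mul_assoc, inv_mul_cancel₀ hf0, mul_one]
  rw [h5, M.N.S₂.red_mul hq hf, h2, one_mul, hred]

end Fermat.Agent.PeuD
end
end MergeWrap_Lib_BadRed_PeuD_GaussMod
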