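import Mathlib
import Fermat.Agent.MU.Lib.BadRed.PeuD.GaussMod
import Fermat.Agent.MU.Lib.BadRed.PeuD.Rat

section MergeWrap_Lib_BadRed_PeuD_GaussWire -- from Lib/BadRed/PeuD/GaussWire.lean

set_option autoImplicit false
set_option linter.unusedSectionVars false
set_option linter.unusedVariables false
set_option maxHeartbeats 1000000
set_option synthInstance.maxHeartbeats 400000

noncomputable section

namespace Fermat.Agent.PeuD

open ModularCurve AlgebraicCurve HahnSeries Fermat.Agent.GaussInt Fermat.Agent.BadRed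
  Fermat.Agent.AtkinLehner Fermat.Agent.Deuring

local notation "Qb" => AlgebraicClosure ℚ
local notation "GQb" => (AlgebraicClosure ℚ ≃ₐ[ℚ] AlgebraicClosure ℚ)

/-- the image of a set of automorphisms of `ℚ̄` in the semilinear automorphisms of `F_N`. -/
def gauH (N : ℕ) (Γ : Set GQb) : Set (SemilinearAut Qb (modularFunctionFieldBar N)) :=
  (fun σ => arithmeticGalois (modularFunctionFieldFull N) σ) '' Γ

theorem mem_gauH {N : ℕ} {Γ : Set GQb} {σ : GQb} (hσ : σ ∈ Γ) :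
    arithmeticGalois (modularFunctionFieldFull N) σ ∈ gauH N Γ := ⟨σ, hσ, rfl⟩

theorem gauH_fix {N : ℕ} {Γ : Set GQb} {f : modularFunctionFieldBar N}
    (h : ∀ t ∈ gauH N Γ, t • f = f) :
    ∀ σ ∈ Γ, arithmeticGalois (modularFunctionFieldFull N) σ • f = f :=
  fun σ hσ => h _ (mem_gauH hσ)

theorem gauH_baseAut {N : ℕ} {Γ : Set GQb} {c : Qb} (h : ∀ σ ∈ Γ, σ c = c) :
    ∀ t ∈ gauH N Γ, SemilinearAut.baseAut t c = c := by
  rintro _ ⟨σ, hσ, rfl⟩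
  exact h σ hσ

theorem gauH_baseAut' {N : ℕ} {Γ : Set GQb} {c : Qb}
    (h : ∀ t ∈ gauH N Γ, SemilinearAut.baseAut t c = c) : ∀ σ ∈ Γ, σ c = c :=
  fun σ hσ => h _ (mem_gauH hσ)

variable {D : ALData} {A : ValuationSubring Qb} (M : ModularNodal D A)

/-- **(G1)** in the shape of `laOrd_exists`, first valuation. -/
theorem gau_G1₁ (hQ : D.Q.Prime) (hA : A.LiesOverPrime D.Q) (Γ : Set GQb) :
    ∀ f : modularFunctionFieldBar (D.Q * D.R), f ≠ 0 →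
      (∀ t ∈ gauH (D.Q * D.R) Γ, t • f = f) →
      ∃ c : Qb, (∀ t ∈ gauH (D.Q * D.R) Γ, SemilinearAut.baseAut t c = c) ∧
        M.N.S₁.red (f / algebraMap Qb (modularFunctionFieldBar (D.Q * D.R)) c) ≠ 0 := by
  intro f hf0 hfix
  obtain ⟨c, -, hcfix, -, -, hred⟩ := gau_scale₁ M hQ hA Γ hf0 (gauH_fix hfix)
  exact ⟨c, gauH_baseAut hcfix, by rwa [div_eq_mul_inv]⟩

/-- **(G1)** in the shape of `laOrd_exists`, second valuation. -/
theorem gau_G1₂ (hQ : D.Q.Prime) (hA : A.LiesOverPrime D.Q) (Γ : Set GQb) :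
    ∀ f : modularFunctionFieldBar (D.Q * D.R), f ≠ 0 →
      (∀ t ∈ gauH (D.Q * D.R) Γ, t • f = f) →
      ∃ c : Qb, (∀ t ∈ gauH (D.Q * D.R) Γ, SemilinearAut.baseAut t c = c) ∧
        M.N.S₂.red (f / algebraMap Qb (modularFunctionFieldBar (D.Q * D.R)) c) ≠ 0 := by
  intro f hf0 hfix
  obtain ⟨c, -, hcfix, -, -, hred⟩ := gau_scale₂ M hQ hA Γ hf0 (gauH_fix hfix)
  exact ⟨c, gauH_baseAut hcfix, by rwa [div_eq_mul_inv]⟩

/-- the depth hypothesis (A1) on the constants, transported to `A`. -/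
theorem gau_A1 (Γ : Set GQb) (s₀ : GQb) (π : Qb)
    (hA1 : ∀ c : Qb, c ∈ M.N.S₁.A → (∀ t ∈ gauH (D.Q * D.R) Γ, SemilinearAut.baseAut t c = c) →
      (SemilinearAut.baseAut (arithmeticGalois (modularFunctionFieldFull (D.Q * D.R)) s₀) c - c) /
        π ^ 2 ∈ M.N.S₁.A) :
    ∀ c ∈ A, (∀ σ ∈ Γ, σ c = c) → (π ^ 2)⁻¹ * (s₀ c - c) ∈ A := by
  intro c hc hfix
  have h := hA1 c (by rw [M.A_eq]; exact hc) (gauH_baseAut hfix)
  rw [M.A_eq] at h
  rw [← div_eq_inv_mul]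
  exact h

/-- **(G2)** in the shape of `lemmaA`, first valuation. -/
theorem gau_G2₁ (hQ : D.Q.Prime) (hA : A.LiesOverPrime D.Q) (Γ : Set GQb) (s₀ : GQb)
    (hsA : ∀ a ∈ A, s₀ a ∈ A) (π : Qb)
    (hA1 : ∀ c : Qb, c ∈ M.N.S₁.A → (∀ t ∈ gauH (D.Q * D.R) Γ, SemilinearAut.baseAut t c = c) →
      (SemilinearAut.baseAut (arithmeticGalois (modularFunctionFieldFull (D.Q * D.R)) s₀) c - c) /
        π ^ 2 ∈ M.N.S₁.A) :
    ∀ f : modularFunctionFieldBar (D.Q * D.R), f ∈ M.N.S₁.Ov →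
      (∀ t ∈ gauH (D.Q * D.R) Γ, t • f = f) →
      (arithmeticGalois (modularFunctionFieldFull (D.Q * D.R)) s₀ • f - f) /
        algebraMap Qb (modularFunctionFieldBar (D.Q * D.R)) (π ^ 2) ∈ M.N.S₁.Ov := by
  intro f hf hfix
  have h := gau_depth₁ M hQ hA Γ s₀ hsA (π ^ 2)⁻¹ (gau_A1 M Γ s₀ π hA1) hf (gauH_fix hfix)
  rw [map_inv₀] at h
  rw [div_eq_inv_mul]
  exact h

/-- **(G2)** in the shape of `lemmaA`, second valuation. -/
theorem gau_G2₂ (hQ : D.Q.Prime) (hA : A.LiesOverPrime D.Q) (Γ : Set GQb) (s₀ : GQb)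
    (hsA : ∀ a ∈ A, s₀ a ∈ A) (π : Qb)
    (hA1 : ∀ c : Qb, c ∈ M.N.S₁.A → (∀ t ∈ gauH (D.Q * D.R) Γ, SemilinearAut.baseAut t c = c) →
      (SemilinearAut.baseAut (arithmeticGalois (modularFunctionFieldFull (D.Q * D.R)) s₀) c - c) /
        π ^ 2 ∈ M.N.S₁.A) :
    ∀ f : modularFunctionFieldBar (D.Q * D.R), f ∈ M.N.S₂.Ov →
      (∀ t ∈ gauH (D.Q * D.R) Γ, t • f = f) →
      (arithmeticGalois (modularFunctionFieldFull (D.Q * D.R)) s₀ • f - f) /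
        algebraMap Qb (modularFunctionFieldBar (D.Q * D.R)) (π ^ 2) ∈ M.N.S₂.Ov := by
  intro f hf hfix
  have h := gau_depth₂ M hQ hA Γ s₀ hsA (π ^ 2)⁻¹ (gau_A1 M Γ s₀ π hA1) hf (gauH_fix hfix)
  rw [map_inv₀] at h
  rw [div_eq_inv_mul]
  exact h

/-- `RatG2Statement` (helper57's `Rat.lean`), first valuation. -/
theorem gau_ratG2₁ (hQ : D.Q.Prime) (hA : A.LiesOverPrime D.Q) (Γ : Set GQb) (s₀ : GQb)
    (hsA : ∀ a ∈ A, s₀ a ∈ A) (π : Qb)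
    (hA1 : ∀ c : Qb, c ∈ M.N.S₁.A → (∀ t ∈ gauH (D.Q * D.R) Γ, SemilinearAut.baseAut t c = c) →
      (SemilinearAut.baseAut (arithmeticGalois (modularFunctionFieldFull (D.Q * D.R)) s₀) c - c) /
        π ^ 2 ∈ M.N.S₁.A) :
    RatG2Statement M.N.S₁ (gauH (D.Q * D.R) Γ)
      (arithmeticGalois (modularFunctionFieldFull (D.Q * D.R)) s₀) π :=
  fun f hfix hf => gau_G2₁ M hQ hA Γ s₀ hsA π hA1 f hf hfix

/-- `RatG2Statement` (helper57's `Rat.lean`), second valuation. -/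
theorem gau_ratG2₂ (hQ : D.Q.Prime) (hA : A.LiesOverPrime D.Q) (Γ : Set GQb) (s₀ : GQb)
    (hsA : ∀ a ∈ A, s₀ a ∈ A) (π : Qb)
    (hA1 : ∀ c : Qb, c ∈ M.N.S₁.A → (∀ t ∈ gauH (D.Q * D.R) Γ, SemilinearAut.baseAut t c = c) →
      (SemilinearAut.baseAut (arithmeticGalois (modularFunctionFieldFull (D.Q * D.R)) s₀) c - c) /
        π ^ 2 ∈ M.N.S₁.A) :
    RatG2Statement M.N.S₂ (gauH (D.Q * D.R) Γ)
      (arithmeticGalois (modularFunctionFieldFull (D.Q * D.R)) s₀) π :=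
  fun f hfix hf => gau_G2₂ M hQ hA Γ s₀ hsA π hA1 f hf hfix

/-- the elements of `gauH Γ` are inertial if `Γ` is contained in the inertia group. -/
theorem gauH_inertial (Γ : Set GQb) (hΓ : ∀ σ ∈ Γ, σ ∈ A.inertiaSubgroupIn ℚ) :
    ∀ t ∈ gauH (D.Q * D.R) Γ, M.N.IsInertial t := by
  rintro _ ⟨σ, hσ, rfl⟩
  exact M.inertial σ (hΓ σ hσ)

end Fermat.Agent.PeuD
end
end MergeWrap_Lib_BadRed_PeuD_GaussWire
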