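import Mathlib
import Fermat.Agent.MU.Lib.FFL.FB.FieldTeich
import Fermat.Agent.MU.Lib.FFL.FB.Defs
import Fermat.Agent.MU.Lib.FFL.FB.UnitDefs
import Fermat.Agent.MU.Lib.FFL.Unr
import Fermat.Agent.MU.Lib.FFL.FB.FieldMono
import Fermat.Agent.MU.Lib.BadRed.PeuD.GaussWire

section MergeWrap_Lib_FFL_FB_FieldTame -- from Lib/FFL/FB/FieldTame.lean

set_option autoImplicit false
set_option linter.style.haveILetI false
set_option linter.unusedSectionVars false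

namespace Fermat.Agent.FFL.FB

open Fermat.Agent.FFL Fermat.Agent.Cyclo Polynomial

local notation "Kb" => AlgebraicClosure ℚ
local notation "GK" => (AlgebraicClosure ℚ ≃ₐ[ℚ] AlgebraicClosure ℚ)

/-- The tame setting: `π ^ e = p · unit` with `π ^ e` inertia-fixed and `p ∤ e`. -/
structure TameSetting (p : ℕ) (P : ValuationSubring Kb) (e : ℕ) (π : Kb) : Prop where
  hp : p.Prime
  hP : P.LiesOverPrime p
  he : ¬ p ∣ e
  hπ0 : π ≠ 0
  hfix : ∀ σ ∈ P.inertiaSubgroupIn ℚ, σ (π ^ e) = π ^ e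
  hπp : π ^ e / (p : Kb) ∈ P
  hpπ : (p : Kb) / π ^ e ∈ P

namespace TameSetting

variable {p : ℕ} {P : ValuationSubring Kb} {e : ℕ} {π : Kb} (S : TameSetting p P e π)
include S

theorem e_ne_zero : e ≠ 0 := fun h => S.he (h ▸ dvd_zero p)

theorem e_pos : 0 < e := Nat.pos_of_ne_zero S.e_ne_zero

theorem p_ne_zero : (p : Kb) ≠ 0 := ar_p_ne_zero S.hp

theorem val_p_ne_zero : P.valuation (p : Kb) ≠ 0 := (Valuation.ne_zero_iff _).2 S.p_ne_zero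

theorem val_π_ne_zero : P.valuation π ≠ 0 := (Valuation.ne_zero_iff _).2 S.hπ0

theorem val_pow : P.valuation π ^ e = P.valuation (p : Kb) := by
  have h1 : P.valuation (π ^ e / (p : Kb)) ≤ 1 := (P.valuation_le_one_iff _).2 S.hπp
  have h2 : P.valuation ((p : Kb) / π ^ e) ≤ 1 := (P.valuation_le_one_iff _).2 S.hpπ
  rw [map_div₀, map_pow, div_le_one₀ (zero_lt_iff.2 S.val_p_ne_zero)] at h1
  rw [map_div₀, map_pow, div_le_one₀ (zero_lt_iff.2 (pow_ne_zero _ S.val_π_ne_zero))] at h2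
  exact le_antisymm h1 h2

theorem val_π_lt_one : P.valuation π < 1 := by
  by_contra h
  rw [not_lt] at h
  have h1 : (1 : _) ≤ P.valuation π ^ e := one_le_pow₀ h
  rw [S.val_pow] at h1
  exact absurd (lt_of_le_of_lt h1 (ar_val_p_lt S.hP)) (lt_irrefl _)

theorem π_mem_nonunits : π ∈ P.nonunits := (ValuationSubring.mem_nonunits_iff P).2 S.val_π_lt_one

theorem π_mem : π ∈ P := P.nonunits_subset S.π_mem_nonunits

/-! ### The tame character -/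

theorem tame_pow_eq_one {σ : GK} (hσ : σ ∈ P.inertiaSubgroupIn ℚ) : (σ π / π) ^ e = 1 := by
  rw [div_pow, ← map_pow, S.hfix σ hσ, div_self (pow_ne_zero _ S.hπ0)]

theorem tame_fixed {σ τ : GK} (hσ : σ ∈ P.inertiaSubgroupIn ℚ)
    (hτ : τ ∈ P.inertiaSubgroupIn ℚ) : τ (σ π / π) = σ π / π :=
  root_fixed_of_inertia S.hp S.hP S.he (S.tame_pow_eq_one hσ) hτ

theorem smul_π {σ : GK} : σ π = (σ π / π) * π := by
  rw [div_mul_cancel₀ _ S.hπ0]

theorem tame_mul {σ τ : GK} (hσ : σ ∈ P.inertiaSubgroupIn ℚ)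
    (hτ : τ ∈ P.inertiaSubgroupIn ℚ) : (σ * τ) π / π = (σ π / π) * (τ π / π) := by
  rw [AlgEquiv.mul_apply]
  have h1 : σ (τ π) = σ ((τ π / π) * π) := by rw [← S.smul_π]
  rw [h1, map_mul, S.tame_fixed hτ hσ]
  field_simp [S.hπ0]

theorem tame_ne_zero (σ : GK) : σ π / π ≠ 0 :=
  div_ne_zero (fun h => S.hπ0 ((map_eq_zero_iff σ σ.injective).1 h)) S.hπ0

/-- The tame character as a homomorphism to the units. -/
noncomputable def tameHom : ↥(P.inertiaSubgroupIn ℚ) →* Kbˣ where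
  toFun σ := Units.mk0 (σ.1 π / π) (S.tame_ne_zero σ.1)
  map_one' := by
    apply Units.ext
    show (1 : GK) π / π = 1
    rw [AlgEquiv.one_apply, div_self S.hπ0]
  map_mul' σ τ := by
    apply Units.ext
    show (σ.1 * τ.1) π / π = (σ.1 π / π) * (τ.1 π / π)
    exact S.tame_mul σ.2 τ.2

theorem tameHom_coe (σ : ↥(P.inertiaSubgroupIn ℚ)) : ((S.tameHom σ : Kbˣ) : Kb) = σ.1 π / π := rfl

theorem tameHom_pow (σ : ↥(P.inertiaSubgroupIn ℚ)) : (S.tameHom σ) ^ e = 1 := by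
  apply Units.ext
  rw [Units.val_pow_eq_pow_val, S.tameHom_coe, Units.val_one]
  exact S.tame_pow_eq_one σ.2

/-! ### Surjectivity of the tame character -/

theorem pow_fixed_of_forall {d : ℕ}
    (hd : ∀ σ ∈ P.inertiaSubgroupIn ℚ, (σ π / π) ^ d = 1) {σ : GK}
    (hσ : σ ∈ P.inertiaSubgroupIn ℚ) : σ (π ^ d) = π ^ d := by
  rw [map_pow, S.smul_π (σ := σ), mul_pow, hd σ hσ, one_mul]

/-- If all `θ σ` are `d`-th roots of unity and `d ∣ e`, `0 < d`, then `d = e`: `p` is a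
uniformiser of the inertia ring. -/
theorem eq_of_forall_pow {d : ℕ} (hd0 : 0 < d) (hde : d ∣ e)
    (hd : ∀ σ ∈ P.inertiaSubgroupIn ℚ, (σ π / π) ^ d = 1) : d = e := by
  obtain ⟨m, hm⟩ := hde
  have hm0 : m ≠ 0 := by
    rintro rfl
    rw [mul_zero] at hm
    exact S.e_ne_zero hm
  by_contra hne
  have hm2 : 2 ≤ m := by
    rcases Nat.lt_or_ge m 2 with h | h
    · exfalso
      have : m = 1 := by omega
      rw [this, mul_one] at hm
      exact hne hm.symm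
    · exact h
  have hvd : P.valuation (π ^ d) < 1 := by
    rw [map_pow]
    exact pow_lt_one₀ zero_le S.val_π_lt_one hd0.ne'
  have hunr : π ^ d / (p : Kb) ∈ P :=
    unrProp p S.hp P S.hP (π ^ d) ((ValuationSubring.mem_nonunits_iff P).2 hvd)
      (fun σ hσ => S.pow_fixed_of_forall hd hσ)
  have h1 : π ^ e / (p : Kb) = (π ^ d / (p : Kb)) * π ^ (d * (m - 1)) := by
    have : e = d + d * (m - 1) := by
      rw [hm]
      have : m = 1 + (m - 1) := by omega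
      conv_lhs => rw [this, mul_add, mul_one]
    rw [this, pow_add]
    ring
  have h2 : P.valuation (π ^ e / (p : Kb)) < 1 := by
    rw [h1, map_mul]
    have h3 : P.valuation (π ^ (d * (m - 1))) < 1 := by
      rw [map_pow]
      refine pow_lt_one₀ zero_le S.val_π_lt_one ?_
      have : 0 < m - 1 := by omega
      exact (Nat.mul_pos hd0 this).ne'
    exact mul_lt_one_of_nonneg_of_lt_one_right ((P.valuation_le_one_iff _).2 hunr) zero_le h3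
  rw [map_div₀, map_pow, S.val_pow, div_self S.val_p_ne_zero] at h2
  exact lt_irrefl _ h2

/-- **Surjectivity of the tame character**: some inertia element `σ₀` has `σ₀ π / π` a PRIMITIVE
`e`-th root of unity. -/
theorem exists_generator :
    ∃ σ₀ ∈ P.inertiaSubgroupIn ℚ, IsPrimitiveRoot (σ₀ π / π) e := by
  classical
  have hNZ : NeZero e := ⟨S.e_ne_zero⟩
  have hle : S.tameHom.range ≤ rootsOfUnity e Kb := by
    rintro _ ⟨σ, rfl⟩
    rw [mem_rootsOfUnity]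
    exact S.tameHom_pow σ
  have hfin : Finite (S.tameHom.range) :=
    Finite.of_injective (Subgroup.inclusion hle) (Subgroup.inclusion_injective hle)
  have hcyc : IsCyclic S.tameHom.range := inferInstance
  obtain ⟨g, hg⟩ := hcyc.exists_generator
  obtain ⟨σ₀, hσ₀⟩ := g.2
  set d := Nat.card S.tameHom.range with hd
  have hd0 : 0 < d := Nat.card_pos
  have hord : orderOf g = d := orderOf_eq_card_of_forall_mem_zpowers hg
  have hall : ∀ σ ∈ P.inertiaSubgroupIn ℚ, (σ π / π) ^ d = 1 := by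
    intro σ hσ
    have h1 : (⟨S.tameHom ⟨σ, hσ⟩, ⟨⟨σ, hσ⟩, rfl⟩⟩ : S.tameHom.range) ^ d = 1 := pow_card_eq_one'
    have h2 : (((⟨S.tameHom ⟨σ, hσ⟩, ⟨⟨σ, hσ⟩, rfl⟩⟩ : S.tameHom.range) ^ d :
        S.tameHom.range) : Kbˣ) = 1 := by rw [h1]; rfl
    rw [Subgroup.coe_pow] at h2
    have h3 : (((S.tameHom ⟨σ, hσ⟩) ^ d : Kbˣ) : Kb) = 1 := by rw [h2]; rfl
    rw [Units.val_pow_eq_pow_val, S.tameHom_coe] at h3
    exact h3
  have hge : g ^ e = 1 := by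
    apply Subtype.ext
    rw [Subgroup.coe_pow, ← hσ₀]
    exact S.tameHom_pow σ₀
  have hde : d ∣ e := by
    rw [← hord]
    exact orderOf_dvd_of_pow_eq_one hge
  have hdeq : d = e := S.eq_of_forall_pow hd0 hde hall
  refine ⟨σ₀.1, σ₀.2, ?_⟩
  have h3 : orderOf (σ₀.1 π / π) = e := by
    have h4 : orderOf ((g : Kbˣ) : Kb) = orderOf g := by
      rw [orderOf_units, Subgroup.orderOf_coe]
    rw [← hσ₀] at h4
    rw [← hdeq, ← hord, ← h4]
    rfl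
  rw [← h3]
  exact IsPrimitiveRoot.orderOf _

/-! ### The kernel of the tame character -/

theorem mem_decomp_of_inertia {σ : GK} (hσ : σ ∈ P.inertiaSubgroupIn ℚ) :
    σ ∈ P.decompositionSubgroup ℚ := by
  obtain ⟨τ, _, rfl⟩ := hσ
  exact τ.2

theorem mem_stabI_iff_tameHom {σ : GK} (hσ : σ ∈ P.inertiaSubgroupIn ℚ) :
    σ ∈ stabI P π ↔ S.tameHom ⟨σ, hσ⟩ = 1 := by
  rw [mem_stabI]
  constructor
  · rintro ⟨_, h⟩
    apply Units.ext
    rw [S.tameHom_coe, Units.val_one]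
    show σ π / π = 1
    rw [h, div_self S.hπ0]
  · intro h
    refine ⟨hσ, ?_⟩
    have h1 : ((S.tameHom ⟨σ, hσ⟩ : Kbˣ) : Kb) = 1 := by rw [h]; rfl
    rw [S.tameHom_coe] at h1
    exact (div_eq_one_iff_eq S.hπ0).1 h1

/-- `N = stabI P π` is normal in the inertia group. -/
theorem conj_mem_stabI {g τ : GK} (hg : g ∈ P.inertiaSubgroupIn ℚ) (hτ : τ ∈ stabI P π) :
    g⁻¹ * τ * g ∈ stabI P π := by
  have hτI : τ ∈ P.inertiaSubgroupIn ℚ := hτ.1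
  have hI : g⁻¹ * τ * g ∈ P.inertiaSubgroupIn ℚ := mul_mem (mul_mem (inv_mem hg) hτI) hg
  rw [S.mem_stabI_iff_tameHom hI]
  have h1 : (⟨g⁻¹ * τ * g, hI⟩ : ↥(P.inertiaSubgroupIn ℚ)) =
      (⟨g, hg⟩ : ↥(P.inertiaSubgroupIn ℚ))⁻¹ * ⟨τ, hτI⟩ * ⟨g, hg⟩ := rfl
  rw [h1, map_mul, map_mul, map_inv, (S.mem_stabI_iff_tameHom hτI).1 hτ, mul_one,
    inv_mul_cancel]

/-- Every inertia element is `σ₀ ^ m · τ` with `τ ∈ N`: `I / N` is cyclic of order `e`,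
generated by `σ₀`. -/
theorem exists_pow_mul {σ₀ : GK} (hσ₀ : σ₀ ∈ P.inertiaSubgroupIn ℚ)
    (hζ : IsPrimitiveRoot (σ₀ π / π) e) {σ : GK} (hσ : σ ∈ P.inertiaSubgroupIn ℚ) :
    ∃ m < e, ∃ τ ∈ stabI P π, σ = σ₀ ^ m * τ := by
  haveI : NeZero e := ⟨S.e_ne_zero⟩
  obtain ⟨m, hm, hpow⟩ := hζ.eq_pow_of_pow_eq_one (S.tame_pow_eq_one hσ)
  refine ⟨m, hm, (σ₀ ^ m)⁻¹ * σ, ?_, by group⟩
  have hI : (σ₀ ^ m)⁻¹ * σ ∈ P.inertiaSubgroupIn ℚ := mul_mem (inv_mem (pow_mem hσ₀ m)) hσ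
  rw [S.mem_stabI_iff_tameHom hI]
  have h1 : (⟨(σ₀ ^ m)⁻¹ * σ, hI⟩ : ↥(P.inertiaSubgroupIn ℚ)) =
      ((⟨σ₀, hσ₀⟩ : ↥(P.inertiaSubgroupIn ℚ)) ^ m)⁻¹ * ⟨σ, hσ⟩ := rfl
  rw [h1, map_mul, map_inv, map_pow]
  apply Units.ext
  rw [Units.val_mul, Units.val_inv_eq_inv_val, Units.val_pow_eq_pow_val, S.tameHom_coe,
    S.tameHom_coe, Units.val_one]
  show ((σ₀ π / π) ^ m)⁻¹ * (σ π / π) = 1
  rw [hpow]
  exact inv_mul_cancel₀ (S.tame_ne_zero σ)

/-- Translates by inertia elements of `N`-fixed elements are `N`-fixed. -/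
theorem fixedBy_smul {g : GK} (hg : g ∈ P.inertiaSubgroupIn ℚ) {x : Kb}
    (hx : FixedBy (stabI P π) x) : FixedBy (stabI P π) (g x) := by
  intro τ hτ
  have h1 := hx _ (S.conj_mem_stabI hg hτ)
  rw [AlgEquiv.mul_apply, AlgEquiv.mul_apply] at h1
  have h2 := congrArg g h1
  rw [← AlgEquiv.mul_apply g g⁻¹, mul_inv_cancel, AlgEquiv.one_apply] at h2
  exact h2

end TameSetting

/-! ### Isotypic components -/

/-- The geometric sum of a nontrivial `e`-th root of unity vanishes. -/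
theorem geom_sum_root_eq_zero {μ : Kb} {e : ℕ} (h1 : μ ^ e = 1) (h2 : μ ≠ 1) :
    ∑ k ∈ Finset.range e, μ ^ k = 0 := by
  have h := geom_sum_mul μ e
  rw [h1, sub_self] at h
  rcases mul_eq_zero.1 h with h | h
  · exact h
  · exact absurd (sub_eq_zero.1 h) h2

/-- The `j`-th isotypic component of `x` under `σ₀` (with `ζ = σ₀ π / π`):
`e⁻¹ ∑_{k<e} ζ^{-jk} σ₀^k x`. -/
noncomputable def tameComp (e : ℕ) (π : Kb) (σ₀ : GK) (j : ℕ) (x : Kb) : Kb :=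
  (e : Kb)⁻¹ * ∑ k ∈ Finset.range e, ((σ₀ π / π) ^ j)⁻¹ ^ k * (σ₀ ^ k) x

theorem sum_tameComp {e : ℕ} {π : Kb} {σ₀ : GK} (hζ : IsPrimitiveRoot (σ₀ π / π) e)
    (he : e ≠ 0) (x : Kb) : ∑ j ∈ Finset.range e, tameComp e π σ₀ j x = x := by
  unfold tameComp
  rw [← Finset.mul_sum, Finset.sum_comm]
  have h : ∀ k ∈ Finset.range e,
      ∑ j ∈ Finset.range e, ((σ₀ π / π) ^ j)⁻¹ ^ k * (σ₀ ^ k) x =
        if k = 0 then (e : Kb) * x else 0 := by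
    intro k hk
    rw [← Finset.sum_mul]
    split_ifs with hk0
    · subst hk0
      simp
    · have h1 : ∑ j ∈ Finset.range e, ((σ₀ π / π) ^ j)⁻¹ ^ k =
          ∑ j ∈ Finset.range e, (((σ₀ π / π) ^ k)⁻¹) ^ j := by
        refine Finset.sum_congr rfl fun j _ => ?_
        rw [inv_pow, inv_pow, ← pow_mul, ← pow_mul, mul_comm]
      rw [h1, geom_sum_root_eq_zero ?_ ?_, zero_mul]
      · rw [inv_pow, ← pow_mul, mul_comm, pow_mul, hζ.pow_eq_one, one_pow, inv_one]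
      · intro h2
        rw [inv_eq_one] at h2
        have h3 := (hζ.pow_eq_one_iff_dvd k).1 h2
        exact hk0 (Nat.eq_zero_of_dvd_of_lt h3 (Finset.mem_range.1 hk))
  rw [Finset.sum_congr rfl h, Finset.sum_ite_eq' (Finset.range e) 0 (fun _ => (e : Kb) * x)]
  have he' : (e : Kb) ≠ 0 := Nat.cast_ne_zero.2 he
  rw [if_pos (Finset.mem_range.2 (Nat.pos_of_ne_zero he)), ← mul_assoc, inv_mul_cancel₀ he',
    one_mul]

theorem smul_tameComp {e : ℕ} {π : Kb} {σ₀ : GK} (hζe : (σ₀ π / π) ^ e = 1)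
    (hζ0 : σ₀ π / π ≠ 0)
    (hfix : σ₀ (σ₀ π / π) = σ₀ π / π) {x : Kb} (hx : (σ₀ ^ e) x = x) (j : ℕ) :
    σ₀ (tameComp e π σ₀ j x) = (σ₀ π / π) ^ j * tameComp e π σ₀ j x := by
  unfold tameComp
  set ζ := σ₀ π / π with hζdef
  set f : ℕ → Kb := fun k => (ζ ^ j)⁻¹ ^ k * (σ₀ ^ k) x with hf
  have hζj : ζ ^ j ≠ 0 := pow_ne_zero _ hζ0
  have h1 : σ₀ ((e : Kb)⁻¹ * ∑ k ∈ Finset.range e, (ζ ^ j)⁻¹ ^ k * (σ₀ ^ k) x) =
      (e : Kb)⁻¹ * ∑ k ∈ Finset.range e, ζ ^ j * f (k + 1) := by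
    rw [map_mul, map_inv₀, map_natCast, map_sum]
    congr 1
    refine Finset.sum_congr rfl fun k _ => ?_
    rw [map_mul, map_pow, map_inv₀, map_pow, hfix, hf]
    show (ζ ^ j)⁻¹ ^ k * σ₀ ((σ₀ ^ k) x) = ζ ^ j * ((ζ ^ j)⁻¹ ^ (k + 1) * (σ₀ ^ (k + 1)) x)
    rw [pow_succ' σ₀ k, AlgEquiv.mul_apply, pow_succ (ζ ^ j)⁻¹ k]
    field_simp
  have h2 : ∑ k ∈ Finset.range e, f (k + 1) = ∑ k ∈ Finset.range e, f k := by
    have ha := Finset.sum_range_succ' f e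
    have hb := Finset.sum_range_succ f e
    have hfe : f e = f 0 := by
      rw [hf]
      show (ζ ^ j)⁻¹ ^ e * (σ₀ ^ e) x = (ζ ^ j)⁻¹ ^ 0 * (σ₀ ^ 0) x
      have hpow : (ζ ^ j)⁻¹ ^ e = 1 := by
        rw [inv_pow, ← pow_mul, Nat.mul_comm, pow_mul, hζe, one_pow, inv_one]
      rw [hx, pow_zero, pow_zero, AlgEquiv.one_apply, hpow]
    rw [ha, hfe] at hb
    exact add_right_cancel hb
  rw [h1, ← Finset.mul_sum, h2]
  ring

namespace TameSetting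

variable {p : ℕ} {P : ValuationSubring Kb} {e : ℕ} {π : Kb} (S : TameSetting p P e π)
include S

theorem pow_mem_stabI {σ₀ : GK} (hσ₀ : σ₀ ∈ P.inertiaSubgroupIn ℚ) : σ₀ ^ e ∈ stabI P π := by
  have hI : σ₀ ^ e ∈ P.inertiaSubgroupIn ℚ := pow_mem hσ₀ e
  rw [S.mem_stabI_iff_tameHom hI]
  have h1 : (⟨σ₀ ^ e, hI⟩ : ↥(P.inertiaSubgroupIn ℚ)) =
      (⟨σ₀, hσ₀⟩ : ↥(P.inertiaSubgroupIn ℚ)) ^ e := rfl
  rw [h1, map_pow, S.tameHom_pow]

theorem tameComp_fixed {σ₀ : GK} (hσ₀ : σ₀ ∈ P.inertiaSubgroupIn ℚ) {x : Kb}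
    (hx : FixedBy (stabI P π) x) (j : ℕ) : FixedBy (stabI P π) (tameComp e π σ₀ j x) := by
  intro τ hτ
  unfold tameComp
  rw [map_mul, map_inv₀, map_natCast, map_sum]
  congr 1
  refine Finset.sum_congr rfl fun k _ => ?_
  rw [map_mul, map_pow, map_inv₀, map_pow, S.tame_fixed hσ₀ hτ.1,
    S.fixedBy_smul (pow_mem hσ₀ k) hx τ hτ]

theorem smul_tameComp' {σ₀ : GK} (hσ₀ : σ₀ ∈ P.inertiaSubgroupIn ℚ) {x : Kb}
    (hx : FixedBy (stabI P π) x) (j : ℕ) :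
    σ₀ (tameComp e π σ₀ j x) = (σ₀ π / π) ^ j * tameComp e π σ₀ j x :=
  smul_tameComp (S.tame_pow_eq_one hσ₀) (S.tame_ne_zero σ₀) (S.tame_fixed hσ₀ hσ₀)
    (hx _ (S.pow_mem_stabI hσ₀)) j

/-- The coefficients `c_j = (j-th component) / π^j` are fixed by the inertia group. -/
theorem tameCoeff_fixed {σ₀ : GK} (hσ₀ : σ₀ ∈ P.inertiaSubgroupIn ℚ)
    (hζ : IsPrimitiveRoot (σ₀ π / π) e) {x : Kb}
    (hx : FixedBy (stabI P π) x) (j : ℕ) {σ : GK} (hσ : σ ∈ P.inertiaSubgroupIn ℚ) :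
    σ (tameComp e π σ₀ j x / π ^ j) = tameComp e π σ₀ j x / π ^ j := by
  have h0 : σ₀ (tameComp e π σ₀ j x / π ^ j) = tameComp e π σ₀ j x / π ^ j := by
    rw [map_div₀, map_pow, S.smul_tameComp' hσ₀ hx, S.smul_π (σ := σ₀), mul_pow]
    have h1 : (σ₀ π / π) ^ j ≠ 0 := pow_ne_zero _ (S.tame_ne_zero σ₀)
    have h2 : π ^ j ≠ 0 := pow_ne_zero _ S.hπ0
    field_simp
  have hm : ∀ m : ℕ, (σ₀ ^ m) (tameComp e π σ₀ j x / π ^ j) = tameComp e π σ₀ j x / π ^ j := by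
    intro m
    induction m with
    | zero => rw [pow_zero, AlgEquiv.one_apply]
    | succ m ih => rw [pow_succ, AlgEquiv.mul_apply, h0, ih]
  obtain ⟨m, -, τ, hτ, rfl⟩ := S.exists_pow_mul hσ₀ hζ hσ
  have hτc : τ (tameComp e π σ₀ j x / π ^ j) = tameComp e π σ₀ j x / π ^ j := by
    rw [map_div₀, map_pow, S.tameComp_fixed hσ₀ hx j τ hτ, hτ.2]
  rw [AlgEquiv.mul_apply, hτc, hm]

/-! ### Integrality -/

theorem inv_e_mem : ((e : Kb))⁻¹ ∈ P := by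
  have h1 : (e : Kb) ∈ P := natCast_mem _ e
  have h2 : (e : Kb) ∉ P.nonunits := natCast_not_mem_nonunits P S.hp S.hP S.he
  have h3 : P.valuation (e : Kb) = 1 := by
    rcases lt_or_eq_of_le ((P.valuation_le_one_iff _).2 h1) with h | h
    · exact absurd ((ValuationSubring.mem_nonunits_iff P).2 h) h2
    · exact h
  rw [← P.valuation_le_one_iff, map_inv₀, h3, inv_one]

theorem tameComp_mem {σ₀ : GK} (hσ₀ : σ₀ ∈ P.inertiaSubgroupIn ℚ) {x : Kb} (hx : x ∈ P)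
    (j : ℕ) : tameComp e π σ₀ j x ∈ P := by
  unfold tameComp
  refine P.mul_mem _ _ S.inv_e_mem (sum_mem fun k _ => P.mul_mem _ _ ?_ ?_)
  · refine pow_eq_one_mem (A := P) S.e_ne_zero ?_
    rw [← pow_mul, Nat.mul_comm, pow_mul, inv_pow, ← pow_mul, Nat.mul_comm, pow_mul,
      S.tame_pow_eq_one hσ₀, one_pow, inv_one, one_pow]
  · exact mem_of_decomp (mem_decomp_of_inertia S (pow_mem hσ₀ k)) hx

theorem tameComp_zero_mem_nonunits {σ₀ : GK} (hσ₀ : σ₀ ∈ P.inertiaSubgroupIn ℚ) {x : Kb}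
    (hx : x ∈ P.nonunits) : tameComp e π σ₀ 0 x ∈ P.nonunits := by
  unfold tameComp
  rw [ValuationSubring.mem_nonunits_iff, map_mul]
  refine mul_lt_one_of_nonneg_of_lt_one_right ((P.valuation_le_one_iff _).2 S.inv_e_mem)
    zero_le ?_
  refine Valuation.map_sum_lt _ one_ne_zero fun k _ => ?_
  rw [pow_zero, inv_one, one_pow, one_mul,
    val_decomp (mem_decomp_of_inertia S (pow_mem hσ₀ k))]
  exact (ValuationSubring.mem_nonunits_iff P).1 hx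

/-- The coefficients of an integral element are integral: `O_N = R'[π]`. -/
theorem tameCoeff_mem {σ₀ : GK} (hσ₀ : σ₀ ∈ P.inertiaSubgroupIn ℚ)
    (hζ : IsPrimitiveRoot (σ₀ π / π) e) {x : Kb} (hx : x ∈ P)
    (hxN : FixedBy (stabI P π) x) {j : ℕ} (hj : j < e) :
    tameComp e π σ₀ j x / π ^ j ∈ inertiaRing P := by
  refine ⟨?_, fun σ hσ => S.tameCoeff_fixed hσ₀ hζ hxN j hσ⟩
  set c := tameComp e π σ₀ j x / π ^ j with hc
  by_contra hcP
  have hinv : c⁻¹ ∈ P := (P.mem_or_inv_mem c).resolve_left hcP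
  have hc0 : c ≠ 0 := by
    rintro h0
    exact hcP (h0 ▸ P.zero_mem)
  have hinvn : c⁻¹ ∈ P.nonunits := by
    rw [ValuationSubring.mem_nonunits_iff, map_inv₀]
    have h1 : 1 < P.valuation c := by
      by_contra h
      rw [not_lt] at h
      exact hcP ((P.valuation_le_one_iff _).1 h)
    exact inv_lt_one_of_one_lt₀ h1
  have hfix : ∀ σ ∈ P.inertiaSubgroupIn ℚ, σ c⁻¹ = c⁻¹ := by
    intro σ hσ
    rw [map_inv₀, S.tameCoeff_fixed hσ₀ hζ hxN j hσ]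
  have h1 : c⁻¹ / (p : Kb) ∈ P := unrProp p S.hp P S.hP c⁻¹ hinvn hfix
  have h2 : tameComp e π σ₀ j x ∈ P := S.tameComp_mem hσ₀ hx j
  have hπj : π ^ j ≠ 0 := pow_ne_zero _ S.hπ0
  have h3 : tameComp e π σ₀ j x ≠ 0 := by
    rintro h0
    apply hc0
    rw [hc, h0, zero_div]
  -- `π ^ j / p ∈ P`
  have h4 : π ^ j / (p : Kb) ∈ P := by
    have : π ^ j / (p : Kb) = tameComp e π σ₀ j x * (c⁻¹ / (p : Kb)) := by
      rw [hc]
      field_simp
    rw [this]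
    exact P.mul_mem _ _ h2 h1
  have h5 : P.valuation π ^ j ≤ P.valuation (p : Kb) := by
    have := (P.valuation_le_one_iff _).2 h4
    rwa [map_div₀, map_pow, div_le_one₀ (zero_lt_iff.2 S.val_p_ne_zero)] at this
  rw [← S.val_pow] at h5
  have h6 : P.valuation π ^ e < P.valuation π ^ j :=
    pow_lt_pow_right_of_lt_one₀ (zero_lt_iff.2 S.val_π_ne_zero) S.val_π_lt_one hj
  exact absurd (lt_of_lt_of_le h6 h5) (lt_irrefl _)

/-- **The decomposition** `x = ∑_{j<e} c_j π^j`, `c_j` inertia-fixed, for `x` fixed by `N`;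
the `c_j` are in the inertia ring when `x ∈ P`. -/
theorem exists_decomp {x : Kb} (hxN : FixedBy (stabI P π) x) :
    ∃ c : ℕ → Kb, (∀ j, ∀ σ ∈ P.inertiaSubgroupIn ℚ, σ (c j) = c j) ∧
      x = ∑ j ∈ Finset.range e, c j * π ^ j ∧ (x ∈ P → ∀ j, c j ∈ inertiaRing P) ∧
      (x ∈ P.nonunits → c 0 ∈ P.nonunits) := by
  obtain ⟨σ₀, hσ₀, hζ⟩ := S.exists_generator
  refine ⟨fun j => if j < e then tameComp e π σ₀ j x / π ^ j else 0, ?_, ?_, ?_, ?_⟩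
  · intro j σ hσ
    show σ (if j < e then tameComp e π σ₀ j x / π ^ j else 0) =
      (if j < e then tameComp e π σ₀ j x / π ^ j else 0)
    split_ifs with hj
    · exact S.tameCoeff_fixed hσ₀ hζ hxN j hσ
    · exact map_zero σ
  · conv_lhs => rw [← sum_tameComp hζ S.e_ne_zero x]
    refine Finset.sum_congr rfl fun j hj => ?_
    show _ = (if j < e then tameComp e π σ₀ j x / π ^ j else 0) * π ^ j
    rw [if_pos (Finset.mem_range.1 hj), div_mul_cancel₀ _ (pow_ne_zero _ S.hπ0)]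
  · intro hx j
    show (if j < e then tameComp e π σ₀ j x / π ^ j else 0) ∈ inertiaRing P
    split_ifs with hj
    · exact S.tameCoeff_mem hσ₀ hζ hx hxN hj
    · exact (inertiaRing P).zero_mem
  · intro hx
    show (if 0 < e then tameComp e π σ₀ 0 x / π ^ 0 else 0) ∈ P.nonunits
    rw [if_pos S.e_pos, pow_zero, div_one]
    exact S.tameComp_zero_mem_nonunits hσ₀ hx

/-- **`π` is a uniformiser of `O_N`**: a nonunit of `P` fixed by `N = stabI P π` is divisible by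
`π` in `P`. -/
theorem unif {x : Kb} (hx : x ∈ P.nonunits) (hxN : FixedBy (stabI P π) x) : x / π ∈ P := by
  obtain ⟨c, hcfix, hsum, hcR, hc0⟩ := S.exists_decomp hxN
  have hcP := hcR (P.nonunits_subset hx)
  rw [hsum, Finset.sum_div]
  refine sum_mem fun j _ => ?_
  rcases Nat.eq_zero_or_pos j with hj | hj
  · subst hj
    rw [pow_zero, mul_one]
    have h1 : c 0 / (p : Kb) ∈ P := unrProp p S.hp P S.hP (c 0) (hc0 hx) (hcfix 0)
    have hpow : π ^ e = π ^ (e - 1) * π := by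
      rw [← pow_succ, Nat.sub_add_cancel S.e_pos]
    have h2 : c 0 / π = (c 0 / (p : Kb)) * ((p : Kb) / π ^ e) * π ^ (e - 1) := by
      have hp0 := S.p_ne_zero
      have hπ0 := S.hπ0
      rw [hpow]
      field_simp
    rw [h2]
    exact P.mul_mem _ _ (P.mul_mem _ _ h1 S.hpπ) (pow_mem S.π_mem _)
  · have h2 : c j * π ^ j / π = c j * π ^ (j - 1) := by
      have hπ0 := S.hπ0
      have hpow : π ^ j = π ^ (j - 1) * π := by
        rw [← pow_succ, Nat.sub_add_cancel hj]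
      rw [hpow]
      field_simp
    rw [h2]
    exact P.mul_mem _ _ (hcP j).1 (pow_mem S.π_mem _)

end TameSetting

/-! ### The case `π1 ^ (p² - 1) = -p` -/

theorem tameSetting_of_isPi1 {p : ℕ} {P : ValuationSubring Kb} {π1 : Kb} (hp : p.Prime)
    (hP : P.LiesOverPrime p) (hπ : IsPi1 p π1) : TameSetting p P (p ^ 2 - 1) π1 := by
  have hp0 : (p : Kb) ≠ 0 := ar_p_ne_zero hp
  have hπ' : π1 ^ (p ^ 2 - 1) = -(p : Kb) := hπ
  refine ⟨hp, hP, ?_, ?_, ?_, ?_, ?_⟩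
  · intro hdvd
    have h1 : 1 ≤ p ^ 2 := Nat.one_le_pow _ _ hp.pos
    have h2 : p ∣ p ^ 2 := dvd_pow_self p (by norm_num)
    have h3 : p ∣ p ^ 2 - (p ^ 2 - 1) := Nat.dvd_sub h2 hdvd
    have h4 : p ^ 2 - (p ^ 2 - 1) = 1 := by omega
    rw [h4] at h3
    exact hp.one_lt.ne' (Nat.dvd_one.1 h3)
  · rintro rfl
    have h1 : p ^ 2 - 1 ≠ 0 := by
      have : 2 ≤ p := hp.two_le
      have : 4 ≤ p ^ 2 := by nlinarith
      omega
    rw [zero_pow h1] at hπ'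
    exact hp0 (neg_eq_zero.1 hπ'.symm)
  · intro σ _
    rw [hπ', map_neg, map_natCast]
  · rw [hπ', neg_div, div_self hp0]
    exact P.neg_mem _ P.one_mem
  · rw [hπ', div_neg, div_self hp0]
    exact P.neg_mem _ P.one_mem

/-- **The `UnitSetting` of UNIT/KUM** for `N = N₁ = stabI P π1`, `π1 ^ (p² - 1) = -p`. -/
theorem unitSetting_stabI {p : ℕ} {P : ValuationSubring Kb} {π1 : Kb} (hp : p.Prime)
    (hP : P.LiesOverPrime p) (hπ : IsPi1 p π1) : UnitSetting p P π1 (stabI P π1) where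
  hp := hp
  hP := hP
  hπ := hπ
  hNI := stabI_le P π1
  hπN := fun _ hσ => hσ.2
  teich := fun x hx => by
    obtain ⟨t, ht, hxt⟩ := exists_inertiaRing_sub_mem hp hP hx
    exact ⟨t, ht, hxt⟩
  unif := fun x hx hxN => (tameSetting_of_isPi1 hp hP hπ).unif hx hxN
  root := fun x _ hxN hsmall => by
    obtain ⟨y, -, hyN, hy, -⟩ := exists_pthRoot_fixed hp hP (stabI P π1)
      (fun σ hσ => (tameSetting_of_isPi1 hp hP hπ).mem_decomp_of_inertia hσ.1) hxN hsmall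
    exact ⟨y, hyN, hy⟩

end Fermat.Agent.FFL.FB
end MergeWrap_Lib_FFL_FB_FieldTame

section MergeWrap_Lib_FFL_FB_KTDefs -- from Lib/FFL/FB/KTDefs.lean

set_option autoImplicit false

namespace Fermat.Agent.FFL.FB

open Fermat.Agent.FFL

local notation "Kb" => AlgebraicClosure ℚ
local notation "GK" => (AlgebraicClosure ℚ ≃ₐ[ℚ] AlgebraicClosure ℚ)

/-- `χ` is additive on `N`. -/
def IsCharOn (p : ℕ) (N : Subgroup GK) (χ : GK → ZMod p) : Prop :=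
  ∀ g ∈ N, ∀ h ∈ N, χ (g * h) = χ g + χ h

/-- `χ` is smooth: it vanishes on the fixing subgroup of a finite extension of `ℚ`. -/
def IsSmoothChar (p : ℕ) (χ : GK → ZMod p) : Prop :=
  ∃ F : IntermediateField ℚ Kb, FiniteDimensional ℚ F ∧ ∀ h ∈ F.fixingSubgroup, χ h = 0

/-- `u` is in unit normal form: level `s`, `0 < s < p² + p`, `p ∤ s`, leading coefficient `a` a
unit of `R'`. -/
def UnitNF (p : ℕ) (P : ValuationSubring Kb) (π1 : Kb) (s : ℕ) (a u : Kb) : Prop :=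
  0 < s ∧ s < p ^ 2 + p ∧ ¬ p ∣ s ∧ a ∈ inertiaRing P ∧ a ∉ P.nonunits ∧ LcAt P π1 s u a

/-- `u` is in non-unit normal form: `u = π1 ^ m · unit`, `0 < m < p`. -/
def NonunitNF (p : ℕ) (P : ValuationSubring Kb) (π1 : Kb) (m : ℕ) (u : Kb) : Prop :=
  0 < m ∧ m < p ∧ u / π1 ^ m ∈ P ∧ π1 ^ m / u ∈ P

/-- **KUM-EXIST**: a smooth character of `N1` has a Kummer generator `β` with `β ^ p` in normal
form (or the character is trivial on `N1`). -/
def KumExistStatement (p : ℕ) (P : ValuationSubring Kb) (π1 : Kb) : Prop :=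
  ∀ (ζ : Kb) (χ : GK → ZMod p), IsPrimitiveRoot ζ p → IsCharOn p (stabI P π1) χ →
    IsSmoothChar p χ →
    ∃ β : Kb, IsKummerGen p (stabI P π1 : Set GK) ζ χ β ∧
      ((∀ g ∈ stabI P π1, χ g = 0) ∨ (∃ m : ℕ, NonunitNF p P π1 m (β ^ p)) ∨
        ∃ (s : ℕ) (a : Kb), UnitNF p P π1 s a (β ^ p))

/-- **KUM-UNIQUE**: if one generator of `χ` is in unit normal form of level `s`, no generator of
`χ` has level `≥ s + 1`. -/
def KumUniqueStatement (p : ℕ) (P : ValuationSubring Kb) (π1 : Kb) : Prop :=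
  ∀ (ζ : Kb) (χ : GK → ZMod p) (β β' a : Kb) (s : ℕ), IsPrimitiveRoot ζ p →
    IsKummerGen p (stabI P π1 : Set GK) ζ χ β → IsKummerGen p (stabI P π1 : Set GK) ζ χ β' →
    UnitNF p P π1 s a (β ^ p) → ¬ InU P π1 (s + 1) (β' ^ p)

/-- **KUM-CONJ**: for `σ` in the decomposition group with `σ ζ = ζ ^ w`, `σ β` is a Kummer
generator of `g ↦ w · χ(σ⁻¹ g σ)`. -/
def KumConjStatement (p : ℕ) (P : ValuationSubring Kb) (π1 : Kb) : Prop :=
  ∀ (ζ : Kb) (χ : GK → ZMod p) (β : Kb) (σ : GK) (w : ℕ), IsPrimitiveRoot ζ p →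
    σ ∈ P.decompositionSubgroup ℚ → σ ζ = ζ ^ w →
    IsKummerGen p (stabI P π1 : Set GK) ζ χ β →
    IsKummerGen p (stabI P π1 : Set GK) ζ (fun g => (w : ZMod p) * χ (σ⁻¹ * g * σ)) (σ β)

/-- **KUM-REL**: if `∑_j n_j · w_j · χ(σ_j⁻¹ g σ_j) = 0` on `N1` (`σ_j` in the decomposition
group, `σ_j ζ = ζ ^ w_j`) and `β ^ p` is in unit normal form of level `s` with leading coefficient
`a`, then `∑_j n_j θ(σ_j)^s σ_j(a) ≡ 0` modulo the maximal ideal. -/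
def KumRelStatement (p : ℕ) (P : ValuationSubring Kb) (π1 : Kb) : Prop :=
  ∀ (ζ : Kb) (χ : GK → ZMod p) (β a : Kb) (s : ℕ), IsPrimitiveRoot ζ p →
    IsCharOn p (stabI P π1) χ → IsKummerGen p (stabI P π1 : Set GK) ζ χ β →
    UnitNF p P π1 s a (β ^ p) →
    ∀ (r : ℕ) (σ : Fin r → GK) (w : Fin r → ℕ) (n : Fin r → ℤ),
      (∀ j, σ j ∈ P.decompositionSubgroup ℚ) → (∀ j, σ j ζ = ζ ^ w j) →
      (∀ g ∈ stabI P π1, ∑ j, n j • ((w j : ZMod p) * χ ((σ j)⁻¹ * g * σ j)) = 0) →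
      ∑ j, (n j : Kb) * ((σ j π1 / π1) ^ s * σ j a) ∈ P.nonunits

/-- **GOOD**: level `≥ p² + 1` gives `v(β - 1) ≥ (p² + 1)/(p (p² - 1))`. -/
def GoodOfLevelStatement (p : ℕ) (P : ValuationSubring Kb) (π1 : Kb) : Prop :=
  ∀ (β a : Kb) (s : ℕ), UnitNF p P π1 s a (β ^ p) → p ^ 2 + 1 ≤ s →
    (β - 1) ^ (p * (p ^ 2 - 1)) / (p : Kb) ^ (p ^ 2 + 1) ∈ P

/-- **CYC-TAME**: on inertia the cyclotomic character is `θ ^ (p + 1)` modulo the maximal
ideal. -/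
def CycTameStatement (p : ℕ) (P : ValuationSubring Kb) (π1 : Kb) : Prop :=
  ∀ (ζ : Kb) (τ : GK) (w : ℕ), IsPrimitiveRoot ζ p → τ ∈ P.inertiaSubgroupIn ℚ → τ ζ = ζ ^ w →
    (w : Kb) - (τ π1 / π1) ^ (p + 1) ∈ P.nonunits

/-- **DEPTH** (unit case). -/
def DepthStatement (p : ℕ) (P : ValuationSubring Kb) (π1 : Kb) : Prop :=
  ∀ (ζ : Kb) (χ : GK → ZMod p) (β a : Kb) (s : ℕ),
    IsPrimitiveRoot ζ p → IsCharOn p (stabI P π1) χ →
    IsKummerGen p (stabI P π1 : Set GK) ζ χ β →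
    0 < s → s < p ^ 2 + p → ¬ p ∣ s → a ∈ inertiaRing P → a ∉ P.nonunits →
    LcAt P π1 s (β ^ p) a →
    ∀ x ∈ P, (∀ h ∈ stabI P π1, χ h = 0 → h x = x) →
      ∀ g ∈ stabI P π1,
        (g x - x) ^ (p * (p ^ 2 - 1)) / (p : Kb) ^ (p ^ 2 + p + 1 - s) ∈ P

/-- **DEPTH** (non-unit case). -/
def DepthNUStatement (p : ℕ) (P : ValuationSubring Kb) (π1 : Kb) : Prop :=
  ∀ (ζ : Kb) (χ : GK → ZMod p) (β : Kb) (m : ℕ),
    IsPrimitiveRoot ζ p → IsCharOn p (stabI P π1) χ →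
    IsKummerGen p (stabI P π1 : Set GK) ζ χ β →
    0 < m → m < p → β ^ p / π1 ^ m ∈ P → π1 ^ m / β ^ p ∈ P →
    ∀ x ∈ P, (∀ h ∈ stabI P π1, χ h = 0 → h x = x) →
      ∀ g ∈ stabI P π1,
        (g x - x) ^ (p * (p ^ 2 - 1)) / (p : Kb) ^ (p ^ 2 + p + 1) ∈ P

/-! ### The two line analyses (abstract form) -/

/-- CHEAP for one character: `v(g x - x) ≤ p/(p² - 1)` for some `x ∈ P` fixed by `ker χ`. -/
def CheapAt (p : ℕ) (P : ValuationSubring Kb) (π1 : Kb) (χ : GK → ZMod p) : Prop :=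
  ∀ g ∈ stabI P π1, χ g ≠ 0 → ∃ x ∈ P, (∀ h ∈ stabI P π1, χ h = 0 → h x = x) ∧
    g x - x ≠ 0 ∧ (p : Kb) ^ p / (g x - x) ^ (p ^ 2 - 1) ∈ P

/-- SHARP for one character: `v(g x - x) ≤ 1/(p² - 1)` for some `x ∈ P` fixed by `ker χ`. -/
def SharpAt (p : ℕ) (P : ValuationSubring Kb) (π1 : Kb) (χ : GK → ZMod p) : Prop :=
  ∀ g ∈ stabI P π1, χ g ≠ 0 → ∃ x ∈ P, (∀ h ∈ stabI P π1, χ h = 0 → h x = x) ∧
    g x - x ≠ 0 ∧ (p : Kb) / (g x - x) ^ (p ^ 2 - 1) ∈ P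

/-- `θ(τ) = τ π1 / π1` has exact order `p² - 1` modulo the maximal ideal. -/
def TameGen (p : ℕ) (P : ValuationSubring Kb) (π1 : Kb) (τ : GK) : Prop :=
  τ ∈ P.inertiaSubgroupIn ℚ ∧
    ∀ n : ℕ, (τ π1 / π1) ^ n - 1 ∈ P.nonunits → (p ^ 2 - 1) ∣ n

/-- **E-LINE**: a smooth character `χ` of `N1` with CHEAP and with
`w² χ(τ⁻² g τ²) - t w χ(τ⁻¹ g τ) + n χ(g) = 0` on `N1`, where `X² - t X + n` has the roots
`θ(τ)²`, `θ(τ)^(2p)` modulo the maximal ideal, has a Kummer generator `β` with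
`v(β - 1) ≥ (p² + 1)/(p (p² - 1))`. -/
def EStatement (p : ℕ) (P : ValuationSubring Kb) (π1 : Kb) : Prop :=
  ∀ (ζ : Kb) (χ : GK → ZMod p) (τ : GK) (w : ℕ) (t n : ℤ), IsPrimitiveRoot ζ p →
    IsCharOn p (stabI P π1) χ → IsSmoothChar p χ → TameGen p P π1 τ → τ ζ = ζ ^ w →
    (∀ g ∈ stabI P π1, (w : ZMod p) * ((w : ZMod p) * χ (τ⁻¹ * (τ⁻¹ * g * τ) * τ)) -
      t • ((w : ZMod p) * χ (τ⁻¹ * g * τ)) + n • χ g = 0) →
    (t : Kb) - ((τ π1 / π1) ^ 2 + (τ π1 / π1) ^ (2 * p)) ∈ P.nonunits →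
    (n : Kb) - (τ π1 / π1) ^ (2 * p + 2) ∈ P.nonunits →
    CheapAt p P π1 χ →
    ∃ β : Kb, IsKummerGen p (stabI P π1 : Set GK) ζ χ β ∧
      (β - 1) ^ (p * (p ^ 2 - 1)) / (p : Kb) ^ (p ^ 2 + 1) ∈ P

/-- **ETA-LINE**: a family `X` of smooth characters of `N1`, closed under `χ' - n χ`, invariant
under conjugation by `τ` and anti-invariant under conjugation by a Frobenius `φ`, with CHEAP for
all members and SHARP for a member generating the family on `N1`: all members vanish on `N1`. -/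
def EtaStatement (p : ℕ) (P : ValuationSubring Kb) (π1 : Kb) : Prop :=
  ∀ (ζ : Kb) (X : Set (GK → ZMod p)) (τ φ : GK), IsPrimitiveRoot ζ p →
    (∀ χ ∈ X, IsCharOn p (stabI P π1) χ ∧ IsSmoothChar p χ) →
    (∀ χ ∈ X, ∀ χ' ∈ X, ∀ n : ℤ, (fun g => χ' g - n • χ g) ∈ X) →
    TameGen p P π1 τ →
    (∀ χ ∈ X, ∀ g ∈ stabI P π1, χ (τ⁻¹ * g * τ) = χ g) →
    φ ∈ P.decompositionSubgroup ℚ → (∀ a ∈ inertiaRing P, φ a - a ^ p ∈ P.nonunits) →
    (∀ χ ∈ X, ∀ g ∈ stabI P π1, χ (φ⁻¹ * g * φ) = -χ g) →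
    (∀ χ ∈ X, CheapAt p P π1 χ) →
    (∀ χ₁ ∈ X, (∀ χ ∈ X, ∃ n : ℤ, ∀ g ∈ stabI P π1, χ g = n • χ₁ g) → SharpAt p P π1 χ₁) →
    ∀ χ ∈ X, ∀ g ∈ stabI P π1, χ g = 0

end Fermat.Agent.FFL.FB
end MergeWrap_Lib_FFL_FB_KTDefs

section MergeWrap_Lib_FFL_FB_CycTame -- from Lib/FFL/FB/CycTame.lean

set_option autoImplicit false
set_option linter.style.haveILetI false
set_option linter.unusedSectionVars false

namespace Fermat.Agent.FFL.FB

open Fermat.Agent.FFL Fermat.Agent.Cyclo Polynomial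

local notation "Kb" => AlgebraicClosure ℚ
local notation "GK" => (AlgebraicClosure ℚ ≃ₐ[ℚ] AlgebraicClosure ℚ)

variable {p : ℕ} {P : ValuationSubring Kb} {π1 : Kb}

theorem succ_mul_pred_eq (hp : p.Prime) : (p + 1) * (p - 1) = p ^ 2 - 1 := by
  obtain ⟨q, rfl⟩ : ∃ q, p = q + 1 := ⟨p - 1, (Nat.sub_add_cancel hp.one_le).symm⟩
  have h1 : (q + 1) ^ 2 = (q + 1 + 1) * q + 1 := by ring
  rw [h1]
  simp

/-- `λ = π1 ^ (p+1)` satisfies `λ ^ (p-1) = -p`. -/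
theorem pi1_pow_succ_pow (hp : p.Prime) (hπ : IsPi1 p π1) :
    (π1 ^ (p + 1)) ^ (p - 1) = -(p : Kb) := by
  rw [← pow_mul, succ_mul_pred_eq hp]
  exact hπ

/-- `(ζ - 1) / π1 ^ (p+1)` is a unit of `P`. -/
theorem val_zeta_div (hp : p.Prime) (hP : P.LiesOverPrime p) (hπ : IsPi1 p π1) {ζ : Kb}
    (hζ : IsPrimitiveRoot ζ p) : P.valuation ((ζ - 1) / π1 ^ (p + 1)) = 1 := by
  have S := tameSetting_of_isPi1 hp hP hπ
  have hv1 : P.valuation (ζ - 1) ^ (p - 1) = P.valuation (p : Kb) :=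
    val_root_sub_one_pow hp hζ.pow_eq_one (hζ.ne_one hp.one_lt)
  have hvl : P.valuation (π1 ^ (p + 1)) ^ (p - 1) = P.valuation (p : Kb) := by
    rw [← map_pow, pi1_pow_succ_pow hp hπ, Valuation.map_neg]
  have h1 : P.valuation ((ζ - 1) / π1 ^ (p + 1)) ^ (p - 1) = 1 := by
    rw [map_div₀, div_pow, hv1, hvl, div_self S.val_p_ne_zero]
  exact (pow_eq_one_iff_of_nonneg zero_le (Nat.sub_ne_zero_of_lt hp.one_lt)).1 h1

theorem val_zeta_sub_one (hp : p.Prime) (hP : P.LiesOverPrime p) (hπ : IsPi1 p π1) {ζ : Kb}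
    (hζ : IsPrimitiveRoot ζ p) :
    (ζ - 1) / π1 ^ (p + 1) ∈ P ∧ π1 ^ (p + 1) / (ζ - 1) ∈ P := by
  have h := val_zeta_div hp hP hπ hζ
  refine ⟨(P.valuation_le_one_iff _).1 h.le, ?_⟩
  rw [← inv_div, ← P.valuation_le_one_iff, map_inv₀, h, inv_one]

theorem zeta_sub_one_mem_nonunits (hp : p.Prime) (hP : P.LiesOverPrime p) {ζ : Kb}
    (hζ : ζ ^ p = 1) : ζ - 1 ∈ P.nonunits := by
  by_cases hζ1 : ζ = 1
  · rw [hζ1, sub_self]
    exact red_zero_mem_nonunits P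
  have hv1 : P.valuation (ζ - 1) ^ (p - 1) = P.valuation (p : Kb) :=
    val_root_sub_one_pow hp hζ hζ1
  rw [ValuationSubring.mem_nonunits_iff]
  by_contra h
  rw [not_lt] at h
  have h1 : (1 : _) ≤ P.valuation (ζ - 1) ^ (p - 1) := one_le_pow₀ h
  rw [hv1] at h1
  exact absurd (lt_of_le_of_lt h1 (ar_val_p_lt hP)) (lt_irrefl _)

/-- `1 + ζ + ⋯ + ζ^(w-1) ≡ w` modulo the maximal ideal. -/
theorem geom_sum_zeta_sub_mem (hp : p.Prime) (hP : P.LiesOverPrime p) {ζ : Kb}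
    (hζ : ζ ^ p = 1) (w : ℕ) :
    (∑ i ∈ Finset.range w, ζ ^ i) - (w : Kb) ∈ P.nonunits := by
  have hζP : ζ ∈ P := pow_eq_one_mem P hp.ne_zero hζ
  have h1 : (∑ i ∈ Finset.range w, ζ ^ i) - (w : Kb) = ∑ i ∈ Finset.range w, (ζ ^ i - 1) := by
    rw [Finset.sum_sub_distrib, Finset.sum_const, Finset.card_range, nsmul_eq_mul, mul_one]
  rw [h1, ValuationSubring.mem_nonunits_iff]
  refine Valuation.map_sum_lt _ one_ne_zero fun i _ => ?_
  rw [← ValuationSubring.mem_nonunits_iff]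
  have h2 := pow_sub_pow_mem_nonunits hζP P.one_mem (zeta_sub_one_mem_nonunits hp hP hζ) i
  rwa [one_pow] at h2

/-- **KT-CYC**: on inertia the cyclotomic character is `θ ^ (p + 1)` modulo the maximal
ideal. -/
theorem cycTame (hp : p.Prime) (hP : P.LiesOverPrime p) (hπ : IsPi1 p π1) :
    CycTameStatement p P π1 := by
  intro ζ τ w hζ hτ hτζ
  have S := tameSetting_of_isPi1 hp hP hπ
  have hζp : ζ ^ p = 1 := hζ.pow_eq_one
  have hζ1 : ζ - 1 ≠ 0 := sub_ne_zero.2 (hζ.ne_one hp.one_lt)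
  have hlam0 : π1 ^ (p + 1) ≠ 0 := pow_ne_zero _ S.hπ0
  obtain ⟨hy, hyinv⟩ := val_zeta_sub_one hp hP hπ hζ
  set θ := τ π1 / π1 with hθ
  have hθ0 : θ ≠ 0 := S.tame_ne_zero τ
  have hΘP : θ ^ (p + 1) ∈ P := pow_mem (pow_eq_one_mem P S.e_ne_zero (S.tame_pow_eq_one hτ)) _
  set g := ∑ i ∈ Finset.range w, ζ ^ i with hg
  have hgw : g - (w : Kb) ∈ P.nonunits := geom_sum_zeta_sub_mem hp hP hζp w
  have hτy : τ ((ζ - 1) / π1 ^ (p + 1)) - (ζ - 1) / π1 ^ (p + 1) ∈ P.nonunits :=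
    inertia_sub_mem_nonunits P hτ hy
  have hτy' : τ ((ζ - 1) / π1 ^ (p + 1)) = (ζ - 1) * g / (θ ^ (p + 1) * π1 ^ (p + 1)) := by
    rw [map_div₀, map_sub, map_one, map_pow, hτζ, S.smul_π (σ := τ), mul_pow, ← mul_geom_sum]
  have hkey : g - θ ^ (p + 1) =
      (τ ((ζ - 1) / π1 ^ (p + 1)) - (ζ - 1) / π1 ^ (p + 1)) *
        (θ ^ (p + 1) * (π1 ^ (p + 1) / (ζ - 1))) := by
    rw [hτy']
    have hΘ0 : θ ^ (p + 1) ≠ 0 := pow_ne_zero _ hθ0
    field_simp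
  have h1 : g - θ ^ (p + 1) ∈ P.nonunits := by
    rw [hkey]
    exact red_mul_mem_nonunits_right P hτy (P.mul_mem _ _ hΘP hyinv)
  have h2 : (w : Kb) - θ ^ (p + 1) = (g - θ ^ (p + 1)) - (g - (w : Kb)) := by ring
  rw [h2]
  exact red_sub_mem_nonunits P h1 hgw

/-- A `p`-th root of unity is fixed by `N1 = stabI P π1`: `ζ ∈ K1`. -/
theorem zeta_fixed_of_stabI (hp : p.Prime) (hP : P.LiesOverPrime p) (hπ : IsPi1 p π1)
    {ζ : Kb} (hζ : ζ ^ p = 1) {τ : GK} (hτ : τ ∈ stabI P π1) : τ ζ = ζ := by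
  by_cases hζ1 : ζ = 1
  · rw [hζ1, map_one]
  have hprim : IsPrimitiveRoot ζ p :=
    isPrimitiveRoot_of_mem_nthRootsFinset hp ((mem_nthRootsFinset hp.pos 1).2 hζ) hζ1
  haveI : NeZero p := ⟨hp.ne_zero⟩
  have S := tameSetting_of_isPi1 hp hP hπ
  -- `τ ζ = ζ ^ w`
  have hτζp : (τ ζ) ^ p = 1 := by rw [← map_pow, hζ, map_one]
  obtain ⟨w, hw, hwζ⟩ := hprim.eq_pow_of_pow_eq_one hτζp
  have h1 := cycTame hp hP hπ ζ τ w hprim hτ.1 hwζ.symm
  rw [hτ.2, div_self S.hπ0, one_pow] at h1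
  -- `w ≡ 1` modulo `p`
  have hdvd : (p : ℤ) ∣ (w : ℤ) - 1 := by
    by_contra hnd
    have h3 := ar_val_int_eq_one hp hP hnd
    have h4 : P.valuation (((w : ℤ) - 1 : ℤ) : Kb) < 1 := by
      have := (ValuationSubring.mem_nonunits_iff P).1 h1
      push_cast
      exact this
    rw [h3] at h4
    exact lt_irrefl _ h4
  have h2 : (w : ℤ) - 1 = 0 := by
    refine Int.eq_zero_of_abs_lt_dvd hdvd (abs_lt.2 ⟨?_, ?_⟩)
    · have : 2 ≤ p := hp.two_le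
      omega
    · omega
  have hw1 : w = 1 := by omega
  rw [← hwζ, hw1, pow_one]

end Fermat.Agent.FFL.FB
end MergeWrap_Lib_FFL_FB_CycTame

section MergeWrap_Lib_BadRed_PeuD_BrkTame -- from Lib/BadRed/PeuD/BrkTame.lean

set_option autoImplicit false
set_option linter.unusedSectionVars false
set_option linter.unusedVariables false
set_option linter.style.haveILetI false

noncomputable section

namespace Fermat.Agent.PeuD

open Fermat.Agent.FFL Fermat.Agent.FFL.FB AlgebraicCurve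

local notation "Kb" => AlgebraicClosure ℚ
local notation "GK" => (AlgebraicClosure ℚ ≃ₐ[ℚ] AlgebraicClosure ℚ)

variable {p : ℕ} {P : ValuationSubring Kb} {ζ π1 : Kb}

theorem brkTame_pi_ne (hp : p.Prime) (hζ : IsPrimitiveRoot ζ p) : ζ - 1 ≠ 0 :=
  sub_ne_zero.2 (hζ.ne_one hp.one_lt)

theorem brkTame_pi_lt (hp : p.Prime) (hP : P.LiesOverPrime p) (hζ : IsPrimitiveRoot ζ p) :
    P.valuation (ζ - 1) < 1 :=
  (ValuationSubring.mem_nonunits_iff P).1 (zeta_sub_one_mem_nonunits hp hP hζ.pow_eq_one)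

theorem brkTame_val_p (hp : p.Prime) (hζ : IsPrimitiveRoot ζ p) :
    P.valuation (p : Kb) = P.valuation (ζ - 1) ^ (p - 1) :=
  (val_root_sub_one_pow hp hζ.pow_eq_one (hζ.ne_one hp.one_lt)).symm

theorem brkTame_val_varpi (hp : p.Prime) (hζ : IsPrimitiveRoot ζ p) :
    P.valuation ((p : Kb) ^ 12) = P.valuation (ζ - 1) ^ (12 * (p - 1)) := by
  rw [map_pow, brkTame_val_p hp hζ, ← pow_mul, mul_comm]

theorem brkTame_not_dvd (hp : p.Prime) (h5 : 5 ≤ p) : ¬ (p : ℤ) ∣ ((12 * (p - 1) : ℕ) : ℤ) := by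
  intro h
  have h1 : p ∣ 12 * (p - 1) := by exact_mod_cast h
  rcases (Nat.Prime.dvd_mul hp).1 h1 with h2 | h2
  · have h3 : p ≤ 12 := Nat.le_of_dvd (by norm_num) h2
    interval_cases p <;> simp_all (config := { decide := true })
  · have h3 : p ≤ p - 1 := Nat.le_of_dvd (by omega) h2
    omega

/-- a root `π₁` of `X ^ (p² - 1) = -p`. -/
theorem brkTame_exists_pi1 (hp : p.Prime) : ∃ π1 : Kb, IsPi1 p π1 := by
  have h0 : 0 < p ^ 2 - 1 := by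
    have : 2 ≤ p := hp.two_le
    have : 4 ≤ p ^ 2 := by nlinarith
    omega
  obtain ⟨z, hz⟩ := IsAlgClosed.exists_pow_nat_eq (-(p : Kb)) h0
  exact ⟨z, hz⟩

/-- the tame setting of `λ = π₁ ^ (p + 1)`, `λ ^ (p - 1) = -p`. -/
theorem brkTame_tameSetting (hp : p.Prime) (hP : P.LiesOverPrime p) (hπ : IsPi1 p π1) :
    TameSetting p P (p - 1) (π1 ^ (p + 1)) := by
  have hp0 : (p : Kb) ≠ 0 := ar_p_ne_zero hp
  have hlam : (π1 ^ (p + 1)) ^ (p - 1) = -(p : Kb) := pi1_pow_succ_pow hp hπ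
  have hπ0 : π1 ≠ 0 := (tameSetting_of_isPi1 hp hP hπ).hπ0
  refine ⟨hp, hP, ?_, pow_ne_zero _ hπ0, ?_, ?_, ?_⟩
  · intro hdvd
    have h1 : p ≤ p - 1 := Nat.le_of_dvd (by have := hp.two_le; omega) hdvd
    have := hp.two_le
    omega
  · intro σ _
    rw [hlam, map_neg, map_natCast]
  · rw [hlam, neg_div, div_self hp0]
    exact neg_mem P.one_mem
  · rw [hlam, div_neg, div_self hp0]
    exact neg_mem P.one_mem

/-- `stabI P λ ≤ stabI P ζ`: an inertia element fixing `λ = π₁ ^ (p + 1)` fixes `ζ`. -/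
theorem brkTame_zeta_fixed (hp : p.Prime) (hP : P.LiesOverPrime p) (hπ : IsPi1 p π1)
    (hζ : IsPrimitiveRoot ζ p) {τ : GK} (hτ : τ ∈ stabI P (π1 ^ (p + 1))) : τ ζ = ζ := by
  haveI : NeZero p := ⟨hp.ne_zero⟩
  have hπ0 : π1 ≠ 0 := (tameSetting_of_isPi1 hp hP hπ).hπ0
  have hτζp : (τ ζ) ^ p = 1 := by rw [← map_pow, hζ.pow_eq_one, map_one]
  obtain ⟨w, hw, hwζ⟩ := hζ.eq_pow_of_pow_eq_one hτζp
  have h1 := cycTame hp hP hπ ζ τ w hζ hτ.1 hwζ.symm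
  have hθ : (τ π1 / π1) ^ (p + 1) = 1 := by
    rw [div_pow, ← map_pow, hτ.2, div_self (pow_ne_zero _ hπ0)]
  rw [hθ] at h1
  have hdvd : (p : ℤ) ∣ (w : ℤ) - 1 := by
    by_contra hnd
    have h3 := ar_val_int_eq_one hp hP hnd
    have h4 : P.valuation (((w : ℤ) - 1 : ℤ) : Kb) < 1 := by
      have := (ValuationSubring.mem_nonunits_iff P).1 h1
      push_cast
      exact this
    rw [h3] at h4
    exact lt_irrefl _ h4
  have h2 : (w : ℤ) - 1 = 0 := by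
    refine Int.eq_zero_of_abs_lt_dvd hdvd (abs_lt.2 ⟨?_, ?_⟩)
    · have : 2 ≤ p := hp.two_le
      omega
    · omega
  have hw1 : w = 1 := by omega
  rw [← hwζ, hw1, pow_one]

/-- `v λ = v (ζ - 1)`. -/
theorem brkTame_val_lam (hp : p.Prime) (hP : P.LiesOverPrime p) (hπ : IsPi1 p π1)
    (hζ : IsPrimitiveRoot ζ p) : P.valuation (π1 ^ (p + 1)) = P.valuation (ζ - 1) := by
  have h := val_zeta_div hp hP hπ hζ
  have hπ0 : π1 ≠ 0 := (tameSetting_of_isPi1 hp hP hπ).hπ0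
  have h0 : P.valuation (π1 ^ (p + 1)) ≠ 0 := (Valuation.ne_zero_iff _).2 (pow_ne_zero _ hπ0)
  rw [map_div₀, div_eq_one_iff_eq h0] at h
  exact h.symm

/-- integral form of `val_rat`. -/
theorem brkTame_val_rat_int (hp : p.Prime) (hP : P.LiesOverPrime p) (hζ : IsPrimitiveRoot ζ p)
    {c : Kb} (hc0 : c ≠ 0) (hcP : c ∈ P) (hc : ∀ σ ∈ stabI P ζ, σ c = c) :
    ∃ n : ℕ, P.valuation c = P.valuation (ζ - 1) ^ n := by
  obtain ⟨π1, hπ⟩ := brkTame_exists_pi1 (p := p) hp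
  have S := brkTame_tameSetting hp hP hπ
  have hfix : ∀ σ ∈ stabI P (π1 ^ (p + 1)), σ c = c := fun σ hσ =>
    hc σ ⟨hσ.1, brkTame_zeta_fixed hp hP hπ hζ hσ⟩
  obtain ⟨n, hn⟩ := fm_val_eq_pow hp hP (stabI P (π1 ^ (p + 1))) S.hπ0 S.π_mem_nonunits
    (fun σ hσ => hσ.2) (fun x hx hxfix => S.unif hx hxfix) hc0 hcP hfix
  exact ⟨n, by rw [hn, brkTame_val_lam hp hP hπ hζ]⟩

/-- **BRK-TAME (ii)**: the value group of `K₁ = K₀(ζ)` is generated by `v (ζ - 1)`. -/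
theorem brkTame_val_rat (hp : p.Prime) (hP : P.LiesOverPrime p) (hζ : IsPrimitiveRoot ζ p)
    {c : Kb} (hc0 : c ≠ 0) (hc : ∀ σ ∈ stabI P ζ, σ c = c) :
    ∃ n : ℤ, P.valuation c = P.valuation (ζ - 1) ^ n := by
  rcases P.mem_or_inv_mem c with hcP | hcP
  · obtain ⟨n, hn⟩ := brkTame_val_rat_int hp hP hζ hc0 hcP hc
    exact ⟨n, by rw [hn, zpow_natCast]⟩
  · obtain ⟨n, hn⟩ := brkTame_val_rat_int hp hP hζ (inv_ne_zero hc0) hcP
      (fun σ hσ => by rw [map_inv₀, hc σ hσ])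
    refine ⟨-(n : ℤ), ?_⟩
    rw [map_inv₀] at hn
    rw [zpow_neg, zpow_natCast, ← hn, inv_inv]

/-- `ζ - 1` is fixed by `Γ₁`. -/
theorem brkTame_pi_fixed : ∀ σ ∈ stabI P ζ, σ (ζ - 1) = ζ - 1 := by
  intro σ hσ
  rw [map_sub, map_one, hσ.2]

/-! ### the shapes of `int_abs_tame` for `H = gauH N Γ₁` -/

/-- `hval` of `int_abs_tame` for `H = gauH N (stabI P ζ)`. -/
theorem brkTame_hval (N : ℕ) (hp : p.Prime) (hP : P.LiesOverPrime p)
    (hζ : IsPrimitiveRoot ζ p) :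
    ∀ c : Kb, c ≠ 0 →
      (∀ t ∈ gauH N (stabI P ζ : Set GK), SemilinearAut.baseAut t c = c) →
      ∃ n : ℤ, P.valuation c = P.valuation (ζ - 1) ^ n :=
  fun c hc0 hc => brkTame_val_rat hp hP hζ hc0 (gauH_baseAut' hc)

/-- `π = ζ - 1` is `H`-rational for `H = gauH N (stabI P ζ)`. -/
theorem brkTame_pi_rat (N : ℕ) :
    ∀ t ∈ gauH N (stabI P ζ : Set GK), SemilinearAut.baseAut t (ζ - 1) = ζ - 1 :=
  gauH_baseAut (fun σ hσ => brkTame_pi_fixed σ hσ)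

end Fermat.Agent.PeuD
end
end MergeWrap_Lib_BadRed_PeuD_BrkTame
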